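import Fermat.Agent.S17.FC.WQ
import Fermat.Agent.S17.PL.Plu
import Fermat.Agent.S17.Closed.Point

/-!
# S17, FRAME-CURVE: adapter from `FC/Defs` to the abstract families of `Closed/Bridge`
-/

set_option autoImplicit false
set_option synthInstance.maxHeartbeats 400000

open AlgebraicCurve ModularCurve

namespace Fermat.Agent.S17Lib

open Fermat.Agent.S18Lib Fermat.Agent.S24Lib Fermat.Agent.ESLib Fermat.Agent.FFLib
  Fermat.Agent.S28Lib Height

variable (N : ℕ) [NeZero N]

theorem CC_real_eq (b : ℕ) : CL_real (K := Qb) (bas N b) = vecB N b := rfl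

theorem CC_span_bas (b : ℕ) :
    Submodule.span Qb (Set.range (bas N b)) = riemannRochSpace (dvo N b 0) := (bas_spec N b).2.2

theorem CC_li_bas (b : ℕ) : LinearIndependent Qb (bas N b) := (bas_spec N b).2.1

theorem CC_range_vecB (b : ℕ) : LinearMap.range (vecB N b) = riemannRochSpace (dvo N b 0) := by
  rw [← (bas_spec N b).2.2]
  exact Fintype.range_linearCombination Qb (bas N b)

theorem CC_map_WB (b : ℕ) (E : Divisor Qb (FB N)) (hE : 0 ≤ E) :
    (WB N b E).map (vecB N b) = riemannRochSpace (dvo N b E) := by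
  unfold WB
  rw [Submodule.map_comap_eq, CC_range_vecB]
  apply inf_eq_right.mpr
  apply L_mono
  exact sub_le_sub_left hE _

/-- the structure constants in the shape of `CL_real_mulC` -/
theorem CC_hcst (m b : ℕ) (h : tauP N m b (tau N m b)) (u : Fin (dV N m)) (j : Fin (dV N b)) :
    bas N m u * bas N b j = ∑ k, (algebraMap ℚ Qb (tau N m b u j k)) • bas N (b + m) k := by
  rw [h u j]
  simp only [vecQ, vecB, toQb, Fintype.linearCombination_apply]
  rfl

/-- (CC1) basis matrices -/
theorem CC_exists_matrix (b : ℕ) (E : Divisor Qb (FB N)) (hE : E ∈ DvS N) (k : ℕ)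
    (hk : FFLib.ell (dvo N b E) = k) :
    ∃ B : Matrix (Fin k) (Fin (dV N b)) ℚ, plu B ≠ 0 ∧ FC_HH N b E = logHeight (plu B) ∧
      CL_rowSp (bas N b) (B.map (algebraMap ℚ Qb)) = riemannRochSpace (dvo N b E) := by
  obtain ⟨B, -, hs, hp, hH⟩ := PL_exists_basis_matrix' (WQ N b E) ((finrank_WQ N b hE).trans hk)
  refine ⟨B, hp, hH, ?_⟩
  rw [← CC_map_WB N b E hE.1, ← span_toQb_WQ N b hE, ← hs]
  unfold CL_rowSp
  rw [Submodule.map_span, CC_real_eq]
  apply le_antisymm
  · rw [Submodule.span_le]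
    rintro _ ⟨l, rfl⟩
    apply Submodule.subset_span
    exact ⟨toQb _ (B l), ⟨B l, Submodule.subset_span ⟨l, rfl⟩, rfl⟩, rfl⟩
  · rw [Submodule.span_le]
    rintro _ ⟨_, ⟨x, hx, rfl⟩, rfl⟩
    refine Submodule.span_induction (p := fun x _ => vecB N b (toQb _ x) ∈
      Submodule.span Qb (Set.range fun l => vecB N b ((B.map (algebraMap ℚ Qb)) l))) ?_ ?_ ?_ ?_ hx
    · rintro _ ⟨l, rfl⟩
      exact Submodule.subset_span ⟨l, rfl⟩
    · rw [map_zero, map_zero]; exact Submodule.zero_mem _
    · intro x y _ _ hx hy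
      rw [map_add, map_add]; exact Submodule.add_mem _ hx hy
    · intro q x _ hx
      have : toQb (dV N b) (q • x) = (algebraMap ℚ Qb q) • toQb (dV N b) x := by
        rw [map_smul, algebraMap_smul]
      rw [this, map_smul]
      exact Submodule.smul_mem _ _ hx

end Fermat.Agent.S17Lib
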