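import Fermat.Agent.S17.FC.Defs

/-!
# S17, FRAME-CURVE, Galois side: the rational cusp `∞`, effective rational divisors, classes
-/

set_option autoImplicit false
set_option synthInstance.maxHeartbeats 400000

open AlgebraicCurve ModularCurve

namespace Fermat.Agent.S17Lib

open Fermat.Agent.S18Lib Fermat.Agent.S24Lib Fermat.Agent.ESLib Fermat.Agent.FFLib
  Fermat.Agent.S28Lib

noncomputable section

theorem FG_order_smul (N : ℕ) (σ : GQ) (f : FB N) :
    ((gq N σ • f : FB N) : LaurentSeries Qb).order = (f : LaurentSeries Qb).order := by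
  rw [coe_arithmeticGalois_smul]
  by_cases hf : (f : LaurentSeries Qb) = 0
  · rw [hf, map_zero]
  have hinj : Function.Injective (σ : Qb →+* Qb) := (σ : Qb →+* Qb).injective
  have hne : coeffMap (σ : Qb →+* Qb) (f : LaurentSeries Qb) ≠ 0 := by
    intro h
    apply hf
    ext n
    have := congrArg (fun g : LaurentSeries Qb => g.coeff n) h
    simp only [coeffMap_coeff, HahnSeries.coeff_zero] at this
    simpa using this
  apply le_antisymm
  · apply HahnSeries.order_le_of_coeff_ne_zero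
    rw [coeffMap_coeff]
    intro h
    exact hf (HahnSeries.coeff_order_eq_zero.mp (by simpa using h))
  · apply HahnSeries.order_le_of_coeff_ne_zero
    intro h
    apply hne
    apply HahnSeries.coeff_order_eq_zero.mp
    rw [coeffMap_coeff, h, map_zero]

theorem FG_oo_ord_smul (N : ℕ) [NeZero N] (σ : GQ) (f : FB N) :
    (oo N).ord (gq N σ • f) = (oo N).ord f := by
  by_cases hf : f = 0
  · simp [hf]
  have hf' : gq N σ • f ≠ 0 := by simpa using hf
  rw [← oo_ord N f hf, ← oo_ord N _ hf', FG_order_smul]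

/-- the cusp `∞` is rational -/
theorem FG_oo_smul (N : ℕ) [NeZero N] (σ : GQ) : gq N σ • oo N = oo N := by
  apply place_ext_of_ord
  intro f hf
  have h1 := SemilinearAut.ord_smul (gq N σ) (oo N) ((gq N σ)⁻¹ • f)
  rw [smul_inv_smul] at h1
  rw [h1] at hf
  have h2 := FG_oo_ord_smul N σ ((gq N σ)⁻¹ • f)
  rw [smul_inv_smul] at h2
  rw [h2]
  exact hf

theorem FG_nonneg {N : ℕ} (E : Dv N) : 0 ≤ (E : Divisor Qb (FB N)) := E.2.1

theorem FG_smul {N : ℕ} (E : Dv N) (σ : GQ) :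
    gq N σ • (E : Divisor Qb (FB N)) = (E : Divisor Qb (FB N)) := E.2.2 σ

theorem FG_degree_nonneg {N : ℕ} [NeZero N] (E : Dv N) :
    0 ≤ Divisor.degree (E : Divisor Qb (FB N)) := dg_degree_nonneg (isFF_bar N) (FG_nonneg E)

/-- the degree -/
def dvDeg (N : ℕ) [NeZero N] : Dv N →+ ℕ where
  toFun E := (Divisor.degree (E : Divisor Qb (FB N))).toNat
  map_zero' := by simp
  map_add' E E' := by
    have h1 := (FG_degree_nonneg E)
    have h2 := (FG_degree_nonneg E')
    show (Divisor.degree ((E : Divisor Qb (FB N)) + (E' : Divisor Qb (FB N)))).toNat = _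
    rw [map_add]
    omega

theorem coe_dvDeg {N : ℕ} [NeZero N] (E : Dv N) :
    ((dvDeg N E : ℕ) : ℤ) = Divisor.degree (E : Divisor Qb (FB N)) :=
  Int.toNat_of_nonneg (FG_degree_nonneg E)

/-- the degree zero divisor `E - deg E ∞` -/
def dvZero {N : ℕ} [NeZero N] (E : Dv N) : Divisor.degZero (K := Qb) (F := FB N) :=
  ⟨(E : Divisor Qb (FB N)) - Finsupp.single (oo N) ((dvDeg N E : ℕ) : ℤ), by
    rw [Divisor.mem_degZero, map_sub, degree_single' (isFF_bar N), coe_dvDeg, sub_self]⟩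

theorem dvZero_add {N : ℕ} [NeZero N] (E E' : Dv N) : dvZero (E + E') = dvZero E + dvZero E' := by
  apply Subtype.ext
  show ((E : Divisor Qb (FB N)) + (E' : Divisor Qb (FB N)))
      - Finsupp.single (oo N) ((dvDeg N (E + E') : ℕ) : ℤ)
    = ((E : Divisor Qb (FB N)) - Finsupp.single (oo N) ((dvDeg N E : ℕ) : ℤ))
      + ((E' : Divisor Qb (FB N)) - Finsupp.single (oo N) ((dvDeg N E' : ℕ) : ℤ))
  rw [map_add, Nat.cast_add, Finsupp.single_add]
  abel

theorem dvZero_fixed {N : ℕ} [NeZero N] (E : Dv N) (σ : GQ) :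
    σ • (Pic0.mk (dvZero E) : JZero N) = Pic0.mk (dvZero E) := by
  rw [galois_smul_pic0_def, SemilinearAut.pic0_smul_mk]
  refine congrArg Pic0.mk (Subtype.ext ?_)
  rw [SemilinearAut.coe_degZeroSMulHom]
  show gq N σ • ((E : Divisor Qb (FB N)) - Finsupp.single (oo N) ((dvDeg N E : ℕ) : ℤ)) = _
  rw [smul_sub, FG_smul E, SemilinearAut.smul_single, FG_oo_smul]
  rfl

/-- the class `[E - deg E ∞]` -/
def dvCl (N : ℕ) [NeZero N] : Dv N →+ MW N where
  toFun E := ⟨Pic0.mk (dvZero E), fun σ => dvZero_fixed E σ⟩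
  map_zero' := by
    apply Subtype.ext
    show (Pic0.mk (dvZero (0 : Dv N)) : JZero N) = 0
    have : dvZero (0 : Dv N) = 0 := by
      have := dvZero_add (0 : Dv N) 0
      rw [add_zero] at this
      exact (add_eq_left.mp this.symm)
    rw [this, Pic0.mk_zero]
  map_add' E E' := by
    apply Subtype.ext
    show (Pic0.mk (dvZero (E + E')) : JZero N) = Pic0.mk (dvZero E) + Pic0.mk (dvZero E')
    rw [dvZero_add, Pic0.mk_add]

theorem coe_dvCl {N : ℕ} [NeZero N] (E : Dv N) :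
    ((dvCl N E : MW N) : JZero N) = Pic0.mk (dvZero E) := rfl

/-- the divisor `∞` -/
def dvO (N : ℕ) [NeZero N] : Dv N :=
  ⟨Finsupp.single (oo N) 1, by
    refine ⟨?_, fun σ => by rw [SemilinearAut.smul_single, FG_oo_smul]⟩
    classical
    intro v
    rw [Finsupp.single_apply]
    split_ifs <;> simp⟩

theorem coe_dvO (N : ℕ) [NeZero N] :
    ((dvO N : Dv N) : Divisor Qb (FB N)) = Finsupp.single (oo N) 1 := rfl

theorem dvDeg_dvO (N : ℕ) [NeZero N] : dvDeg N (dvO N) = 1 := by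
  have := coe_dvDeg (dvO N)
  rw [coe_dvO, degree_single' (isFF_bar N)] at this
  exact_mod_cast this

theorem dvCl_dvO (N : ℕ) [NeZero N] : dvCl N (dvO N) = 0 := by
  apply Subtype.ext
  rw [coe_dvCl]
  have : dvZero (dvO N) = 0 := by
    apply Subtype.ext
    show ((dvO N : Dv N) : Divisor Qb (FB N)) - Finsupp.single (oo N) ((dvDeg N (dvO N) : ℕ) : ℤ) = 0
    rw [dvDeg_dvO, coe_dvO]
    simp
  rw [this, Pic0.mk_zero]
  rfl

/-- reduced rational representative of a rational class -/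
theorem exists_dvRed (N : ℕ) [NeZero N] (x : MW N) :
    ∃ E : Dv N, dvDeg N E ≤ genusR Qb (FB N) ∧ dvCl N E = x ∧
      FFLib.ell (E : Divisor Qb (FB N)) = 1 := by
  obtain ⟨n, E, hE, hn, hE0, hdeg, hfix, hell, hx⟩ :=
    exists_reduced (isFF_bar N) (Set.range (gq N)) (oo N)
      (by rintro _ ⟨σ, rfl⟩; exact FG_oo_smul N σ) (x : JZero N)
      (by rintro _ ⟨σ, rfl⟩; exact x.2 σ)
  let E₁ : Dv N := ⟨E, hE0, fun σ => hfix _ ⟨σ, rfl⟩⟩
  have hd : dvDeg N E₁ = n := by
    have := coe_dvDeg E₁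
    rw [show ((E₁ : Dv N) : Divisor Qb (FB N)) = E from rfl, hdeg] at this
    exact_mod_cast this
  refine ⟨E₁, by rw [hd]; exact hn, ?_, hell⟩
  apply Subtype.ext
  rw [coe_dvCl, hx]
  refine congrArg Pic0.mk (Subtype.ext ?_)
  show E - Finsupp.single (oo N) ((dvDeg N E₁ : ℕ) : ℤ) = E - Finsupp.single (oo N) (n : ℤ)
  rw [hd]

theorem exists_dvR (N : ℕ) [NeZero N] (x : MW N) :
    ∃ E : Dv N, dvDeg N E = genusR Qb (FB N) ∧ dvCl N E = x := by
  obtain ⟨E, hE, hx, -⟩ := exists_dvRed N x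
  refine ⟨E + (genusR Qb (FB N) - dvDeg N E) • dvO N, ?_, ?_⟩
  · rw [map_add, map_nsmul, dvDeg_dvO, smul_eq_mul, mul_one]
    omega
  · rw [map_add, map_nsmul, dvCl_dvO, smul_zero, add_zero, hx]

/-- a rational effective representative of degree `g` -/
def dvR (N : ℕ) [NeZero N] (x : MW N) : Dv N := (exists_dvR N x).choose

theorem dvDeg_dvR (N : ℕ) [NeZero N] (x : MW N) : dvDeg N (dvR N x) = genusR Qb (FB N) :=
  (exists_dvR N x).choose_spec.1

theorem dvCl_dvR (N : ℕ) [NeZero N] (x : MW N) : dvCl N (dvR N x) = x :=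
  (exists_dvR N x).choose_spec.2

theorem FG_exists_smul_of_divOf_eq {N : ℕ} [NeZero N] {a b : FB N} (ha : a ≠ 0) (hb : b ≠ 0)
    (h : divOf Qb a = divOf Qb b) : ∃ c : Qb, c ≠ 0 ∧ b = c • a := by
  have h1 : b / a ∈ (algebraMap Qb (FB N)).range := by
    by_contra hcon
    obtain ⟨v, hv⟩ := ce3_exists_pole (isFF_bar N) hcon
    have h2 := congrArg (fun D : Divisor Qb (FB N) => D v) h
    simp only [divOf_apply (isFF_bar N)] at h2
    rw [div_eq_mul_inv, v.ord_mul hb (inv_ne_zero ha), v.ord_inv, h2] at hv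
    omega
  obtain ⟨c, hc⟩ := h1
  refine ⟨c, ?_, ?_⟩
  · rintro rfl
    rw [map_zero] at hc
    exact (div_ne_zero hb ha) hc.symm
  · rw [Algebra.smul_def, hc, div_mul_cancel₀ _ ha]

theorem FG_coeff_smul {N : ℕ} (c : Qb) (x : FB N) (n : ℤ) :
    ((c • x : FB N) : LaurentSeries Qb).coeff n = c * (x : LaurentSeries Qb).coeff n := by
  rw [Algebra.smul_def]
  show (algebraMap Qb (LaurentSeries Qb) c * (x : LaurentSeries Qb)).coeff n = _
  rw [algebraMap_eq_C, HahnSeries.C_mul_eq_smul, HahnSeries.coeff_smul, smul_eq_mul]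

/-- a function whose divisor is rational is a constant times a rational function -/
theorem FG_exists_rat_of_divOf_fixed {N : ℕ} [NeZero N] {a : FB N} (ha : a ≠ 0)
    (h : ∀ σ : GQ, gq N σ • divOf Qb a = divOf Qb a) :
    ∃ u : FB N, u ≠ 0 ∧ IsRat N u ∧ divOf Qb u = divOf Qb a := by
  have ha' : (a : LaurentSeries Qb) ≠ 0 := fun h0 => ha (Subtype.ext h0)
  set n := (a : LaurentSeries Qb).order with hn
  set c := (a : LaurentSeries Qb).coeff n with hc
  have hc0 : c ≠ 0 := fun h0 => ha' (HahnSeries.coeff_order_eq_zero.mp h0)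
  have hu0 : c⁻¹ • a ≠ 0 := smul_ne_zero (inv_ne_zero hc0) ha
  have hcoe : ((c⁻¹ • a : FB N) : LaurentSeries Qb).coeff n = 1 := by
    rw [FG_coeff_smul, ← hc, inv_mul_cancel₀ hc0]
  have hdiv : divOf Qb (c⁻¹ • a) = divOf Qb a := gb_divOf_smul (isFF_bar N) (inv_ne_zero hc0) a
  refine ⟨c⁻¹ • a, hu0, fun σ => ?_, hdiv⟩
  have h1 : divOf Qb (c⁻¹ • a) = divOf Qb (gq N σ • (c⁻¹ • a)) := by
    rw [← gb_smul_divOf (isFF_bar N), hdiv, h σ]
  obtain ⟨d, hd0, hd⟩ := FG_exists_smul_of_divOf_eq hu0 (by simpa using hu0) h1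
  have h2 := congrArg (fun g : FB N => (g : LaurentSeries Qb).coeff n) hd
  simp only [coe_arithmeticGalois_smul, coeffMap_coeff] at h2
  rw [hcoe] at h2
  have h3 : ((d • (c⁻¹ • a) : FB N) : LaurentSeries Qb).coeff n = d := by
    rw [FG_coeff_smul, hcoe, mul_one]
  rw [h3] at h2
  have hd1 : d = 1 := by rw [← h2]; simp
  rw [hd, hd1, one_smul]

/-- two effective rational divisors of the same degree have the same class iff they differ by
the divisor of a RATIONAL function -/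
theorem dvCl_eq_iff {N : ℕ} [NeZero N] {E E' : Dv N} (hdeg : dvDeg N E = dvDeg N E') :
    dvCl N E = dvCl N E' ↔ ∃ u : FB N, u ≠ 0 ∧ IsRat N u ∧
      (E' : Divisor Qb (FB N)) - (E : Divisor Qb (FB N)) = divOf Qb u := by
  constructor
  · intro h
    have h1 : (Pic0.mk (dvZero E) : JZero N) = Pic0.mk (dvZero E') := congrArg Subtype.val h
    have h2 : (-(dvZero E) + dvZero E' : Divisor.degZero (K := Qb) (F := FB N))
          ∈ (Divisor.principal (K := Qb) (F := FB N)).addSubgroupOf _ :=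
        (QuotientAddGroup.eq).mp h1
    rw [AddSubgroup.mem_addSubgroupOf] at h2
    have h3 : ((-(dvZero E) + dvZero E' : Divisor.degZero (K := Qb) (F := FB N)) :
        Divisor Qb (FB N)) = (E' : Divisor Qb (FB N)) - (E : Divisor Qb (FB N)) := by
      show -((E : Divisor Qb (FB N)) - Finsupp.single (oo N) ((dvDeg N E : ℕ) : ℤ))
        + ((E' : Divisor Qb (FB N)) - Finsupp.single (oo N) ((dvDeg N E' : ℕ) : ℤ)) = _
      rw [hdeg]
      abel
    rw [h3] at h2
    obtain ⟨a, ha, hDa⟩ := (gb_principal_iff (isFF_bar N)).mp h2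
    obtain ⟨u, hu0, hu, hdu⟩ := FG_exists_rat_of_divOf_fixed ha (fun σ => by
      rw [← hDa, smul_sub, FG_smul E, FG_smul E'])
    exact ⟨u, hu0, hu, by rw [hdu, hDa]⟩
  · rintro ⟨u, hu0, -, hu⟩
    apply Subtype.ext
    rw [coe_dvCl, coe_dvCl]
    apply (QuotientAddGroup.eq).mpr
    rw [AddSubgroup.mem_addSubgroupOf]
    refine (gb_principal_iff (isFF_bar N)).mpr ⟨u, hu0, ?_⟩
    rw [← hu]
    show -((E : Divisor Qb (FB N)) - Finsupp.single (oo N) ((dvDeg N E : ℕ) : ℤ))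
        + ((E' : Divisor Qb (FB N)) - Finsupp.single (oo N) ((dvDeg N E' : ℕ) : ℤ)) = _
    rw [hdeg]
    abel

theorem FG_degree_dvo {N : ℕ} [NeZero N] (b : ℕ) (E : Dv N) :
    Divisor.degree (dvo N b (E : Divisor Qb (FB N))) = (b : ℤ) - dvDeg N E := by
  rw [map_sub, degree_single' (isFF_bar N), coe_dvDeg]

theorem FG_smul_dvo {N : ℕ} [NeZero N] (b : ℕ) (E : Dv N) (σ : GQ) :
    gq N σ • dvo N b (E : Divisor Qb (FB N)) = dvo N b (E : Divisor Qb (FB N)) := by
  rw [smul_sub, SemilinearAut.smul_single, FG_oo_smul, FG_smul E]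

/-- the residual zero divisor of a rational function `f ∈ L(b ∞ - E)` -/
theorem exists_dvZ {N : ℕ} [NeZero N] (b : ℕ) (E : Dv N) {f : FB N} (hf0 : f ≠ 0) (hf : IsRat N f)
    (hmem : f ∈ riemannRochSpace (dvo N b (E : Divisor Qb (FB N)))) :
    ∃ G : Dv N, divOf Qb f = (E : Divisor Qb (FB N)) + (G : Divisor Qb (FB N))
        - Finsupp.single (oo N) (b : ℤ) ∧ dvDeg N E + dvDeg N G = b := by
  have h0 := dg_add_divOf_nonneg (isFF_bar N) hmem hf0
  let G : Dv N := ⟨dvo N b (E : Divisor Qb (FB N)) + divOf Qb f, h0, fun σ => by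
    rw [smul_add, FG_smul_dvo, gb_smul_divOf (isFF_bar N), hf σ]⟩
  refine ⟨G, ?_, ?_⟩
  · show divOf Qb f = (E : Divisor Qb (FB N))
      + ((Finsupp.single (oo N) (b : ℤ) - (E : Divisor Qb (FB N))) + divOf Qb f) - _
    abel
  · have h1 := coe_dvDeg G
    rw [show ((G : Dv N) : Divisor Qb (FB N)) = dvo N b (E : Divisor Qb (FB N)) + divOf Qb f from rfl, map_add,
      degree_divOf (isFF_bar N), FG_degree_dvo] at h1
    omega

/-- Galois stability of `L(D)` for a rational divisor `D` -/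
theorem FG_smul_mem_L {N : ℕ} [NeZero N] {D : Divisor Qb (FB N)} (σ : GQ) (hD : gq N σ • D = D)
    {f : FB N} (hf : f ∈ riemannRochSpace D) : gq N σ • f ∈ riemannRochSpace D := by
  rw [mem_L_iff] at hf ⊢
  intro v
  rcases hf ((gq N σ)⁻¹ • v) with h0 | h0
  · left
    rw [h0, smul_zero]
  · right
    have h1 := SemilinearAut.ord_smul (gq N σ) ((gq N σ)⁻¹ • v) f
    rw [smul_inv_smul] at h1
    rw [h1]
    have h2 : D ((gq N σ)⁻¹ • v) = D v := by
      conv_rhs => rw [← hD]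
      rw [SemilinearAut.divisor_smul_apply]
    rw [← h2]
    exact h0

end

end Fermat.Agent.S17Lib
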