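import Fermat.Agent.S17.FC.WQ
import Fermat.Agent.S17.FC.Gal
import Fermat.Agent.S17.PL.Sub

/-!
# S17 FRAME-CURVE (F3): no zero divisors for `tau`, and (inv)
-/

set_option autoImplicit false
set_option synthInstance.maxHeartbeats 400000
set_option linter.unusedSectionVars false

open AlgebraicCurve ModularCurve

namespace Fermat.Agent.S17Lib

open Fermat.Agent.S18Lib Fermat.Agent.S24Lib Fermat.Agent.ESLib Fermat.Agent.FFLib
  Fermat.Agent.S28Lib

noncomputable section

variable (N : ℕ) [NeZero N]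

/-- the hypothesis (nzd) of `M_abs` / `PL_subH_mul_abs` for `c := tau N m b` -/
theorem FI_nzd (m b : ℕ) (htau : tauP N m b (tau N m b))
    (f : Fin (dV N m) → Qb) (w : Fin (dV N b) → Qb)
    (h : ∀ l, ∑ a, ∑ i, f a * w i * algebraMap ℚ Qb (tau N m b a i l) = 0) : f = 0 ∨ w = 0 := by
  have hF : vecB N m f * vecB N b w = 0 := by
    rw [vecB_apply, vecB_apply, Finset.sum_mul_sum]
    have h1 : ∀ a i, (f a • bas N m a) * (w i • bas N b i) =
        ∑ l, (f a * w i * algebraMap ℚ Qb (tau N m b a i l)) • bas N (b + m) l := by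
      intro a i
      rw [smul_mul_smul_comm, htau a i, vecQ_apply, Finset.smul_sum]
      exact Finset.sum_congr rfl fun l _ => by rw [smul_smul]
    simp only [h1]
    have key : ∀ (X : Fin (dV N m) → Fin (dV N b) → Fin (dV N (b + m)) → FB N),
        ∑ a, ∑ i, ∑ l, X a i l = ∑ l, ∑ a, ∑ i, X a i l := by
      intro X
      calc ∑ a, ∑ i, ∑ l, X a i l = ∑ a, ∑ l, ∑ i, X a i l :=
            Finset.sum_congr rfl (fun a _ => Finset.sum_comm)
        _ = ∑ l, ∑ a, ∑ i, X a i l := Finset.sum_comm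
    rw [key]
    refine Finset.sum_eq_zero fun l _ => ?_
    simp only [← Finset.sum_smul]
    rw [h l, zero_smul]
  rcases mul_eq_zero.mp hF with h0 | h0
  · left
    exact vecB_injective N m (by rw [h0, map_zero])
  · right
    exact vecB_injective N b (by rw [h0, map_zero])

theorem FI_isRat_mul {f u : FB N} (hf : IsRat N f) (hu : IsRat N u) : IsRat N (f * u) := by
  intro σ
  rw [smul_mul', hf σ, hu σ]

theorem FI_isRat_inv {u : FB N} (hu : IsRat N u) : IsRat N u⁻¹ := by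
  intro σ
  rw [smul_inv'', hu σ]

theorem FI_mul_mem {D : Divisor Qb (FB N)} {g u : FB N} (hu : u ≠ 0)
    (hg : g ∈ riemannRochSpace D) : u * g ∈ riemannRochSpace (D - divOf Qb u) := by
  rw [mem_L_iff] at hg ⊢
  intro v
  rcases hg v with h0 | h0
  · left; rw [h0, mul_zero]
  · by_cases hg0 : g = 0
    · left; rw [hg0, mul_zero]
    right
    rw [v.ord_mul hu hg0, Finsupp.sub_apply, divOf_apply (isFF_bar N)]
    omega

theorem FI_map_le (m b : ℕ)
    (hmul : ∀ c x, vecQ N (b + m) (mulQ N m b c x) = vecQ N m c * vecQ N b x)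
    (E E' : Divisor Qb (FB N)) (hE' : 0 ≤ E') (u : FB N) (hu0 : u ≠ 0) (hur : IsRat N u)
    (hdiv : E' - E = divOf Qb u) (cf cf' : Fin (dV N m) → ℚ)
    (hcf : vecQ N m cf' = vecQ N m cf * u) :
    (WQ N b E).map (mulQ N m b cf') ≤ (WQ N b E').map (mulQ N m b cf) := by
  rintro _ ⟨x, hx, rfl⟩
  have hx' : vecQ N b x ∈ riemannRochSpace (dvo N b E) := hx
  have h1 : u * vecQ N b x ∈ riemannRochSpace (dvo N b E') := by
    have h2 := FI_mul_mem N hu0 hx'
    have h3 : dvo N b E - divOf Qb u = dvo N b E' := by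
      rw [← hdiv]
      simp only [dvo]
      abel
    rwa [h3] at h2
  obtain ⟨y, hy⟩ := exists_vecQ_of_isRat N (L_mono (dvo_le N b hE') h1)
    (FI_isRat_mul N hur (isRat_vecQ N b x))
  refine ⟨y, ?_, ?_⟩
  · show vecQ N b y ∈ riemannRochSpace (dvo N b E')
    rw [hy]; exact h1
  · apply vecQ_injective N (b + m)
    rw [hmul, hmul, hy, hcf]
    ring

/-- **(inv)** in the shape of `FDa.Inputs.inv` -/
theorem FI_inv (htau : ∀ m b, tauP N m b (tau N m b))
    (hmul : ∀ m b c x, vecQ N (b + m) (mulQ N m b c x) = vecQ N m c * vecQ N b x)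
    (c : ℕ) (hc : IsRRBound Qb (FB N) (c : ℤ)) (n B : ℕ) :
    ∃ C : ℝ, ∀ E E' : Dv N, dvDeg N E = n → dvDeg N E' = n → dvCl N E = dvCl N E' →
      ∃ δ : ℝ, ∀ b : ℕ, n + c ≤ b → b ≤ B →
        |FC_HH N b E - FC_HH N b E' - ((b : ℝ) - n + 1 - genusR Qb (FB N)) * δ| ≤ C := by
  set m := n + genusR Qb (FB N) with hm
  have hM := fun b : ℕ => PL_subH_mul_abs (tau N m b) (FI_nzd N m b (htau m b))
  choose Cb hCb using hM
  refine ⟨2 * ∑ b ∈ Finset.range (B + 1), |Cb b|, fun E E' hE hE' hcl => ?_⟩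
  obtain ⟨u, hu0, hur, hdiv⟩ := (dvCl_eq_iff (hE.trans hE'.symm)).mp hcl
  -- a nonzero element of `WQ m E`
  have hfr : 0 < Module.finrank ℚ (WQ N m (E : Divisor Qb (FB N))) := by
    rw [finrank_WQ N m E.2]
    have h1 : Divisor.degree (dvo N m (E : Divisor Qb (FB N))) + 1 - (genusR Qb (FB N) : ℤ) ≤
        (FFLib.ell (dvo N m (E : Divisor Qb (FB N))) : ℤ) :=
      riemann_inequality (isFF_bar N) (dvo N m (E : Divisor Qb (FB N)))
    rw [FG_degree_dvo, hE] at h1
    have : (0 : ℤ) < (FFLib.ell (dvo N m (E : Divisor Qb (FB N))) : ℤ) := by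
      rw [hm] at h1 ⊢
      push_cast at h1
      omega
    exact_mod_cast this
  obtain ⟨⟨cf, hcfm⟩, hcf0⟩ := Module.finrank_pos_iff_exists_ne_zero.mp hfr
  have hcf0' : cf ≠ 0 := fun h => hcf0 (Subtype.ext h)
  have hcfm' : vecQ N m cf ∈ riemannRochSpace (dvo N m (E : Divisor Qb (FB N))) := hcfm
  -- `f' = f u`
  have h1 : u * vecQ N m cf ∈ riemannRochSpace (dvo N m (E' : Divisor Qb (FB N))) := by
    have h2 := FI_mul_mem N hu0 hcfm'
    have h3 : dvo N m (E : Divisor Qb (FB N)) - divOf Qb u = dvo N m (E' : Divisor Qb (FB N)) := by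
      rw [← hdiv]
      simp only [dvo]
      abel
    rwa [h3] at h2
  obtain ⟨cf', hcf'⟩ := exists_vecQ_of_isRat N (L_mono (dvo_le N m E'.2.1) h1)
    (FI_isRat_mul N hur (isRat_vecQ N m cf))
  have hvf0 : vecQ N m cf ≠ 0 := fun h => hcf0' (vecQ_injective N m (by rw [h, vecQ_zero]))
  have hcf'0 : cf' ≠ 0 := by
    rintro rfl
    rw [vecQ_zero] at hcf'
    exact mul_ne_zero hu0 hvf0 hcf'.symm
  refine ⟨Height.logHeight cf - Height.logHeight cf', fun b hb hbB => ?_⟩
  -- the two images coincide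
  have himg : (WQ N b (E : Divisor Qb (FB N))).map (mulQ N m b cf') =
      (WQ N b (E' : Divisor Qb (FB N))).map (mulQ N m b cf) := by
    apply le_antisymm
    · exact FI_map_le N m b (hmul m b) _ _ E'.2.1 u hu0 hur hdiv cf cf' (by rw [hcf', mul_comm])
    · refine FI_map_le N m b (hmul m b) _ _ E.2.1 u⁻¹ (inv_ne_zero hu0) (FI_isRat_inv N hur) ?_
        cf' cf (by rw [hcf']; field_simp)
      ext v
      have := congrArg (fun D : Divisor Qb (FB N) => D v) hdiv
      simp only [Finsupp.sub_apply, divOf_apply (isFF_bar N)] at this ⊢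
      rw [v.ord_inv]
      omega
  have hk : ∀ E₁ : Dv N, dvDeg N E₁ = n →
      (Module.finrank ℚ (WQ N b (E₁ : Divisor Qb (FB N))) : ℝ) =
        (b : ℝ) - n + 1 - genusR Qb (FB N) := by
    intro E₁ hE₁
    rw [finrank_WQ N b E₁.2]
    have h2 : (FFLib.ell (dvo N b (E₁ : Divisor Qb (FB N))) : ℤ) =
        Divisor.degree (dvo N b (E₁ : Divisor Qb (FB N))) + 1 - (genusR Qb (FB N) : ℤ) :=
      hc _ (by rw [FG_degree_dvo, hE₁]; push_cast; omega)
    rw [FG_degree_dvo, hE₁] at h2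
    exact_mod_cast h2
  have e1 := hCb b cf' (WQ N b (E : Divisor Qb (FB N))) hcf'0
  have e2 := hCb b cf (WQ N b (E' : Divisor Qb (FB N))) hcf0'
  rw [hk E hE] at e1
  rw [hk E' hE'] at e2
  have e3 : subH ((WQ N b (E : Divisor Qb (FB N))).map (mulQ N m b cf')) =
      subH ((WQ N b (E' : Divisor Qb (FB N))).map (mulQ N m b cf)) := by rw [himg]
  have hCle : Cb b ≤ ∑ b ∈ Finset.range (B + 1), |Cb b| :=
    (le_abs_self _).trans (Finset.single_le_sum (f := fun b => |Cb b|) (fun i _ => abs_nonneg _)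
      (Finset.mem_range.mpr (by omega)))
  unfold mulQ at e3
  rw [e3] at e1
  rw [abs_le] at e1 e2 ⊢
  unfold FC_HH
  constructor <;> nlinarith [e1.1, e1.2, e2.1, e2.2]

end

end Fermat.Agent.S17Lib
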