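import Fermat.Agent.S17.FC.Bas

/-!
# S17 FRAME-CURVE (F3a): multiplication in rational coordinates

`FCM_tau_spec`, `FCM_vecQ_mulQ`, `FCM_Zd_mem`, `FCM_Zd_deg`, `FCM_mulQ_injective`,
`FCM_map_mulQ_WQ` : `mulQ m b c` maps `WQ b E` onto `WQ (b+m) (E + Zd m c)`.
-/

set_option autoImplicit false
set_option synthInstance.maxHeartbeats 400000
set_option linter.unusedSectionVars false

open AlgebraicCurve ModularCurve

namespace Fermat.Agent.S17Lib

open Fermat.Agent.S18Lib Fermat.Agent.S24Lib Fermat.Agent.ESLib Fermat.Agent.FFLib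
  Fermat.Agent.S28Lib

noncomputable section

variable (N : ℕ) [NeZero N]

theorem FCM_vecB_apply (b : ℕ) (x : Fin (dV N b) → Qb) :
    vecB N b x = ∑ i, x i • bas N b i := by
  simp [vecB, Fintype.linearCombination_apply]

theorem FCM_vecQ_apply (b : ℕ) (c : Fin (dV N b) → ℚ) :
    vecQ N b c = ∑ i, algebraMap ℚ Qb (c i) • bas N b i := by
  rw [vecQ, FCM_vecB_apply]
  rfl

theorem FCM_vecB_injective (b : ℕ) : Function.Injective (vecB N b) := by
  have h := (bas_spec N b).2.1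
  rw [← LinearMap.ker_eq_bot]
  rw [LinearMap.ker_eq_bot']
  intro x hx
  rw [FCM_vecB_apply] at hx
  funext i
  exact Fintype.linearIndependent_iff.mp h x hx i

theorem FCM_toQb_injective (d : ℕ) : Function.Injective (toQb d) := by
  intro x y h
  funext i
  have h1 := congrFun h i
  exact (algebraMap ℚ Qb).injective h1

theorem FCM_vecQ_injective (b : ℕ) : Function.Injective (vecQ N b) := fun _ _ h =>
  FCM_toQb_injective _ (FCM_vecB_injective N b h)

theorem FCM_vecB_mem (b : ℕ) (x : Fin (dV N b) → Qb) :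
    vecB N b x ∈ riemannRochSpace (dvo N b 0) := by
  rw [← (bas_spec N b).2.2, FCM_vecB_apply]
  exact Submodule.sum_mem _ fun i _ => Submodule.smul_mem _ _ (Submodule.subset_span ⟨i, rfl⟩)

theorem FCM_vecQ_mem (b : ℕ) (c : Fin (dV N b) → ℚ) :
    vecQ N b c ∈ riemannRochSpace (dvo N b 0) := FCM_vecB_mem N b _

theorem FCM_vecQ_zero (b : ℕ) : vecQ N b 0 = 0 := by
  simp [vecQ]

theorem FCM_vecQ_ne_zero {b : ℕ} {c : Fin (dV N b) → ℚ} (hc : c ≠ 0) : vecQ N b c ≠ 0 := by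
  intro h
  exact hc (FCM_vecQ_injective N b (h.trans (FCM_vecQ_zero N b).symm))

theorem FCM_isRat_mul {f g : FB N} (hf : IsRat N f) (hg : IsRat N g) : IsRat N (f * g) := by
  intro σ
  rw [smul_mul', hf σ, hg σ]

theorem FCM_isRat_inv {f : FB N} (hf : IsRat N f) : IsRat N f⁻¹ := by
  intro σ
  rw [smul_inv'', hf σ]

theorem FCM_isRat_vecQ (b : ℕ) (c : Fin (dV N b) → ℚ) : IsRat N (vecQ N b c) := by
  intro σ
  rw [FCM_vecQ_apply, Finset.smul_sum]
  refine Finset.sum_congr rfl fun i _ => ?_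
  rw [gq_smul_smul, (bas_spec N b).1 i σ]
  congr 1
  exact σ.commutes _

theorem FCM_exists_vecQ {b : ℕ} {f : FB N} (hf : f ∈ riemannRochSpace (dvo N b 0))
    (hr : IsRat N f) : ∃ c, vecQ N b c = f := by
  rw [← (bas_spec N b).2.2] at hf
  obtain ⟨a, ha⟩ := (Submodule.mem_span_range_iff_exists_fun Qb).mp hf
  obtain ⟨a', ha'⟩ := exists_rat_coord N (bas_spec N b).2.1 (bas_spec N b).1 a
    (by rw [ha]; exact hr)
  exact ⟨a', by rw [FCM_vecQ_apply, ← ha]; simp [ha']⟩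

theorem FCM_dvo_add (m b : ℕ) (E E' : Divisor Qb (FB N)) :
    dvo N m E + dvo N b E' = dvo N (b + m) (E' + E) := by
  unfold dvo
  rw [Nat.cast_add, Finsupp.single_add]
  abel

theorem FCM_tau_spec (m b : ℕ) : tauP N m b (tau N m b) := by
  apply Classical.epsilon_spec (p := tauP N m b)
  have h : ∀ l i, ∃ c, vecQ N (b + m) c = bas N m l * bas N b i := by
    intro l i
    apply FCM_exists_vecQ
    · have h1 : bas N m l ∈ riemannRochSpace (dvo N m 0) := by
        rw [← (bas_spec N m).2.2]; exact Submodule.subset_span ⟨l, rfl⟩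
      have h2 : bas N b i ∈ riemannRochSpace (dvo N b 0) := by
        rw [← (bas_spec N b).2.2]; exact Submodule.subset_span ⟨i, rfl⟩
      have h3 := mul_mem_L h1 h2
      rwa [FCM_dvo_add, add_zero] at h3
    · exact FCM_isRat_mul N ((bas_spec N m).1 l) ((bas_spec N b).1 i)
  choose τ hτ using h
  exact ⟨τ, fun l i => (hτ l i).symm⟩

theorem FCM_mulQ_apply (m b : ℕ) (c : Fin (dV N m) → ℚ) (w : Fin (dV N b) → ℚ)
    (j : Fin (dV N (b + m))) :
    mulQ N m b c w j = ∑ l, ∑ i, c l * w i * tau N m b l i j := by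
  simp only [mulQ, Matrix.toLin'_apply, Matrix.mulVec, dotProduct, Matrix.of_apply,
    Finset.sum_mul]
  rw [Finset.sum_comm]
  refine Finset.sum_congr rfl fun l _ => Finset.sum_congr rfl fun i _ => ?_
  ring

theorem FCM_vecQ_mulQ (m b : ℕ) (c : Fin (dV N m) → ℚ) (w : Fin (dV N b) → ℚ) :
    vecQ N (b + m) (mulQ N m b c w) = vecQ N m c * vecQ N b w := by
  rw [FCM_vecQ_apply N m, FCM_vecQ_apply N b, Finset.sum_mul_sum]
  have h : ∀ l i, (algebraMap ℚ Qb (c l) • bas N m l) * (algebraMap ℚ Qb (w i) • bas N b i)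
      = ∑ j, algebraMap ℚ Qb (c l * w i * tau N m b l i j) • bas N (b + m) j := by
    intro l i
    rw [smul_mul_smul_comm, FCM_tau_spec N m b l i, FCM_vecQ_apply, Finset.smul_sum]
    refine Finset.sum_congr rfl fun j _ => ?_
    rw [smul_smul, map_mul, map_mul]
  simp only [h]
  rw [FCM_vecQ_apply]
  simp only [FCM_mulQ_apply, map_sum, Finset.sum_smul]
  rw [Finset.sum_comm]
  exact Finset.sum_congr rfl fun l _ => Finset.sum_comm

theorem FCM_mulQ_injective (m b : ℕ) {c : Fin (dV N m) → ℚ} (hc : c ≠ 0) :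
    Function.Injective (mulQ N m b c) := by
  intro w w' h
  have h1 := congrArg (vecQ N (b + m)) h
  rw [FCM_vecQ_mulQ, FCM_vecQ_mulQ] at h1
  exact FCM_vecQ_injective N b (mul_left_cancel₀ (FCM_vecQ_ne_zero N hc) h1)

theorem FCM_Zd_apply (m : ℕ) (c : Fin (dV N m) → ℚ) (v : Place Qb (FB N)) :
    Zd N m c v = v.ord (vecQ N m c) + Finsupp.single (oo N) (m : ℤ) v := by
  rw [Zd, Finsupp.add_apply, divOf_apply (isFF_FB N)]

theorem FCM_Zd_nonneg {m : ℕ} {c : Fin (dV N m) → ℚ} (hc : c ≠ 0) : 0 ≤ Zd N m c := by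
  intro v
  have h := (mem_riemannRochSpace_iff.mp (FCM_vecQ_mem N m c) v).resolve_left
    (FCM_vecQ_ne_zero N hc)
  rw [FCM_Zd_apply]
  simp only [dvo, sub_zero] at h
  simp only [Finsupp.coe_zero, Pi.zero_apply]
  linarith

theorem FCM_smul_divOf {f : FB N} (hf : IsRat N f) (σ : GQ) :
    gq N σ • divOf Qb f = divOf Qb f := by
  ext v
  rw [SemilinearAut.divisor_smul_apply, divOf_apply (isFF_FB N), divOf_apply (isFF_FB N)]
  have h1 := SemilinearAut.ord_smul (gq N σ) ((gq N σ)⁻¹ • v) f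
  rw [smul_inv_smul, hf σ] at h1
  exact h1.symm

theorem FCM_Zd_smul (m : ℕ) (c : Fin (dV N m) → ℚ) (σ : GQ) :
    gq N σ • Zd N m c = Zd N m c := by
  rw [Zd, smul_add, FCM_smul_divOf N (FCM_isRat_vecQ N m c), SemilinearAut.smul_single, gq_oo]

theorem FCM_Zd_mem {m : ℕ} {c : Fin (dV N m) → ℚ} (hc : c ≠ 0) : Zd N m c ∈ DvS N :=
  ⟨FCM_Zd_nonneg N hc, FCM_Zd_smul N m c⟩

theorem FCM_Zd_deg (m : ℕ) (c : Fin (dV N m) → ℚ) : Divisor.degree (Zd N m c) = m := by
  rw [Zd, map_add, degree_divOf (isFF_FB N), degree_single' (isFF_FB N), zero_add]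

theorem FCM_mem_WQ {b : ℕ} {E : Divisor Qb (FB N)} {w : Fin (dV N b) → ℚ} :
    w ∈ WQ N b E ↔ vecQ N b w ∈ riemannRochSpace (dvo N b E) := Iff.rfl

theorem FCM_mem_WB {b : ℕ} {E : Divisor Qb (FB N)} {w : Fin (dV N b) → Qb} :
    w ∈ WB N b E ↔ vecB N b w ∈ riemannRochSpace (dvo N b E) := Iff.rfl

theorem FCM_L_mono {b : ℕ} {E : Divisor Qb (FB N)} (hE : 0 ≤ E) :
    riemannRochSpace (dvo N b E) ≤ riemannRochSpace (dvo N b 0) := by
  intro f hf
  rw [mem_riemannRochSpace_iff] at hf ⊢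
  intro v
  rcases hf v with h | h
  · exact Or.inl h
  · right
    have h1 : 0 ≤ E v := hE v
    simp only [dvo, Finsupp.sub_apply, sub_zero] at h ⊢
    linarith

/-- multiplication by `f = vecQ m c`: `g ∈ L(b∞ - E) ↔ f g ∈ L((b+m)∞ - E - Z(f))` -/
theorem FCM_mul_mem_iff {m b : ℕ} {c : Fin (dV N m) → ℚ} (hc : c ≠ 0)
    (E : Divisor Qb (FB N)) (g : FB N) :
    vecQ N m c * g ∈ riemannRochSpace (dvo N (b + m) (E + Zd N m c)) ↔
      g ∈ riemannRochSpace (dvo N b E) := by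
  have hf := FCM_vecQ_ne_zero N hc
  rw [mem_riemannRochSpace_iff, mem_riemannRochSpace_iff]
  refine forall_congr' fun v => ?_
  by_cases hg : g = 0
  · simp [hg]
  · have hfg : vecQ N m c * g ≠ 0 := mul_ne_zero hf hg
    simp only [hg, hfg, false_or]
    rw [v.ord_mul hf hg]
    simp only [dvo, Finsupp.sub_apply, Finsupp.add_apply, FCM_Zd_apply, Nat.cast_add,
      Finsupp.single_add]
    constructor <;> intro h <;> linarith

theorem FCM_map_mulQ_WQ (m b : ℕ) {c : Fin (dV N m) → ℚ} (hc : c ≠ 0)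
    {E : Divisor Qb (FB N)} (hE : 0 ≤ E) :
    (WQ N b E).map (mulQ N m b c) = WQ N (b + m) (E + Zd N m c) := by
  apply le_antisymm
  · rintro _ ⟨w, hw, rfl⟩
    rw [FCM_mem_WQ, FCM_vecQ_mulQ, FCM_mul_mem_iff N hc]
    exact hw
  · intro u hu
    rw [FCM_mem_WQ] at hu
    have hf := FCM_vecQ_ne_zero N hc
    set g : FB N := (vecQ N m c)⁻¹ * vecQ N (b + m) u with hg
    have hfg : vecQ N m c * g = vecQ N (b + m) u := by
      rw [hg, mul_inv_cancel_left₀ hf]
    have hgL : g ∈ riemannRochSpace (dvo N b E) := by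
      rw [← FCM_mul_mem_iff N hc, hfg]
      exact hu
    have hgr : IsRat N g :=
      FCM_isRat_mul N (FCM_isRat_inv N (FCM_isRat_vecQ N m c)) (FCM_isRat_vecQ N _ u)
    obtain ⟨w, hw⟩ := FCM_exists_vecQ N (FCM_L_mono N hE hgL) hgr
    refine ⟨w, ?_, ?_⟩
    · show w ∈ WQ N b E
      rw [FCM_mem_WQ, hw]
      exact hgL
    · apply FCM_vecQ_injective N (b + m)
      rw [FCM_vecQ_mulQ, hw, hfg]

end

end Fermat.Agent.S17Lib
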