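import Fermat.Agent.S17.FC.WQ
import Fermat.Agent.S17.FC.Gal
import Fermat.Agent.S17.Frame.LA
import Fermat.Agent.S17.Geo.Closed

/-!
# S17, block FRAME-CURVE (F4): (shift) up to `O(1)` and injectivity of `E ↦ WQ N b E`

* `FCs_shift`   : `|FC_HH N (b+1) (E + dvO N) - FC_HH N b E| ≤ C` for all `E : Dv N`
* `FCs_WQ_inj`  : `WQ N b E = WQ N b E' → E = E'` above the Riemann-Roch threshold
-/

set_option autoImplicit false
set_option synthInstance.maxHeartbeats 400000
set_option linter.unusedSectionVars false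

open AlgebraicCurve ModularCurve Matrix

namespace Fermat.Agent.S17Lib

open Fermat.Agent.S18Lib Fermat.Agent.S24Lib Fermat.Agent.ESLib Fermat.Agent.FFLib
  Fermat.Agent.S28Lib

noncomputable section

section abstractLA

variable {ι κ : Type} [Fintype ι] [DecidableEq ι] [Fintype κ] [DecidableEq κ]

/-- the matrix of the chosen basis of `W` -/
def FCs_mat (W : Submodule ℚ (ι → ℚ)) : Matrix (Fin (Module.finrank ℚ W)) ι ℚ :=
  Matrix.of fun i => ((Module.finBasis ℚ W i : W) : ι → ℚ)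

theorem FCs_subH_def (W : Submodule ℚ (ι → ℚ)) : subH W = Height.logHeight (plu (FCs_mat W)) := rfl

theorem FCs_mat_li (W : Submodule ℚ (ι → ℚ)) : LinearIndependent ℚ (FCs_mat W).row := by
  have h := (Module.finBasis ℚ W).linearIndependent
  exact h.map' W.subtype (Submodule.ker_subtype W)

theorem FCs_mat_span (W : Submodule ℚ (ι → ℚ)) :
    Submodule.span ℚ (Set.range (FCs_mat W).row) = W := by
  have h := (Module.finBasis ℚ W).span_eq
  have h2 := congrArg (Submodule.map W.subtype) h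
  rw [Submodule.map_span, Submodule.map_top, Submodule.range_subtype, ← Set.range_comp] at h2
  exact h2

/-- `subH` may be computed with any basis -/
theorem FCs_subH_eq (W : Submodule ℚ (ι → ℚ)) {k : ℕ} (B : Matrix (Fin k) ι ℚ)
    (hB : LinearIndependent ℚ B.row) (hs : Submodule.span ℚ (Set.range B.row) = W) :
    subH W = Height.logHeight (plu B) := by
  have hk : Module.finrank ℚ W = k := by
    rw [← hs, finrank_span_eq_card hB, Fintype.card_fin]
  subst hk
  rw [FCs_subH_def]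
  exact LA_logHeight_eq_of_span B (FCs_mat W) (FCs_mat_li W) (by rw [FCs_mat_span, hs])

/-- a fixed injective linear map changes the height of a subspace by `O(1)` -/
theorem FCs_subH_map (T : Matrix ι κ ℚ) (hT : Function.Injective (fun x : ι → ℚ => x ᵥ* T)) :
    ∃ C : ℝ, ∀ W : Submodule ℚ (ι → ℚ), |subH (W.map T.vecMulLinear) - subH W| ≤ C := by
  choose C hC using fun k : ℕ => LA_logHeight_mul_right (n := Fin k) T hT
  refine ⟨∑ k ∈ Finset.range (Fintype.card ι + 1), |C k|, fun W => ?_⟩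
  have hrow : (FCs_mat W * T).row = fun i => T.vecMulLinear ((FCs_mat W).row i) := by
    funext i
    rfl
  have h2 : subH (W.map T.vecMulLinear) = Height.logHeight (plu (FCs_mat W * T)) := by
    apply FCs_subH_eq
    · rw [hrow]
      exact (FCs_mat_li W).map' T.vecMulLinear (LinearMap.ker_eq_bot.mpr hT)
    · rw [hrow]
      conv_rhs => rw [← FCs_mat_span W]
      rw [Submodule.map_span, ← Set.range_comp]
      rfl
  rw [h2, FCs_subH_def]
  have hk : Module.finrank ℚ W ∈ Finset.range (Fintype.card ι + 1) := by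
    rw [Finset.mem_range]
    have := Submodule.finrank_le W
    rw [Module.finrank_fintype_fun_eq_card] at this
    omega
  calc _ ≤ C (Module.finrank ℚ W) := hC _ _
    _ ≤ |C (Module.finrank ℚ W)| := le_abs_self _
    _ ≤ _ := Finset.single_le_sum (f := fun k => |C k|) (fun _ _ => abs_nonneg _) hk

end abstractLA

section curve

variable (N : ℕ) [NeZero N]

theorem FCs_exists_t (b : ℕ) : ∃ t : Fin (dV N b) → Fin (dV N (b + 1)) → ℚ,
    ∀ i, vecQ N (b + 1) (t i) = bas N b i := by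
  have h : ∀ i, ∃ c, vecQ N (b + 1) c = bas N b i := by
    intro i
    apply exists_vecQ_of_isRat N _ ((bas_spec N b).1 i)
    have h1 : bas N b i ∈ riemannRochSpace (dvo N b 0) := by
      rw [← (bas_spec N b).2.2]
      exact Submodule.subset_span ⟨i, rfl⟩
    refine L_mono ?_ h1
    apply sub_le_sub_right
    intro v
    by_cases hv : v = oo N
    · subst hv
      simp
    · simp [Ne.symm hv]
  choose t ht using h
  exact ⟨t, ht⟩

/-- the coordinates of `bas N b i` in `bas N (b+1)` -/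
def FCs_t (b : ℕ) : Fin (dV N b) → Fin (dV N (b + 1)) → ℚ := (FCs_exists_t N b).choose

theorem FCs_t_spec (b : ℕ) (i : Fin (dV N b)) : vecQ N (b + 1) (FCs_t N b i) = bas N b i :=
  (FCs_exists_t N b).choose_spec i

/-- the matrix of the inclusion `L(b∞) ⊆ L((b+1)∞)` -/
def FCs_T (b : ℕ) : Matrix (Fin (dV N b)) (Fin (dV N (b + 1))) ℚ := Matrix.of (FCs_t N b)

theorem FCs_vecQ_vecMul (b : ℕ) (x : Fin (dV N b) → ℚ) :
    vecQ N (b + 1) (x ᵥ* FCs_T N b) = vecQ N b x := by
  have h1 : x ᵥ* FCs_T N b = ∑ i, x i • FCs_t N b i := by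
    funext j
    simp [Matrix.vecMul, dotProduct, Finset.sum_apply, FCs_T]
  rw [h1, vecQ_sum, vecQ_apply]
  exact Finset.sum_congr rfl fun i _ => by rw [FCs_t_spec]

theorem FCs_T_injective (b : ℕ) :
    Function.Injective (fun x : Fin (dV N b) → ℚ => x ᵥ* FCs_T N b) := by
  intro x y h
  apply vecQ_injective N b
  rw [← FCs_vecQ_vecMul N b x, ← FCs_vecQ_vecMul N b y]
  exact congrArg (vecQ N (b + 1)) h

theorem FCs_dvo_succ (b : ℕ) (E : Divisor Qb (FB N)) :
    dvo N (b + 1) (E + Finsupp.single (oo N) 1) = dvo N b E := by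
  show Finsupp.single (oo N) ((b + 1 : ℕ) : ℤ) - (E + Finsupp.single (oo N) 1)
    = Finsupp.single (oo N) (b : ℤ) - E
  rw [Nat.cast_add, Nat.cast_one, Finsupp.single_add]
  abel

/-- `W_{b+1}(E + ∞)` is the image of `W_b(E)` under the fixed inclusion -/
theorem FCs_map_WQ (b : ℕ) {E : Divisor Qb (FB N)} (hE : 0 ≤ E) :
    (WQ N b E).map (FCs_T N b).vecMulLinear = WQ N (b + 1) (E + Finsupp.single (oo N) 1) := by
  apply le_antisymm
  · rintro _ ⟨x, hx, rfl⟩
    rw [mem_WQ, FCs_dvo_succ]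
    show vecQ N (b + 1) (x ᵥ* FCs_T N b) ∈ _
    rw [FCs_vecQ_vecMul]
    exact hx
  · intro c hc
    rw [mem_WQ, FCs_dvo_succ] at hc
    obtain ⟨x, hx⟩ := exists_vecQ_of_isRat N (L_mono (dvo_le N b hE) hc) (isRat_vecQ N _ c)
    refine ⟨x, ?_, ?_⟩
    · show x ∈ WQ N b E
      rw [mem_WQ, hx]
      exact hc
    · apply vecQ_injective N (b + 1)
      show vecQ N (b + 1) (x ᵥ* FCs_T N b) = _
      rw [FCs_vecQ_vecMul, hx]

/-- **(shift)** up to `O(1)`, uniformly in ALL effective divisors -/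
theorem FCs_shift' (b : ℕ) : ∃ C : ℝ, ∀ E : Divisor Qb (FB N), 0 ≤ E →
    |FC_HH N (b + 1) (E + Finsupp.single (oo N) 1) - FC_HH N b E| ≤ C := by
  obtain ⟨C, hC⟩ := FCs_subH_map (FCs_T N b) (FCs_T_injective N b)
  refine ⟨C, fun E hE => ?_⟩
  have := hC (WQ N b E)
  rw [FCs_map_WQ N b hE] at this
  exact this

/-- **(shift)** in the shape of `FDa.Inputs.shift` (no threshold needed) -/
theorem FCs_shift (b : ℕ) : ∃ C : ℝ, ∀ E : Dv N,
    |FC_HH N (b + 1) ((E + dvO N : Dv N) : Divisor Qb (FB N))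
      - FC_HH N b (E : Divisor Qb (FB N))| ≤ C := by
  obtain ⟨C, hC⟩ := FCs_shift' N b
  exact ⟨C, fun E => hC _ E.2.1⟩

/-- `L(b∞ - E)` is determined by `WQ N b E` -/
theorem FCs_L_eq_of_WQ_eq (b : ℕ) {E E' : Divisor Qb (FB N)} (hE : E ∈ DvS N) (hE' : E' ∈ DvS N)
    (h : WQ N b E = WQ N b E') :
    riemannRochSpace (dvo N b E) = riemannRochSpace (dvo N b E') := by
  have h1 : WB N b E = WB N b E' := by
    rw [← span_toQb_WQ N b hE, ← span_toQb_WQ N b hE', h]
  have key : ∀ {D : Divisor Qb (FB N)}, 0 ≤ D →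
      (WB N b D).map (vecB N b) = riemannRochSpace (dvo N b D) := by
    intro D hD
    rw [WB, Submodule.map_comap_eq, range_vecB]
    exact inf_eq_right.mpr (L_mono (dvo_le N b hD))
  rw [← key hE.1, ← key hE'.1, h1]

/-- **injectivity** of `E ↦ WQ N b E` above the Riemann-Roch threshold -/
theorem FCs_WQ_inj {c : ℤ} (hc : IsRRBound Qb (FB N) c) (b : ℕ) {E E' : Divisor Qb (FB N)}
    (hE : E ∈ DvS N) (hE' : E' ∈ DvS N) (hd : c + 1 ≤ Divisor.degree (dvo N b E))
    (hd' : c + 1 ≤ Divisor.degree (dvo N b E')) (h : WQ N b E = WQ N b E') : E = E' := by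
  have h1 := FCs_L_eq_of_WQ_eq N b hE hE' h
  apply le_antisymm
  · exact (L_le_L_iff (isFF_FB N) hc _ E' E hd').mp h1.ge
  · exact (L_le_L_iff (isFF_FB N) hc _ E E' hd).mp h1.le

/-- injectivity on `Dv N` -/
theorem FCs_WQ_injOn {c : ℤ} (hc : IsRRBound Qb (FB N) c) (b : ℕ) :
    Set.InjOn (fun E : Dv N => WQ N b (E : Divisor Qb (FB N)))
      {E : Dv N | c + 1 + (dvDeg N E : ℤ) ≤ b} := by
  intro E hE E' hE' h
  apply Subtype.ext
  refine FCs_WQ_inj N hc b E.2 E'.2 ?_ ?_ h
  · rw [FG_degree_dvo]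
    have : c + 1 + (dvDeg N E : ℤ) ≤ b := hE
    omega
  · rw [FG_degree_dvo]
    have : c + 1 + (dvDeg N E' : ℤ) ≤ b := hE'
    omega

end curve

end

end Fermat.Agent.S17Lib
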