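import Fermat.Agent.S17.FC.AdaptLA
import Fermat.Agent.S17.FC.Fam
import Fermat.Agent.S17.FC.Mul
import Fermat.Agent.S17.FC.Inv
import Fermat.Agent.S17.FC.Shift

/-!
# S17, FRAME-CURVE: the curve side hypotheses of `cube_abs` (with the `CL_rowSp` clauses)

Adapted rational bases of `WQ N b (E + F) ≤ WQ N b E`, commutativity, no zero divisors, closure
under multiplication, all in the `mulC (tau ..)` / `rsp` language of the cube chapter.
-/

set_option autoImplicit false
set_option synthInstance.maxHeartbeats 400000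

open AlgebraicCurve ModularCurve

namespace Fermat.Agent.S17Lib

open Fermat.Agent.S18Lib Fermat.Agent.S24Lib Fermat.Agent.ESLib Fermat.Agent.FFLib
  Fermat.Agent.S28Lib Height

/-- `subH` from a basis matrix with an arbitrary row type -/
theorem ADP_subH_eq {ι : Type} [Fintype ι] [DecidableEq ι] (W : Submodule ℚ (ι → ℚ))
    {n : Type*} [Fintype n] [DecidableEq n] (B : Matrix n ι ℚ) (hB : plu B ≠ 0)
    (hs : rsp B = W) : subH W = logHeight (plu B) := by
  have hli : LinearIndependent ℚ B.row := (LA_plu_ne_zero_iff B).mp hB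
  set e := (Fintype.equivFin n).symm with he
  rw [← ADP_logHeight_reindex e B]
  apply FCs_subH_eq
  · exact hli.comp e e.injective
  · rw [← hs]
    unfold rsp
    congr 1
    exact e.surjective.range_comp B.row

variable (N : ℕ) [NeZero N]

theorem ADP_WQ_mono (b : ℕ) {E E' : Divisor Qb (FB N)} (h : E ≤ E') : WQ N b E' ≤ WQ N b E := by
  intro w hw
  have hw' : vecQ N b w ∈ riemannRochSpace (dvo N b E') := hw
  exact L_mono (sub_le_sub_left h _) hw'

/-- the row space over `ℚ̄` of a rational basis matrix of `WQ` -/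
theorem ADP_rowSp (b : ℕ) (E : Divisor Qb (FB N)) (hE : E ∈ DvS N) {n : Type*}
    (B : Matrix n (Fin (dV N b)) ℚ) (hs : rsp B = WQ N b E) :
    CL_rowSp (bas N b) (B.map (algebraMap ℚ Qb)) = riemannRochSpace (dvo N b E) := by
  rw [← CC_map_WB N b E hE.1, ← span_toQb_WQ N b hE, ← hs]
  unfold CL_rowSp
  rw [Submodule.map_span, CC_real_eq]
  apply le_antisymm
  · rw [Submodule.span_le]
    rintro _ ⟨l, rfl⟩
    apply Submodule.subset_span
    exact ⟨toQb _ (B l), ⟨B l, Submodule.subset_span ⟨l, rfl⟩, rfl⟩, rfl⟩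
  · rw [Submodule.span_le]
    rintro _ ⟨_, ⟨x, hx, rfl⟩, rfl⟩
    refine Submodule.span_induction (p := fun x _ => vecB N b (toQb _ x) ∈
      Submodule.span Qb (Set.range fun l => vecB N b ((B.map (algebraMap ℚ Qb)) l))) ?_ ?_ ?_ ?_ hx
    · rintro _ ⟨l, rfl⟩
      exact Submodule.subset_span ⟨l, rfl⟩
    · rw [map_zero, map_zero]; exact Submodule.zero_mem _
    · intro x y _ _ hx hy
      rw [map_add, map_add]; exact Submodule.add_mem _ hx hy
    · intro q x _ hx
      have : toQb (dV N b) (q • x) = (algebraMap ℚ Qb q) • toQb (dV N b) x := by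
        rw [map_smul, algebraMap_smul]
      rw [this, map_smul]
      exact Submodule.smul_mem _ _ hx

/-- adapted rational bases on the curve -/
theorem ADP_curve (b : ℕ) (E F : Dv N) (k f : ℕ)
    (hk : FFLib.ell (dvo N b ((E + F : Dv N) : Divisor Qb (FB N))) = k)
    (hkf : FFLib.ell (dvo N b (E : Divisor Qb (FB N))) = k + f) :
    ∃ (b0 : Matrix (Fin k) (Fin (dV N b)) ℚ) (y0 : Matrix (Fin f) (Fin (dV N b)) ℚ),
      rsp b0 = WQ N b ((E + F : Dv N) : Divisor Qb (FB N)) ∧
      rsp (Matrix.fromRows b0 y0) = WQ N b (E : Divisor Qb (FB N)) ∧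
      plu b0 ≠ 0 ∧ plu (Matrix.fromRows b0 y0) ≠ 0 ∧
      FC_HH N b ((E + F : Dv N) : Divisor Qb (FB N)) = logHeight (plu b0) ∧
      FC_HH N b (E : Divisor Qb (FB N)) = logHeight (plu (Matrix.fromRows b0 y0)) ∧
      CL_rowSp (bas N b) (b0.map (algebraMap ℚ Qb)) =
        riemannRochSpace (dvo N b ((E + F : Dv N) : Divisor Qb (FB N))) ∧
      CL_rowSp (bas N b) ((Matrix.fromRows b0 y0).map (algebraMap ℚ Qb)) =
        riemannRochSpace (dvo N b (E : Divisor Qb (FB N))) := by
  have hle : WQ N b ((E + F : Dv N) : Divisor Qb (FB N)) ≤ WQ N b (E : Divisor Qb (FB N)) := by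
    apply ADP_WQ_mono
    have : ((E + F : Dv N) : Divisor Qb (FB N)) = (E : Divisor Qb (FB N)) + F := rfl
    rw [this]
    exact le_add_of_nonneg_right F.2.1
  obtain ⟨b0, y0, h1, h2, h3, h4⟩ := ADP_exists _ _ hle k f
    ((finrank_WQ N b (E + F).2).trans hk) ((finrank_WQ N b E.2).trans hkf)
  exact ⟨b0, y0, h1, h2, h3, h4, ADP_subH_eq _ b0 h3 h1, ADP_subH_eq _ _ h4 h2,
    ADP_rowSp N b _ (E + F).2 b0 h1, ADP_rowSp N b _ E.2 _ h2⟩

theorem ADP_mulC_eq (m b : ℕ) (s : Fin (dV N m) → ℚ) (z : Fin (dV N b) → ℚ) :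
    mulC (tau N m b) s z = mulQ N m b s z := by
  funext j
  rw [FCM_mulQ_apply]
  unfold mulC
  refine Finset.sum_congr rfl fun l _ => Finset.sum_congr rfl fun i _ => ?_
  simp only [Algebra.algebraMap_self, RingHom.id_apply]
  ring

theorem ADP_hcomm (m b : ℕ) (s t : Fin (dV N m) → ℚ) (z : Fin (dV N b) → ℚ) :
    mulC (tau N m (b + m)) s (mulC (tau N m b) t z) =
      mulC (tau N m (b + m)) t (mulC (tau N m b) s z) := by
  simp only [ADP_mulC_eq]
  apply FCM_vecQ_injective N
  simp only [FCM_vecQ_mulQ]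
  ring

theorem ADP_hdom (m b : ℕ) (t : Fin (dV N m) → Qb) (z : Fin (dV N b) → Qb)
    (h : mulC (tau N m b) t z = 0) : t = 0 ∨ z = 0 := by
  apply FI_nzd N m b (FCM_tau_spec N m b) t z
  intro l
  have := congrFun h l
  unfold mulC at this
  rw [Pi.zero_apply] at this
  rw [← this]
  refine Finset.sum_congr rfl fun a _ => Finset.sum_congr rfl fun i _ => ?_
  ring

theorem ADP_closure (m b : ℕ) (A E : Divisor Qb (FB N)) (s : Fin (dV N m) → ℚ)
    (z : Fin (dV N b) → ℚ) (hs : s ∈ WQ N m A) (hz : z ∈ WQ N b E) :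
    mulC (tau N m b) s z ∈ WQ N (b + m) (E + A) := by
  rw [ADP_mulC_eq]
  change vecQ N (b + m) _ ∈ riemannRochSpace _
  rw [FCM_vecQ_mulQ, ← FCM_dvo_add]
  exact mul_mem_L hs hz

end Fermat.Agent.S17Lib
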