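import Fermat.Agent.S17.FC.Bas

/-!
# S17 FRAME-CURVE (F2): the coordinate spaces `WB N b E` and `WQ N b E`.
-/

set_option autoImplicit false
set_option synthInstance.maxHeartbeats 400000
set_option linter.unusedSectionVars false

open AlgebraicCurve ModularCurve

namespace Fermat.Agent.S17Lib

open Fermat.Agent.S18Lib Fermat.Agent.S24Lib Fermat.Agent.ESLib Fermat.Agent.FFLib
  Fermat.Agent.S28Lib

noncomputable section

variable (N : ℕ) [NeZero N]

theorem vecB_apply (b : ℕ) (c : Fin (dV N b) → Qb) : vecB N b c = ∑ i, c i • bas N b i := by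
  simp [vecB, Fintype.linearCombination_apply]

theorem toQb_apply (d : ℕ) (c : Fin d → ℚ) (i : Fin d) : toQb d c i = algebraMap ℚ Qb (c i) := rfl

theorem toQb_injective (d : ℕ) : Function.Injective (toQb d) := by
  intro a b h
  ext i
  have := congrFun h i
  rw [toQb_apply, toQb_apply] at this
  exact (algebraMap ℚ Qb).injective this

theorem vecQ_apply (b : ℕ) (c : Fin (dV N b) → ℚ) :
    vecQ N b c = ∑ i, algebraMap ℚ Qb (c i) • bas N b i := by
  rw [vecQ, vecB_apply]
  rfl

theorem vecB_injective (b : ℕ) : Function.Injective (vecB N b) := by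
  rw [← LinearMap.ker_eq_bot]
  exact (bas_spec N b).2.1.fintypeLinearCombination_injective |> LinearMap.ker_eq_bot.mpr

theorem range_vecB (b : ℕ) : LinearMap.range (vecB N b) = riemannRochSpace (dvo N b 0) := by
  rw [vecB, Fintype.range_linearCombination]
  exact (bas_spec N b).2.2

theorem vecQ_injective (b : ℕ) : Function.Injective (vecQ N b) :=
  (vecB_injective N b).comp (toQb_injective _)

theorem vecQ_add (b : ℕ) (c c' : Fin (dV N b) → ℚ) :
    vecQ N b (c + c') = vecQ N b c + vecQ N b c' := by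
  simp only [vecQ, map_add]

theorem vecQ_smul (b : ℕ) (a : ℚ) (c : Fin (dV N b) → ℚ) :
    vecQ N b (a • c) = algebraMap ℚ Qb a • vecQ N b c := by
  rw [vecQ_apply, vecQ_apply, Finset.smul_sum]
  refine Finset.sum_congr rfl fun i _ => ?_
  rw [Pi.smul_apply, smul_eq_mul, map_mul, mul_smul]

theorem vecQ_zero (b : ℕ) : vecQ N b 0 = 0 := by
  simp only [vecQ, map_zero]

theorem vecQ_sum {ι : Type*} (b : ℕ) (s : Finset ι) (a : ι → ℚ) (u : ι → Fin (dV N b) → ℚ) :
    vecQ N b (∑ i ∈ s, a i • u i) = ∑ i ∈ s, algebraMap ℚ Qb (a i) • vecQ N b (u i) := by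
  classical
  induction s using Finset.induction_on with
  | empty => simp [vecQ_zero]
  | insert j s hj ih => rw [Finset.sum_insert hj, Finset.sum_insert hj, vecQ_add, vecQ_smul, ih]

theorem isRat_vecQ (b : ℕ) (c : Fin (dV N b) → ℚ) : IsRat N (vecQ N b c) := by
  intro σ
  rw [vecQ_apply, Finset.smul_sum]
  refine Finset.sum_congr rfl fun i _ => ?_
  rw [gq_smul_smul, (bas_spec N b).1 i σ]
  congr 1
  exact σ.commutes _

theorem vecQ_mem (b : ℕ) (c : Fin (dV N b) → ℚ) : vecQ N b c ∈ riemannRochSpace (dvo N b 0) := by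
  rw [← range_vecB]
  exact ⟨_, rfl⟩

theorem exists_vecQ_of_isRat {b : ℕ} {f : FB N} (hf : f ∈ riemannRochSpace (dvo N b 0))
    (hr : IsRat N f) : ∃ c, vecQ N b c = f := by
  rw [← range_vecB] at hf
  obtain ⟨a, rfl⟩ := hf
  rw [vecB_apply] at hr
  obtain ⟨a', ha'⟩ := exists_rat_coord N (bas_spec N b).2.1 (bas_spec N b).1 a hr
  refine ⟨a', ?_⟩
  rw [vecQ_apply, vecB_apply]
  exact Finset.sum_congr rfl fun i _ => by rw [ha']

theorem mem_WB {b : ℕ} {E : Divisor Qb (FB N)} {c : Fin (dV N b) → Qb} :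
    c ∈ WB N b E ↔ vecB N b c ∈ riemannRochSpace (dvo N b E) := Iff.rfl

theorem mem_WQ {b : ℕ} {E : Divisor Qb (FB N)} {c : Fin (dV N b) → ℚ} :
    c ∈ WQ N b E ↔ vecQ N b c ∈ riemannRochSpace (dvo N b E) := Iff.rfl

theorem dvo_le (b : ℕ) {E : Divisor Qb (FB N)} (hE : 0 ≤ E) : dvo N b E ≤ dvo N b 0 := by
  intro v
  have := hE v
  simp only [dvo, Finsupp.sub_apply, Finsupp.zero_apply] at this ⊢
  omega

theorem finrank_WB (b : ℕ) {E : Divisor Qb (FB N)} (hE : 0 ≤ E) :
    Module.finrank Qb (WB N b E) = FFLib.ell (dvo N b E) := by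
  have hle : riemannRochSpace (dvo N b E) ≤ LinearMap.range (vecB N b) := by
    rw [range_vecB]
    exact L_mono (dvo_le N b hE)
  have h1 : (WB N b E).map (vecB N b) = riemannRochSpace (dvo N b E) := by
    rw [WB, Submodule.map_comap_eq, inf_eq_right.mpr hle]
  unfold FFLib.ell
  rw [← h1]
  exact LinearEquiv.finrank_eq (Submodule.equivMapOfInjective (vecB N b) (vecB_injective N b) _)

/-- a rational basis of the coordinate space of `L(b∞ - E)` -/
theorem exists_WQ_basis (b : ℕ) {E : Divisor Qb (FB N)} (hE : E ∈ DvS N) :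
    ∃ u : Fin (FFLib.ell (dvo N b E)) → (Fin (dV N b) → ℚ),
      (∀ i, u i ∈ WQ N b E) ∧ LinearIndependent ℚ u ∧
      Submodule.span ℚ (Set.range u) = WQ N b E ∧
      LinearIndependent Qb (fun i => toQb (dV N b) (u i)) ∧
      Submodule.span Qb (Set.range fun i => toQb (dV N b) (u i)) = WB N b E := by
  obtain ⟨γ, hγr, hγli, hγs⟩ := exists_rat_basis_L N (isRatDiv_dvo N hE.2 b)
  have hγm : ∀ i, γ i ∈ riemannRochSpace (dvo N b E) := fun i => by
    rw [← hγs]; exact Submodule.subset_span ⟨i, rfl⟩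
  have h1 : ∀ i, ∃ c, vecQ N b c = γ i := fun i =>
    exists_vecQ_of_isRat N (L_mono (dvo_le N b hE.1) (hγm i)) (hγr i)
  choose u hu using h1
  have hmem : ∀ i, u i ∈ WQ N b E := fun i => by rw [mem_WQ, hu]; exact hγm i
  have hliB : LinearIndependent Qb (fun i => toQb (dV N b) (u i)) := by
    apply LinearIndependent.of_comp (vecB N b)
    have : (vecB N b) ∘ (fun i => toQb (dV N b) (u i)) = γ := funext hu
    rw [this]
    exact hγli
  have hliQ : LinearIndependent ℚ u := by
    rw [Fintype.linearIndependent_iff]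
    intro a ha i
    have h2 : ∑ j, algebraMap ℚ Qb (a j) • γ j = 0 := by
      have := congrArg (vecQ N b) ha
      rw [vecQ_sum, vecQ_zero] at this
      simpa only [hu] using this
    exact (map_eq_zero _).mp (Fintype.linearIndependent_iff.mp hγli _ h2 i)
  refine ⟨u, hmem, hliQ, ?_, hliB, ?_⟩
  · apply le_antisymm
    · rw [Submodule.span_le]
      rintro _ ⟨i, rfl⟩
      exact hmem i
    · intro c hc
      rw [mem_WQ, ← hγs] at hc
      obtain ⟨a, ha⟩ := (Submodule.mem_span_range_iff_exists_fun Qb).mp hc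
      have hr : IsRat N (∑ i, a i • γ i) := by rw [ha]; exact isRat_vecQ N b c
      obtain ⟨a', ha'⟩ := exists_rat_coord N hγli hγr a hr
      have h3 : c = ∑ i, a' i • u i := by
        apply vecQ_injective N b
        rw [vecQ_sum, ← ha]
        exact Finset.sum_congr rfl fun i _ => by rw [ha', hu]
      rw [h3]
      exact Submodule.sum_mem _ fun i _ =>
        Submodule.smul_mem _ _ (Submodule.subset_span ⟨i, rfl⟩)
  · apply Submodule.eq_of_le_of_finrank_le
    · rw [Submodule.span_le]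
      rintro _ ⟨i, rfl⟩
      exact hmem i
    · rw [finrank_span_eq_card hliB, Fintype.card_fin, finrank_WB N b hE.1]

theorem finrank_WQ (b : ℕ) {E : Divisor Qb (FB N)} (hE : E ∈ DvS N) :
    Module.finrank ℚ (WQ N b E) = FFLib.ell (dvo N b E) := by
  obtain ⟨u, -, hli, hs, -, -⟩ := exists_WQ_basis N b hE
  rw [← hs, finrank_span_eq_card hli, Fintype.card_fin]

theorem span_toQb_WQ (b : ℕ) {E : Divisor Qb (FB N)} (hE : E ∈ DvS N) :
    Submodule.span Qb (toQb (dV N b) '' (WQ N b E : Set (Fin (dV N b) → ℚ))) = WB N b E := by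
  obtain ⟨u, hm, -, -, -, hs⟩ := exists_WQ_basis N b hE
  apply le_antisymm
  · rw [Submodule.span_le]
    rintro _ ⟨c, hc, rfl⟩
    exact hc
  · rw [← hs]
    apply Submodule.span_mono
    rintro _ ⟨i, rfl⟩
    exact ⟨u i, hm i, rfl⟩

/-- any `ℚ`-independent family stays independent over `ℚ̄` -/
theorem linearIndependent_toQb {ι : Type*} {d : ℕ} {u : ι → Fin d → ℚ}
    (hu : LinearIndependent ℚ u) : LinearIndependent Qb (fun i => toQb d (u i)) := by
  classical
  rw [linearIndependent_iff'] at hu ⊢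
  intro s g hg i hi
  rw [← Module.forall_dual_apply_eq_zero_iff ℚ]
  intro ψ
  have h1 : ∑ j ∈ s, ψ (g j) • u j = 0 := by
    ext m
    have h2 := congrArg (fun z : Fin d → Qb => ψ (z m)) hg
    simp only [Finset.sum_apply, Pi.smul_apply, toQb_apply, smul_eq_mul, Pi.zero_apply, map_zero,
      map_sum] at h2 ⊢
    rw [← h2]
    refine Finset.sum_congr rfl fun j _ => ?_
    have : g j * algebraMap ℚ Qb (u j m) = u j m • g j := by
      rw [Algebra.smul_def, mul_comm]
    rw [this, map_smul, smul_eq_mul, mul_comm]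
  exact hu s (fun j => ψ (g j)) h1 i hi

end

end Fermat.Agent.S17Lib
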