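import Fermat.Agent.S17.FC.Gal
import Fermat.Agent.S17.FC.WQ
import Fermat.Agent.S17.Geo.Pencil

/-!
# S17 FRAME-CURVE: the common threshold `cFC N` and the Riemann-Roch values
-/

set_option autoImplicit false
set_option synthInstance.maxHeartbeats 400000
set_option linter.unusedSectionVars false

open AlgebraicCurve ModularCurve

namespace Fermat.Agent.S17Lib

open Fermat.Agent.S18Lib Fermat.Agent.S24Lib Fermat.Agent.ESLib Fermat.Agent.FFLib
  Fermat.Agent.S28Lib

noncomputable section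

variable (N : ℕ) [NeZero N]

theorem exists_cFC : ∃ c : ℕ, IsRRBound Qb (FB N) (c : ℤ) ∧ genusR Qb (FB N) + 2 ≤ c := by
  obtain ⟨c, hc0, hc⟩ := exists_rrBound (isFF_FB N)
  refine ⟨c.toNat + (genusR Qb (FB N) + 2), hc.mono ?_, by omega⟩
  push_cast
  rw [Int.toNat_of_nonneg hc0]
  omega

/-- the common threshold: a Riemann-Roch bound which is `≥ genus + 2` -/
def cFC : ℕ := (exists_cFC N).choose

theorem cFC_rr : IsRRBound Qb (FB N) (cFC N : ℤ) := (exists_cFC N).choose_spec.1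

theorem cFC_genus : genusR Qb (FB N) + 2 ≤ cFC N := (exists_cFC N).choose_spec.2

/-- Riemann-Roch for `b∞ - E`, integer form -/
theorem FCT_ell_int (b : ℕ) (E : Dv N) (h : dvDeg N E + cFC N ≤ b) :
    (FFLib.ell (dvo N b (E : Divisor Qb (FB N))) : ℤ)
      = (b : ℤ) - dvDeg N E + 1 - (genusR Qb (FB N) : ℤ) := by
  rw [cFC_rr N _ (by rw [FG_degree_dvo]; omega), FG_degree_dvo]

/-- Riemann-Roch for `b∞ - E`, natural number form -/
theorem FCT_ell (b : ℕ) (E : Dv N) (h : dvDeg N E + cFC N ≤ b) :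
    FFLib.ell (dvo N b (E : Divisor Qb (FB N))) = b - dvDeg N E + 1 - genusR Qb (FB N) := by
  have h1 := FCT_ell_int N b E h
  have h2 := cFC_genus N
  omega

/-- `(hfin)` -/
theorem FCT_hfin (b : ℕ) (E : Dv N) (h : dvDeg N E + cFC N ≤ b) :
    Module.finrank ℚ (WQ N b E.1) = b - dvDeg N E + 1 - genusR Qb (FB N) := by
  rw [finrank_WQ N b E.2]
  exact FCT_ell N b E h

theorem FCT_dV (b : ℕ) (h : cFC N ≤ b) : dV N b = b + 1 - genusR Qb (FB N) := by
  have h1 := FCT_ell N b 0 (by simpa using h)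
  simpa [dV] using h1

theorem FCT_dV_succ (b : ℕ) (h : cFC N ≤ b) : dV N (b + 1) = dV N b + 1 := by
  rw [FCT_dV N b h, FCT_dV N (b + 1) (by omega)]
  have h2 := cFC_genus N
  omega

theorem FCT_WQ_zero (b : ℕ) : WQ N b 0 = ⊤ := by
  rw [eq_top_iff]
  intro c _
  exact (mem_WQ N).2 (vecQ_mem N b c)

theorem FCT_pos (b : ℕ) (E : Dv N) (h : dvDeg N E + cFC N ≤ b) :
    0 < Module.finrank ℚ (WQ N b E.1) := by
  rw [FCT_hfin N b E h]
  have h2 := cFC_genus N
  omega

end

end Fermat.Agent.S17Lib
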