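import Fermat.Agent.S17.Cube.NVgeo
import Fermat.Agent.S17.Cube.Defs2
import Fermat.Agent.S17.FC.Fam
import Fermat.Agent.S17.FC.Mul
import Fermat.Agent.S17.FC.Thr

/-!
# S17, curve side of the cube: the hypotheses `hT`, `hT'` of `cube_abs` and the sets `ZA ZB ZB'`
-/

set_option autoImplicit false
set_option linter.unusedSectionVars false

open AlgebraicCurve Fermat.Agent.S24Lib Fermat.Agent.FFLib

namespace Fermat.Agent.S17Lib

open Matrix

section Geo

variable {K F : Type*} [Field K] [Field F] [Algebra K F] [Algebra ℚ K]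
variable {ιm ι1 ι2 n n1 : Type*} [Fintype ιm] [Fintype ι1] [Fintype ι2]
  [Fintype n] [DecidableEq n] [Fintype n1] [DecidableEq n1]

/-- at a base point free pencil of `L(D)` the rows `s u_i, t u_i` span `L(D1 + D)`. -/
theorem HT_geo [IsAlgClosed K] (h : IsFF K F) {c : ℤ} (hc : IsRRBound K F c) (hc0 : 0 ≤ c)
    (eM : ιm → F) (e1 : ι1 → F) (e2 : ι2 → F) (c12 : ιm → ι1 → ι2 → ℚ)
    (h2li : LinearIndependent K e2)
    (hc12 : ∀ u j, eM u * e1 j = ∑ k, (algebraMap ℚ K (c12 u j k)) • e2 k)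
    (a : Matrix n ιm K) (b' : Matrix n1 ι1 K) (D D1 : Divisor K F)
    (ha : CL_rowSp eM a = riemannRochSpace D) (hb' : CL_rowSp e1 b' = riemannRochSpace D1)
    (hD : c + 1 ≤ Divisor.degree D) (hD1 : c ≤ Divisor.degree (D1 - D)) :
    ∃ s ∈ rsp a, ∃ t ∈ rsp a,
      ell (D1 + D) ≤ Module.finrank K (Submodule.span K (Set.range (UMrow c12 b' s t))) := by
  classical
  obtain ⟨sF, tF, hp⟩ := exists_pencil h hc D hD
  obtain ⟨s, hs, hsF⟩ := NV_exists_row_vec eM a sF (by rw [ha]; exact hp.1)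
  obtain ⟨t, ht, htF⟩ := NV_exists_row_vec eM a tF (by rw [ha]; exact hp.2.1)
  subst hsF htF
  refine ⟨s, hs, t, ht, ?_⟩
  set S := Submodule.span K (Set.range (UMrow c12 b' s t)) with hS
  have hfin : Module.Finite K S := FiniteDimensional.span_of_finite K (Set.finite_range _)
  have e : Module.finrank K S = Module.finrank K (S.map (CL_real (K := K) e2)) :=
    (Submodule.equivMapOfInjective _ (CL_real_injective e2 h2li) S).finrank_eq
  rw [e]
  have hle : riemannRochSpace (D1 + D) ≤ S.map (CL_real (K := K) e2) := by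
    intro w hw
    obtain ⟨u, hu, u', hu', rfl⟩ := pencil_surj h hc hp (by omega) hD1 w hw
    obtain ⟨q, hq⟩ := NV_exists_vec e1 b' u (by rw [hb']; exact hu)
    obtain ⟨q', hq'⟩ := NV_exists_vec e1 b' u' (by rw [hb']; exact hu')
    refine ⟨mulC c12 s (q ᵥ* b') + mulC c12 t (q' ᵥ* b'), ?_, ?_⟩
    · rw [NV_mulC_vecMul, NV_mulC_vecMul]
      refine Submodule.add_mem _ ?_ ?_
      · exact Submodule.sum_mem _ fun i _ => Submodule.smul_mem _ _
          (Submodule.subset_span ⟨Sum.inl i, rfl⟩)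
      · exact Submodule.sum_mem _ fun i _ => Submodule.smul_mem _ _
          (Submodule.subset_span ⟨Sum.inr i, rfl⟩)
    · rw [map_add, CL_real_mulC eM e1 e2 c12 hc12, CL_real_mulC eM e1 e2 c12 hc12, hq, hq']
  exact Submodule.finrank_mono hle

end Geo

section Frame

open ModularCurve Fermat.Agent.S18Lib Fermat.Agent.ESLib Fermat.Agent.S28Lib

variable (N : ℕ) [NeZero N]

theorem HT_deg_dvo (b : ℕ) (E : Divisor Qb (FB N)) :
    Divisor.degree (dvo N b E) = (b : ℤ) - Divisor.degree E := by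
  rw [map_sub, degree_single' (isFF_bar N)]

/-- the rank in the rank equations -/
noncomputable def HT_r (lvl d : ℕ) : ℕ := lvl + (lvl + cFC N) + 1 - genusR Qb (FB N) - d

/-- the rank equations cutting out the spaces `L(lvl ∞ - E)`, `deg E = d`, in Stiefel coordinates -/
noncomputable def HT_Z (lvl d : ℕ) (n : Type*) : Set (MvPolynomial (n × Fin (dV N lvl)) ℚ) :=
  CL_rkPolys n (tau N (lvl + cFC N) lvl) (HT_r N lvl d)

variable {n : Type*} [Fintype n] [DecidableEq n]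

/-- GL-stability (`hZA`, `hZB`, `hZB'` of `cube_abs`) -/
theorem HT_gl (lvl d : ℕ) (g : Matrix n n ℚ) (a : Matrix n (Fin (dV N lvl)) ℚ)
    (h : ∀ f ∈ HT_Z N lvl d n, MvPolynomial.aeval (fun x : n × Fin (dV N lvl) => a x.1 x.2) f = 0) :
    ∀ f ∈ HT_Z N lvl d n,
      MvPolynomial.aeval (fun x : n × Fin (dV N lvl) => (g * a) x.1 x.2) f = 0 :=
  CL_rk_gl _ _ g a h

theorem HT_ell_sum (lvl : ℕ) :
    (FFLib.ell (dvo N lvl 0 + dvo N (lvl + cFC N) 0) : ℤ) =
      (lvl : ℤ) + (lvl + cFC N) + 1 - genusR Qb (FB N) := by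
  have h := cFC_rr N (dvo N lvl 0 + dvo N (lvl + cFC N) 0) (by
    rw [map_add, HT_deg_dvo, HT_deg_dvo, map_zero]; push_cast; omega)
  rw [h, map_add, HT_deg_dvo, HT_deg_dvo, map_zero]
  push_cast
  ring

theorem HT_r_cast (lvl d : ℕ) (hd : d ≤ lvl) :
    (HT_r N lvl d : ℤ) = (FFLib.ell (dvo N lvl 0 + dvo N (lvl + cFC N) 0) : ℤ) - d := by
  rw [HT_ell_sum]
  have := cFC_genus N
  unfold HT_r
  omega

/-- a full rank `ℚ̄`-point of the rank equations is `L(lvl ∞ - E)` -/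
theorem HT_point (lvl d : ℕ) (hn : Fintype.card n + d + genusR Qb (FB N) = lvl + 1)
    (hl : cFC N + d + 1 ≤ lvl) (a : Matrix n (Fin (dV N lvl)) Qb) (ha : plu a ≠ 0)
    (hZ : ∀ f ∈ HT_Z N lvl d n,
      MvPolynomial.aeval (fun x : n × Fin (dV N lvl) => a x.1 x.2) f = 0) :
    ∃ E : Divisor Qb (FB N), 0 ≤ E ∧ Divisor.degree E = d ∧
      CL_rowSp (bas N lvl) a = riemannRochSpace (dvo N lvl E) := by
  have hB := cFC_rr N (dvo N lvl 0) (by rw [HT_deg_dvo, map_zero]; omega)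
  rw [HT_deg_dvo, map_zero] at hB
  obtain ⟨E, h1, h2, h3⟩ := CL_point_geo (isFF_bar N) (c := (cFC N : ℤ)) (by positivity)
    (cFC_rr N) (dvo N lvl 0) (dvo N (lvl + cFC N) 0) (bas N (lvl + cFC N)) (bas N lvl)
    (bas N (lvl + (lvl + cFC N))) (tau N (lvl + cFC N) lvl) (CC_span_bas N _) (CC_span_bas N _)
    (CC_li_bas N _) (CC_li_bas N _) (CC_hcst N _ _ (FCM_tau_spec N _ _)) d (HT_r N lvl d)
    (by rw [hB]; omega) (HT_r_cast N lvl d (by omega))
    (by rw [HT_deg_dvo, map_zero]; omega)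
    (by rw [map_sub, HT_deg_dvo, HT_deg_dvo, map_zero]; push_cast; omega) a ha hZ
  refine ⟨E, h1, h2, ?_⟩
  rw [h3]
  congr 1
  simp [dvo]

/-- a rational basis matrix of `L(lvl ∞ - E)` satisfies the rank equations -/
theorem HT_mem (lvl d : ℕ) (hd : d ≤ lvl) (E : Divisor Qb (FB N)) (hE : Divisor.degree E = d)
    (B : Matrix n (Fin (dV N lvl)) ℚ)
    (hB : CL_rowSp (bas N lvl) (B.map (algebraMap ℚ Qb)) = riemannRochSpace (dvo N lvl E)) :
    ∀ f ∈ HT_Z N lvl d n,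
      MvPolynomial.aeval (fun x : n × Fin (dV N lvl) => B x.1 x.2) f = 0 := by
  intro f hf
  have h := CL_geo_point (isFF_bar N) (cFC_rr N) (dvo N lvl 0) (dvo N (lvl + cFC N) 0)
    (bas N (lvl + cFC N)) (bas N lvl) (bas N (lvl + (lvl + cFC N))) (tau N (lvl + cFC N) lvl)
    (CC_span_bas N _) (CC_li_bas N _) (CC_hcst N _ _ (FCM_tau_spec N _ _)) d (HT_r N lvl d)
    (HT_r_cast N lvl d hd)
    (by rw [map_add, HT_deg_dvo, HT_deg_dvo, map_zero]; push_cast; omega)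
    (B.map (algebraMap ℚ Qb)) E hE (by rw [hB]; congr 1; simp [dvo]) f hf
  have h2 : MvPolynomial.aeval (fun x : n × Fin (dV N lvl) => B x.1 x.2) f =
      MvPolynomial.eval (fun x : n × Fin (dV N lvl) => B x.1 x.2) f := by
    rw [MvPolynomial.aeval_eq_eval]
  rw [h2]
  exact (CL_eval_eq_zero_iff (L := Qb) _ f).mpr h

variable {na n1 n2 : Type*} [Fintype na] [DecidableEq na] [Fintype n1] [DecidableEq n1]
  [Fintype n2]

/-- `hT` / `hT'` of `cube_abs` on the frame -/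
theorem HT_hT (m l1 dA d1 : ℕ)
    (hna : Fintype.card na + dA + genusR Qb (FB N) = m + 1)
    (hn1 : Fintype.card n1 + d1 + genusR Qb (FB N) = l1 + 1)
    (hn2 : Fintype.card n2 + dA + d1 + genusR Qb (FB N) = l1 + m + 1)
    (hm : cFC N + dA + 1 ≤ m) (hl : cFC N + m + d1 + 1 ≤ l1 + dA)
    (a : Matrix na (Fin (dV N m)) Qb) (b' : Matrix n1 (Fin (dV N l1)) Qb)
    (hZa : ∀ f ∈ HT_Z N m dA na,
      MvPolynomial.aeval (fun x : na × Fin (dV N m) => a x.1 x.2) f = 0)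
    (hZb : ∀ f ∈ HT_Z N l1 d1 n1,
      MvPolynomial.aeval (fun x : n1 × Fin (dV N l1) => b' x.1 x.2) f = 0)
    (ha : plu a ≠ 0) (hb : plu b' ≠ 0) :
    ∃ s ∈ rsp a, ∃ t ∈ rsp a, Fintype.card n2 ≤
      Module.finrank Qb (Submodule.span Qb (Set.range (UMrow (tau N m l1) b' s t))) := by
  obtain ⟨A, hA0, hAd, hA⟩ := HT_point N m dA hna hm a ha hZa
  obtain ⟨E, hE0, hEd, hE⟩ := HT_point N l1 d1 hn1 (by omega) b' hb hZb
  obtain ⟨s, hs, t, ht, h⟩ := HT_geo (isFF_bar N) (cFC_rr N) (by positivity) (bas N m) (bas N l1)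
    (bas N (l1 + m)) (tau N m l1) (CC_li_bas N _) (CC_hcst N _ _ (FCM_tau_spec N _ _)) a b'
    (dvo N m A) (dvo N l1 E) hA hE (by rw [HT_deg_dvo, hAd]; omega)
    (by rw [map_sub, HT_deg_dvo, HT_deg_dvo, hAd, hEd]; omega)
  refine ⟨s, hs, t, ht, le_trans (le_of_eq ?_) h⟩
  have h1 := cFC_rr N (dvo N l1 E + dvo N m A) (by
    rw [map_add, HT_deg_dvo, HT_deg_dvo, hAd, hEd]; omega)
  rw [map_add, HT_deg_dvo, HT_deg_dvo, hAd, hEd] at h1
  omega

end Frame

end Fermat.Agent.S17Lib
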