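import Fermat.Agent.S17.FC.CubeThr
import Fermat.Agent.S17.FC.HT
import Fermat.Agent.S17.FC.AdaptRow

/-!
# S17: assembly of (cube), part 3: the rank equations on the frame (ingredients of `cube_abs`)
-/

set_option autoImplicit false
set_option synthInstance.maxHeartbeats 400000

open AlgebraicCurve ModularCurve

namespace Fermat.Agent.S17Lib

open Fermat.Agent.S18Lib Fermat.Agent.S24Lib Fermat.Agent.ESLib Fermat.Agent.FFLib
  Fermat.Agent.S28Lib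

noncomputable section

variable (N : ℕ) [NeZero N]

/-- membership of the rational basis matrices in the rank equations -/
theorem FA4_mem_Z {n : Type} [Fintype n] [DecidableEq n] (lvl d : ℕ) (hd : d ≤ lvl) (E : Dv N)
    (hE : dvDeg N E = d) (M : Matrix n (Fin (dV N lvl)) ℚ)
    (hM : rsp M = WQ N lvl (E : Divisor Qb (FB N))) :
    ∀ f ∈ HT_Z N lvl d n,
      MvPolynomial.aeval (fun x : n × Fin (dV N lvl) => M x.1 x.2) f = 0 :=
  HT_mem N lvl d hd (E : Divisor Qb (FB N)) (by rw [← coe_dvDeg, hE]) M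
    (ADP_rowSp N lvl (E : Divisor Qb (FB N)) E.2 M hM)

/-- the reindexing `ε` -/
def FA4_eps (b0 m n1 f a : ℕ) (hb : n1 + f + cFC N ≤ b0) (hm : a + cFC N + 1 ≤ m) :
    Fin (FA4_k1 N b0 m n1 f a) ⊕ Fin (FA4_k1 N b0 m n1 f a)
      ≃ Fin (FA4_k0 N b0 n1 f) ⊕ Fin (FA4_k2 N b0 m n1 f a) :=
  Fintype.equivOfCardEq (by
    simp only [Fintype.card_sum, Fintype.card_fin]
    exact FA4_two_k1 N b0 m n1 f a hb hm)

/-- `hT` of `cube_abs` -/
theorem FA4_hT (b0 m n1 f a : ℕ) (hb : n1 + f + cFC N + 1 ≤ b0) (hm : a + cFC N + 1 ≤ m)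
    (a' : Matrix (Fin (FA4_ka N m a)) (Fin (dV N m)) Qb)
    (b' : Matrix (Fin (FA4_k1 N b0 m n1 f a)) (Fin (dV N (b0 + m))) Qb)
    (hZa : ∀ f' ∈ HT_Z N m a (Fin (FA4_ka N m a)),
      MvPolynomial.aeval (fun x : Fin (FA4_ka N m a) × Fin (dV N m) => a' x.1 x.2) f' = 0)
    (hZb : ∀ f' ∈ HT_Z N (b0 + m) (n1 + a + f) (Fin (FA4_k1 N b0 m n1 f a)),
      MvPolynomial.aeval
        (fun x : Fin (FA4_k1 N b0 m n1 f a) × Fin (dV N (b0 + m)) => b' x.1 x.2) f' = 0)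
    (ha : plu a' ≠ 0) (hb' : plu b' ≠ 0) :
    ∃ s ∈ rsp a', ∃ t ∈ rsp a', Fintype.card (Fin (FA4_k2 N b0 m n1 f a)) ≤
      Module.finrank Qb (Submodule.span Qb (Set.range (UMrow (tau N m (b0 + m)) b' s t))) := by
  have hg := cFC_genus N
  refine HT_hT N m (b0 + m) a (n1 + a + f) ?_ ?_ ?_ (by omega) (by omega) a' b' hZa hZb ha hb'
  · rw [Fintype.card_fin]; unfold FA4_ka; omega
  · rw [Fintype.card_fin]; unfold FA4_k1; omega
  · rw [Fintype.card_fin]; unfold FA4_k2; omega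

/-- `hT'` of `cube_abs` -/
theorem FA4_hT' (b0 m n1 f a : ℕ) (hb : n1 + f + cFC N + 1 ≤ b0) (hm : a + cFC N + 1 ≤ m)
    (a' : Matrix (Fin (FA4_ka N m a)) (Fin (dV N m)) Qb)
    (b' : Matrix (Fin (FA4_k1 N b0 m n1 f a) ⊕ Fin f) (Fin (dV N (b0 + m))) Qb)
    (hZa : ∀ f' ∈ HT_Z N m a (Fin (FA4_ka N m a)),
      MvPolynomial.aeval (fun x : Fin (FA4_ka N m a) × Fin (dV N m) => a' x.1 x.2) f' = 0)
    (hZb : ∀ f' ∈ HT_Z N (b0 + m) (n1 + a) (Fin (FA4_k1 N b0 m n1 f a) ⊕ Fin f),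
      MvPolynomial.aeval
        (fun x : (Fin (FA4_k1 N b0 m n1 f a) ⊕ Fin f) × Fin (dV N (b0 + m)) => b' x.1 x.2) f' = 0)
    (ha : plu a' ≠ 0) (hb' : plu b' ≠ 0) :
    ∃ s ∈ rsp a', ∃ t ∈ rsp a', Fintype.card (Fin (FA4_k2 N b0 m n1 f a) ⊕ Fin f) ≤
      Module.finrank Qb (Submodule.span Qb (Set.range (UMrow (tau N m (b0 + m)) b' s t))) := by
  have hg := cFC_genus N
  refine HT_hT N m (b0 + m) a (n1 + a) ?_ ?_ ?_ (by omega) (by omega) a' b' hZa hZb ha hb'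
  · rw [Fintype.card_fin]; unfold FA4_ka; omega
  · rw [Fintype.card_sum, Fintype.card_fin, Fintype.card_fin]; unfold FA4_k1; omega
  · rw [Fintype.card_sum, Fintype.card_fin, Fintype.card_fin]; unfold FA4_k2; omega

end

end Fermat.Agent.S17Lib
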