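import Fermat.Agent.S17.FC.Shift
import Fermat.Agent.S17.FC.Mul
import Fermat.Agent.S17.FC.Inv
import Fermat.Agent.S17.Cube.Defs2

/-!
# S17, curve side of `cube_abs`: adapted bases, multiplication in `mulC` / `rsp` form
-/

set_option autoImplicit false
set_option synthInstance.maxHeartbeats 400000

open AlgebraicCurve ModularCurve

namespace Fermat.Agent.S17Lib

open Fermat.Agent.S18Lib Fermat.Agent.S24Lib Fermat.Agent.ESLib Fermat.Agent.FFLib
  Fermat.Agent.S28Lib

noncomputable section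

section Abs

variable {ι : Type} [Fintype ι] [DecidableEq ι]

/-- `subH` may be computed with any basis, rows indexed by any finite type -/
theorem FA4_subH_eq {n : Type} [Fintype n] [DecidableEq n] (W : Submodule ℚ (ι → ℚ))
    (B : Matrix n ι ℚ) (hB : LinearIndependent ℚ B.row)
    (hs : Submodule.span ℚ (Set.range B.row) = W) :
    subH W = Height.logHeight (plu B) := by
  let e : n ≃ Fin (Fintype.card n) := Fintype.equivFin n
  have hrow : (B.submatrix e.symm id).row = B.row ∘ e.symm := rfl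
  have h1 : subH W = Height.logHeight (plu (B.submatrix e.symm id)) := by
    apply FCs_subH_eq
    · rw [hrow]
      exact hB.comp _ e.symm.injective
    · rw [hrow, Set.range_comp, e.symm.surjective.range_eq, Set.image_univ, hs]
  rw [h1]
  have h2 : plu (B.submatrix e.symm id)
      = plu B ∘ (Equiv.arrowCongr e.symm (Equiv.refl ι)) := by
    funext I
    show ((B.submatrix e.symm id).submatrix id I).det = (B.submatrix id _).det
    have : (B.submatrix e.symm id).submatrix id I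
        = (B.submatrix id (Equiv.arrowCongr e.symm (Equiv.refl ι) I)).submatrix e.symm e.symm := by
      ext i j
      simp [Equiv.arrowCongr]
    rw [this, Matrix.det_submatrix_equiv_self]
  rw [h2, Height.logHeight_comp_equiv]

omit [Fintype ι] [DecidableEq ι] in
theorem FA4_row_fromRows {n₁ n₂ : Type} (B : Matrix n₁ ι ℚ) (Y : Matrix n₂ ι ℚ) :
    (Matrix.fromRows B Y).row = Sum.elim B.row Y.row := by
  funext i
  cases i <;> rfl

/-- adapted bases of a pair of subspaces -/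
theorem FA4_adapted_abs (W₂ W₁ : Submodule ℚ (ι → ℚ)) (hle : W₂ ≤ W₁) (k f : ℕ)
    (hk : Module.finrank ℚ W₂ = k) (hkf : Module.finrank ℚ W₁ = k + f) :
    ∃ (B : Matrix (Fin k) ι ℚ) (Y : Matrix (Fin f) ι ℚ),
      rsp B = W₂ ∧ rsp (Matrix.fromRows B Y) = W₁ ∧ LinearIndependent ℚ B.row ∧
        LinearIndependent ℚ (Matrix.fromRows B Y).row := by
  obtain ⟨Q, hQ⟩ := exists_isCompl W₂
  set W₃ := Q ⊓ W₁ with hW₃
  have hsup : W₂ ⊔ W₃ = W₁ := by
    rw [hW₃, ← sup_inf_assoc_of_le Q hle, hQ.sup_eq_top, top_inf_eq]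
  have hdisj : Disjoint W₂ W₃ := hQ.disjoint.mono_right inf_le_left
  have hf : Module.finrank ℚ W₃ = f := by
    have := Submodule.finrank_sup_add_finrank_inf_eq W₂ W₃
    rw [hsup, hdisj.eq_bot, finrank_bot, hkf, hk] at this
    omega
  let b₂ := Module.finBasisOfFinrankEq ℚ W₂ hk
  let b₃ := Module.finBasisOfFinrankEq ℚ W₃ hf
  let B : Matrix (Fin k) ι ℚ := Matrix.of fun i => ((b₂ i : W₂) : ι → ℚ)
  let Y : Matrix (Fin f) ι ℚ := Matrix.of fun i => ((b₃ i : W₃) : ι → ℚ)
  have hBrow : B.row = fun i => W₂.subtype (b₂ i) := rfl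
  have hYrow : Y.row = fun i => W₃.subtype (b₃ i) := rfl
  have hBli : LinearIndependent ℚ B.row := by
    rw [hBrow]
    exact b₂.linearIndependent.map' _ (Submodule.ker_subtype _)
  have hYli : LinearIndependent ℚ Y.row := by
    rw [hYrow]
    exact b₃.linearIndependent.map' _ (Submodule.ker_subtype _)
  have hBs : rsp B = W₂ := by
    show Submodule.span ℚ (Set.range B.row) = W₂
    rw [hBrow, show (fun i => W₂.subtype (b₂ i)) = W₂.subtype ∘ b₂ from rfl, Set.range_comp,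
      ← Submodule.map_span, b₂.span_eq, Submodule.map_top, Submodule.range_subtype]
  have hYs : rsp Y = W₃ := by
    show Submodule.span ℚ (Set.range Y.row) = W₃
    rw [hYrow, show (fun i => W₃.subtype (b₃ i)) = W₃.subtype ∘ b₃ from rfl, Set.range_comp,
      ← Submodule.map_span, b₃.span_eq, Submodule.map_top, Submodule.range_subtype]
  refine ⟨B, Y, hBs, ?_, hBli, ?_⟩
  · show Submodule.span ℚ (Set.range (Matrix.fromRows B Y).row) = W₁
    rw [FA4_row_fromRows, Set.Sum.elim_range, Submodule.span_union]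
    change rsp B ⊔ rsp Y = W₁
    rw [hBs, hYs, hsup]
  · rw [FA4_row_fromRows]
    apply LinearIndependent.sum_type hBli hYli
    change Disjoint (rsp B) (rsp Y)
    rw [hBs, hYs]
    exact hdisj

end Abs

variable (N : ℕ) [NeZero N]

theorem FA4_WQ_mono (b : ℕ) {E E' : Divisor Qb (FB N)} (h : E ≤ E') : WQ N b E' ≤ WQ N b E := by
  intro x hx
  rw [mem_WQ] at hx ⊢
  refine L_mono ?_ hx
  intro v
  have := h v
  simp only [dvo, Finsupp.sub_apply]
  omega

/-- **(AD)** adapted bases of `WQ b (E+F) ≤ WQ b E` -/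
theorem FA4_adapted (b : ℕ) (E F : Dv N) (k f : ℕ)
    (hk : Module.finrank ℚ (WQ N b ((E + F : Dv N) : Divisor Qb (FB N))) = k)
    (hkf : Module.finrank ℚ (WQ N b (E : Divisor Qb (FB N))) = k + f) :
    ∃ (B : Matrix (Fin k) (Fin (dV N b)) ℚ) (Y : Matrix (Fin f) (Fin (dV N b)) ℚ),
      rsp B = WQ N b ((E + F : Dv N) : Divisor Qb (FB N)) ∧
      rsp (Matrix.fromRows B Y) = WQ N b (E : Divisor Qb (FB N)) ∧
      plu B ≠ 0 ∧ plu (Matrix.fromRows B Y) ≠ 0 ∧
      FC_HH N b ((E + F : Dv N) : Divisor Qb (FB N)) = Height.logHeight (plu B) ∧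
      FC_HH N b (E : Divisor Qb (FB N)) = Height.logHeight (plu (Matrix.fromRows B Y)) := by
  have hle : WQ N b ((E + F : Dv N) : Divisor Qb (FB N)) ≤ WQ N b (E : Divisor Qb (FB N)) := by
    apply FA4_WQ_mono
    show (E : Divisor Qb (FB N)) ≤ (E : Divisor Qb (FB N)) + (F : Divisor Qb (FB N))
    exact le_add_of_nonneg_right (FG_nonneg F)
  obtain ⟨B, Y, h1, h2, h3, h4⟩ := FA4_adapted_abs _ _ hle k f hk hkf
  exact ⟨B, Y, h1, h2, (LA_plu_ne_zero_iff B).mpr h3, (LA_plu_ne_zero_iff _).mpr h4,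
    FA4_subH_eq _ B h3 h1, FA4_subH_eq _ _ h4 h2⟩

theorem FA4_mulC_eq (m b : ℕ) (s : Fin (dV N m) → ℚ) (z : Fin (dV N b) → ℚ) :
    mulC (tau N m b) s z = mulQ N m b s z := by
  funext j
  rw [FCM_mulQ_apply]
  refine Finset.sum_congr rfl fun l _ => Finset.sum_congr rfl fun i _ => ?_
  simp only [eq_ratCast, Rat.cast_id]
  ring

/-- **(CL)** multiplication closure -/
theorem FA4_mulC_mem (m b : ℕ) {A E : Divisor Qb (FB N)} {s : Fin (dV N m) → ℚ}
    {z : Fin (dV N b) → ℚ} (hs : s ∈ WQ N m A) (hz : z ∈ WQ N b E) :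
    mulC (tau N m b) s z ∈ WQ N (b + m) (E + A) := by
  rw [FA4_mulC_eq, mem_WQ, FCM_vecQ_mulQ, ← FCM_dvo_add]
  exact mul_mem_L ((mem_WQ N).mp hs) ((mem_WQ N).mp hz)

/-- `hcomm` of `cube_abs` -/
theorem FA4_hcomm (m b : ℕ) (s t : Fin (dV N m) → ℚ) (z : Fin (dV N b) → ℚ) :
    mulC (tau N m (b + m)) s (mulC (tau N m b) t z)
      = mulC (tau N m (b + m)) t (mulC (tau N m b) s z) := by
  apply vecQ_injective N
  rw [FA4_mulC_eq, FA4_mulC_eq, FA4_mulC_eq, FA4_mulC_eq, FCM_vecQ_mulQ, FCM_vecQ_mulQ,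
    FCM_vecQ_mulQ, FCM_vecQ_mulQ]
  ring

/-- `hdom` of `cube_abs` -/
theorem FA4_hdom (m b : ℕ) (t : Fin (dV N m) → Qb) (z : Fin (dV N b) → Qb)
    (h : mulC (tau N m b) t z = 0) : t = 0 ∨ z = 0 := by
  apply FI_nzd N m b (FCM_tau_spec N m b) t z
  intro l
  have h1 : mulC (tau N m b) t z l = 0 := congrFun h l
  rw [← h1]
  refine Finset.sum_congr rfl fun a _ => Finset.sum_congr rfl fun i _ => ?_
  ring

end

end Fermat.Agent.S17Lib
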