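import Fermat.Agent.S17.Cube.Defs2
import Fermat.Agent.S17.Frame.LA

/-!
# S17: adapted bases (pure linear algebra)

`ADP_exists` : for `W' ≤ W` a basis matrix `b` of `W'` and rows `y` such that `fromRows b y` is a
basis matrix of `W`.  `ADP_logHeight_reindex` : the height of the Pluecker vector does not depend on
the indexing of the rows.
-/

set_option autoImplicit false

namespace Fermat.Agent.S17Lib

open Matrix Height

theorem ADP_plu_reindex {R : Type*} [CommRing R] {m n ι : Type*} [Fintype m] [DecidableEq m]
    [Fintype n] [DecidableEq n] (e : m ≃ n) (B : Matrix n ι R) (J : m → ι) :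
    plu (B.submatrix e id) J = plu B (J ∘ e.symm) := by
  unfold plu
  rw [← Matrix.det_submatrix_equiv_self e]
  congr 1
  ext a b
  simp

theorem ADP_logHeight_reindex {m n ι : Type*} [Fintype m] [DecidableEq m]
    [Fintype n] [DecidableEq n] (e : m ≃ n) (B : Matrix n ι ℚ) :
    logHeight (plu (B.submatrix e id)) = logHeight (plu B) := by
  have h : plu (B.submatrix e id) = plu B ∘ (Equiv.arrowCongr e (Equiv.refl ι)) := by
    funext J
    rw [ADP_plu_reindex]
    rfl
  rw [h, logHeight_comp_equiv]

theorem ADP_row_fromRows {k : Type*} {n φ ι : Type*} (b : Matrix n ι k) (y : Matrix φ ι k) :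
    (Matrix.fromRows b y).row = Sum.elim b.row y.row := by
  funext r
  cases r <;> rfl

theorem ADP_rsp_fromRows {k : Type*} [Field k] {n φ ι : Type*} (b : Matrix n ι k)
    (y : Matrix φ ι k) : rsp (Matrix.fromRows b y) = rsp b ⊔ rsp y := by
  unfold rsp
  rw [ADP_row_fromRows, Set.Sum.elim_range, Submodule.span_union]

/-- adapted bases -/
theorem ADP_exists {K : Type*} [Field K] {ι : Type*} [Fintype ι] [DecidableEq ι]
    (W' W : Submodule K (ι → K)) (hle : W' ≤ W) (k f : ℕ) (hk : Module.finrank K W' = k)
    (hkf : Module.finrank K W = k + f) :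
    ∃ (b : Matrix (Fin k) ι K) (y : Matrix (Fin f) ι K), rsp b = W' ∧
      rsp (Matrix.fromRows b y) = W ∧ plu b ≠ 0 ∧ plu (Matrix.fromRows b y) ≠ 0 := by
  classical
  obtain ⟨C, hC⟩ := Submodule.exists_isCompl W'
  set Q : Submodule K (ι → K) := C ⊓ W with hQ
  have hsup : W' ⊔ Q = W := by
    rw [hQ, ← sup_inf_assoc_of_le C hle, hC.sup_eq_top, top_inf_eq]
  have hdis : Disjoint W' Q := hC.disjoint.mono_right inf_le_left
  have hQf : Module.finrank K Q = f := by
    have h1 := Submodule.finrank_sup_add_finrank_inf_eq W' Q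
    rw [hsup, hdis.eq_bot, finrank_bot] at h1
    omega
  let β := Module.finBasisOfFinrankEq K W' hk
  let γ := Module.finBasisOfFinrankEq K Q hQf
  let b : Matrix (Fin k) ι K := Matrix.of fun i => ((β i : W') : ι → K)
  let y : Matrix (Fin f) ι K := Matrix.of fun j => ((γ j : Q) : ι → K)
  have hbrow : b.row = fun i => W'.subtype (β i) := rfl
  have hyrow : y.row = fun j => Q.subtype (γ j) := rfl
  have hbli : LinearIndependent K b.row := by
    rw [hbrow]
    exact β.linearIndependent.map' _ (Submodule.ker_subtype _)
  have hyli : LinearIndependent K y.row := by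
    rw [hyrow]
    exact γ.linearIndependent.map' _ (Submodule.ker_subtype _)
  have hbs : rsp b = W' := by
    unfold rsp
    rw [hbrow]
    have : (Set.range fun i => W'.subtype (β i)) = W'.subtype '' Set.range β := by
      rw [← Set.range_comp]; rfl
    rw [this, Submodule.span_image, β.span_eq, Submodule.map_top, Submodule.range_subtype]
  have hys : rsp y = Q := by
    unfold rsp
    rw [hyrow]
    have : (Set.range fun j => Q.subtype (γ j)) = Q.subtype '' Set.range γ := by
      rw [← Set.range_comp]; rfl
    rw [this, Submodule.span_image, γ.span_eq, Submodule.map_top, Submodule.range_subtype]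
  have hsp : rsp (Matrix.fromRows b y) = W := by
    rw [ADP_rsp_fromRows, hbs, hys, hsup]
  have hli : LinearIndependent K (Matrix.fromRows b y).row := by
    rw [ADP_row_fromRows]
    apply LinearIndependent.sum_type hbli hyli
    change Disjoint (rsp b) (rsp y)
    rw [hbs, hys]
    exact hdis
  exact ⟨b, y, hbs, hsp, (LA_plu_ne_zero_iff b).mpr hbli,
    (LA_plu_ne_zero_iff _).mpr hli⟩

end Fermat.Agent.S17Lib
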