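import Fermat.Agent.S17.FC.Defs
import Fermat.Agent.S17.Frame.RatL

/-!
# S17 FRAME-CURVE (F1): `oo` is Galois fixed, rational bases of `L(D)` for rational `D`,
`bas_spec`, rationality of coordinates.
-/

set_option autoImplicit false
set_option synthInstance.maxHeartbeats 400000
set_option linter.unusedSectionVars false

open AlgebraicCurve ModularCurve

namespace Fermat.Agent.S17Lib

open Fermat.Agent.S18Lib Fermat.Agent.S24Lib Fermat.Agent.ESLib Fermat.Agent.FFLib
  Fermat.Agent.S28Lib

noncomputable section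

variable (N : ℕ) [NeZero N]

theorem oo_eq_pInf : oo N = pInf N := by
  apply place_ext_of_ord
  intro f hf
  by_cases hf0 : f = 0
  · simp [hf0]
  rw [pInf_ord N hf0, oo_ord N f hf0]
  exact hf

theorem gq_oo (σ : GQ) : gq N σ • oo N = oo N := by
  rw [oo_eq_pInf]
  exact gS_pInf N σ

theorem isRatDiv_dvo {E : Divisor Qb (FB N)} (hE : ∀ σ : GQ, gq N σ • E = E) (b : ℕ) :
    IsRatDiv N (dvo N b E) := by
  intro σ
  show gq N σ • (Finsupp.single (oo N) (b : ℤ) - E) = _
  rw [smul_sub, SemilinearAut.smul_single, gq_oo, hE σ]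

theorem isRatDiv_dvo_zero (b : ℕ) : IsRatDiv N (dvo N b 0) :=
  isRatDiv_dvo N (fun _ => smul_zero _) b

theorem isRat_of_coe_eq_cE {f : FB N} {r : LaurentSeries ℚ}
    (h : (f : LaurentSeries Qb) = cE r) : IsRat N f := by
  intro σ
  apply Subtype.ext
  show coeffMap (σ : Qb →+* Qb) (f : LaurentSeries Qb) = f
  rw [h]
  exact coeffMap_coeffEmb σ r

theorem exists_cE_of_isRat {f : FB N} (hf : IsRat N f) :
    ∃ r : LaurentSeries ℚ, cE r = (f : LaurentSeries Qb) :=
  exists_rat_of_fixed _ fun σ => congrArg Subtype.val (hf σ)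

/-- a rational basis of `L(D)` for a rational divisor `D` -/
theorem exists_rat_basis_L {D : Divisor Qb (FB N)} (hD : IsRatDiv N D) :
    ∃ β : Fin (FFLib.ell D) → FB N, (∀ i, IsRat N (β i)) ∧ LinearIndependent Qb β ∧
      Submodule.span Qb (Set.range β) = riemannRochSpace D := by
  obtain ⟨r, hm, hli, -⟩ := exists_ratL_basis N hD
  have h1 : ∀ i, ∃ f ∈ riemannRochSpace D, ((f : FB N) : LaurentSeries Qb) = cE (r i) :=
    fun i => (mem_LS N).mp (hm i)
  choose β hβ hβr using h1
  have hli' : LinearIndependent Qb β := by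
    apply LinearIndependent.of_comp (embL N)
    have : (embL N) ∘ β = fun i => cE (r i) := funext hβr
    rw [this]
    exact linearIndependent_cE hli
  refine ⟨β, fun i => isRat_of_coe_eq_cE N (hβr i), hli', ?_⟩
  have hfd := finiteDimensional_L (isFF_FB N) D
  apply Submodule.eq_of_le_of_finrank_le
  · rw [Submodule.span_le]
    rintro _ ⟨i, rfl⟩
    exact hβ i
  · rw [finrank_span_eq_card hli', Fintype.card_fin]
    exact le_refl _

theorem bas_spec (b : ℕ) : basP N b (bas N b) :=
  Classical.epsilon_spec (p := basP N b) (exists_rat_basis_L N (isRatDiv_dvo_zero N b))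

theorem gq_smul_smul (σ : GQ) (a : Qb) (f : FB N) : gq N σ • (a • f) = σ a • (gq N σ • f) := by
  rw [Algebra.smul_def, Algebra.smul_def, smul_mul', SemilinearAut.smul_algebraMap]
  rfl

/-- coordinates of a rational function in an independent family of rational functions are
rational -/
theorem exists_rat_coord {ι : Type*} [Fintype ι] {γ : ι → FB N} (hγ : LinearIndependent Qb γ)
    (hr : ∀ i, IsRat N (γ i)) (a : ι → Qb) (hf : IsRat N (∑ i, a i • γ i)) :
    ∃ a' : ι → ℚ, ∀ i, algebraMap ℚ Qb (a' i) = a i := by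
  have hcl : IsAlgClosure ℚ Qb := ⟨inferInstance, AlgebraicClosure.isAlgebraic ℚ⟩
  have hgal : IsGalois ℚ Qb := IsAlgClosure.isGalois ℚ Qb
  have h1 : ∀ i, ∃ c : ℚ, algebraMap ℚ Qb c = a i := by
    intro i
    refine (InfiniteGalois.mem_range_algebraMap_iff_fixed (k := ℚ) (K := Qb) (a i)).mpr
      fun σ => ?_
    have h2 := hf σ
    rw [Finset.smul_sum] at h2
    simp only [gq_smul_smul, hr _ σ] at h2
    have h3 : ∑ j, (σ (a j) - a j) • γ j = 0 := by
      simp only [sub_smul, Finset.sum_sub_distrib, h2, sub_self]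
    have h4 := Fintype.linearIndependent_iff.mp hγ _ h3 i
    exact sub_eq_zero.mp h4
  choose a' ha' using h1
  exact ⟨a', ha'⟩

end

end Fermat.Agent.S17Lib
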