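import Fermat.Agent.S17.FC.Adapt
import Fermat.Agent.S17.FC.Thr
import Fermat.Agent.S17.FDa

/-!
# S17: final assembly of the input (cube) of `FDa.Inputs` on the curve, from the abstract cube
-/

set_option autoImplicit false
set_option synthInstance.maxHeartbeats 400000

open AlgebraicCurve ModularCurve

namespace Fermat.Agent.S17Lib

open Fermat.Agent.S18Lib Fermat.Agent.S24Lib Fermat.Agent.ESLib Fermat.Agent.FFLib
  Fermat.Agent.S28Lib

noncomputable section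

variable (N : ℕ) [NeZero N]

/-- the height function of the frame -/
def FA4_H (b : ℕ) (E : Dv N) : ℝ := FC_HH N b (E : Divisor Qb (FB N))

/-- a basis matrix of `WQ m A` -/
theorem FA4_exists_matrix (b : ℕ) (E : Dv N) (k : ℕ)
    (hk : Module.finrank ℚ (WQ N b (E : Divisor Qb (FB N))) = k) :
    ∃ B : Matrix (Fin k) (Fin (dV N b)) ℚ, rsp B = WQ N b (E : Divisor Qb (FB N)) ∧ plu B ≠ 0 := by
  obtain ⟨B, Y, h1, -, h3, -⟩ := FA4_adapted_abs (WQ N b (E : Divisor Qb (FB N)))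
    (WQ N b (E : Divisor Qb (FB N))) le_rfl k 0 hk (by rw [hk]; rfl)
  exact ⟨B, h1, (LA_plu_ne_zero_iff B).mpr h3⟩

/-- **assembly**: the abstract cube (in the per-point shape of `cube_abs`) gives the cube on the
curve at the levels `b0`, `b0 + m`, `b0 + m + m`. -/
theorem FA4_cube_levels (b0 m n1 f a ka k0 k1 k2 : ℕ)
    (hka : ∀ A : Dv N, dvDeg N A = a →
      Module.finrank ℚ (WQ N m (A : Divisor Qb (FB N))) = ka)
    (hk0 : ∀ E : Dv N, dvDeg N E = n1 + f →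
      Module.finrank ℚ (WQ N b0 (E : Divisor Qb (FB N))) = k0)
    (hk0' : ∀ E : Dv N, dvDeg N E = n1 →
      Module.finrank ℚ (WQ N b0 (E : Divisor Qb (FB N))) = k0 + f)
    (hk1 : ∀ E : Dv N, dvDeg N E = n1 + a + f →
      Module.finrank ℚ (WQ N (b0 + m) (E : Divisor Qb (FB N))) = k1)
    (hk1' : ∀ E : Dv N, dvDeg N E = n1 + a →
      Module.finrank ℚ (WQ N (b0 + m) (E : Divisor Qb (FB N))) = k1 + f)
    (hk2 : ∀ E : Dv N, dvDeg N E = n1 + 2 * a + f →
      Module.finrank ℚ (WQ N (b0 + m + m) (E : Divisor Qb (FB N))) = k2)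
    (hk2' : ∀ E : Dv N, dvDeg N E = n1 + 2 * a →
      Module.finrank ℚ (WQ N (b0 + m + m) (E : Divisor Qb (FB N))) = k2 + f)
    (PA : Matrix (Fin ka) (Fin (dV N m)) ℚ → Prop)
    (PB : Matrix (Fin k1) (Fin (dV N (b0 + m))) ℚ → Prop)
    (PB' : Matrix (Fin k1 ⊕ Fin f) (Fin (dV N (b0 + m))) ℚ → Prop)
    (hPA : ∀ (A : Dv N) (M : Matrix (Fin ka) (Fin (dV N m)) ℚ), dvDeg N A = a →
      rsp M = WQ N m (A : Divisor Qb (FB N)) → plu M ≠ 0 → PA M)
    (hPB : ∀ (E : Dv N) (M : Matrix (Fin k1) (Fin (dV N (b0 + m))) ℚ), dvDeg N E = n1 + a + f →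
      rsp M = WQ N (b0 + m) (E : Divisor Qb (FB N)) → plu M ≠ 0 → PB M)
    (hPB' : ∀ (E : Dv N) (M : Matrix (Fin k1 ⊕ Fin f) (Fin (dV N (b0 + m))) ℚ),
      dvDeg N E = n1 + a →
      rsp M = WQ N (b0 + m) (E : Divisor Qb (FB N)) → plu M ≠ 0 → PB' M)
    (ht0 : ∀ A F : Dv N, dvDeg N A = a → dvDeg N F = f → ∃ t0 ∈ WQ N m (A : Divisor Qb (FB N)),
      ∀ (b : ℕ) (E : Dv N) (z : Fin (dV N b) → ℚ), z ∈ WQ N b (E : Divisor Qb (FB N)) →
        mulQ N m b t0 z ∈ WQ N (b + m) ((E + A + F : Dv N) : Divisor Qb (FB N)) →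
        z ∈ WQ N b ((E + F : Dv N) : Divisor Qb (FB N)))
    (habs : ∃ C : ℝ, ∀ (a : Matrix (Fin ka) (Fin (dV N m)) ℚ)
      (b0' : Matrix (Fin k0) (Fin (dV N b0)) ℚ) (y0 : Matrix (Fin f) (Fin (dV N b0)) ℚ)
      (b' : Matrix (Fin k1) (Fin (dV N (b0 + m))) ℚ) (y' : Matrix (Fin f) (Fin (dV N (b0 + m))) ℚ)
      (b'' : Matrix (Fin k2) (Fin (dV N (b0 + m + m))) ℚ)
      (y'' : Matrix (Fin f) (Fin (dV N (b0 + m + m))) ℚ),
      PA a → PB b' → PB' (Matrix.fromRows b' y') →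
      plu a ≠ 0 → plu (Matrix.fromRows b0' y0) ≠ 0 → plu (Matrix.fromRows b' y') ≠ 0 →
      plu (Matrix.fromRows b'' y'') ≠ 0 →
      (∀ s ∈ rsp a, ∀ z ∈ rsp b0', mulC (tau N m b0) s z ∈ rsp b') →
      (∀ s ∈ rsp a, ∀ z ∈ rsp (Matrix.fromRows b0' y0),
        mulC (tau N m b0) s z ∈ rsp (Matrix.fromRows b' y')) →
      (∀ s ∈ rsp a, ∀ z ∈ rsp b', mulC (tau N m (b0 + m)) s z ∈ rsp b'') →
      (∀ s ∈ rsp a, ∀ z ∈ rsp (Matrix.fromRows b' y'),
        mulC (tau N m (b0 + m)) s z ∈ rsp (Matrix.fromRows b'' y'')) →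
      (∃ t0 ∈ rsp a,
        (∀ z ∈ rsp (Matrix.fromRows b0' y0), mulC (tau N m b0) t0 z ∈ rsp b' → z ∈ rsp b0') ∧
        (∀ z ∈ rsp (Matrix.fromRows b' y'), mulC (tau N m (b0 + m)) t0 z ∈ rsp b'' →
          z ∈ rsp b')) →
      |(Height.logHeight (plu (Matrix.fromRows b'' y''))
          + Height.logHeight (plu (Matrix.fromRows b0' y0))
          - 2 * Height.logHeight (plu (Matrix.fromRows b' y'))) -
        (Height.logHeight (plu b'') + Height.logHeight (plu b0')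
          - 2 * Height.logHeight (plu b'))| ≤ C) :
    ∃ C : ℝ, ∀ E1 F A : Dv N, dvDeg N E1 = n1 → dvDeg N F = f → dvDeg N A = a →
      |FDa.Dcube (FA4_H N) (b0 + m) m E1 A - FDa.Dcube (FA4_H N) (b0 + m) m (E1 + F) A| ≤ C := by
  obtain ⟨C, hC⟩ := habs
  refine ⟨C, fun E1 F A hE1 hF hA => ?_⟩
  obtain ⟨Ma, hMa, hMa0⟩ := FA4_exists_matrix N m A ka (hka A hA)
  obtain ⟨B0, Y0, h0a, h0b, h0c, h0d, h0e, h0f⟩ := FA4_adapted N b0 E1 F k0 f
    (hk0 _ (by rw [map_add, hE1, hF])) (hk0' _ hE1)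
  obtain ⟨B1, Y1, h1a, h1b, h1c, h1d, h1e, h1f⟩ := FA4_adapted N (b0 + m) (E1 + A) F k1 f
    (hk1 _ (by rw [map_add, map_add, hE1, hF, hA])) (hk1' _ (by rw [map_add, hE1, hA]))
  obtain ⟨B2, Y2, h2a, h2b, h2c, h2d, h2e, h2f⟩ := FA4_adapted N (b0 + m + m) (E1 + 2 • A) F k2 f
    (hk2 _ (by rw [map_add, map_add, map_nsmul, hE1, hF, hA, smul_eq_mul]))
    (hk2' _ (by rw [map_add, map_nsmul, hE1, hA, smul_eq_mul]))
  obtain ⟨t0, ht0m, ht0c⟩ := ht0 A F hA hF
  have key := hC Ma B0 Y0 B1 Y1 B2 Y2 (hPA A Ma hA hMa hMa0)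
    (hPB _ B1 (by rw [map_add, map_add, hE1, hF, hA]) h1a h1c)
    (hPB' _ _ (by rw [map_add, hE1, hA]) h1b h1d) hMa0 h0d h1d h2d
    (by
      intro s hs z hz
      rw [hMa] at hs
      rw [h0a] at hz
      rw [h1a]
      have := FA4_mulC_mem N m b0 hs hz
      have e : ((E1 + F : Dv N) : Divisor Qb (FB N)) + (A : Divisor Qb (FB N))
          = ((E1 + A + F : Dv N) : Divisor Qb (FB N)) := by
        show ((E1 : Divisor Qb (FB N)) + F) + A = ((E1 : Divisor Qb (FB N)) + A) + F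
        abel
      rwa [e] at this)
    (by
      intro s hs z hz
      rw [hMa] at hs
      rw [h0b] at hz
      rw [h1b]
      exact FA4_mulC_mem N m b0 hs hz)
    (by
      intro s hs z hz
      rw [hMa] at hs
      rw [h1a] at hz
      rw [h2a]
      have := FA4_mulC_mem N m (b0 + m) hs hz
      have e : ((E1 + A + F : Dv N) : Divisor Qb (FB N)) + (A : Divisor Qb (FB N))
          = ((E1 + 2 • A + F : Dv N) : Divisor Qb (FB N)) := by
        show (((E1 : Divisor Qb (FB N)) + A) + F) + A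
          = ((E1 : Divisor Qb (FB N)) + (2 • A : Dv N)) + F
        rw [two_nsmul]
        show (((E1 : Divisor Qb (FB N)) + A) + F) + A
          = ((E1 : Divisor Qb (FB N)) + ((A : Divisor Qb (FB N)) + A)) + F
        abel
      rwa [e] at this)
    (by
      intro s hs z hz
      rw [hMa] at hs
      rw [h1b] at hz
      rw [h2b]
      have := FA4_mulC_mem N m (b0 + m) hs hz
      have e : ((E1 + A : Dv N) : Divisor Qb (FB N)) + (A : Divisor Qb (FB N))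
          = ((E1 + 2 • A : Dv N) : Divisor Qb (FB N)) := by
        show ((E1 : Divisor Qb (FB N)) + A) + A = (E1 : Divisor Qb (FB N)) + (2 • A : Dv N)
        rw [two_nsmul]
        show ((E1 : Divisor Qb (FB N)) + A) + A
          = (E1 : Divisor Qb (FB N)) + ((A : Divisor Qb (FB N)) + A)
        abel
      rwa [e] at this)
    ⟨t0, by rw [hMa]; exact ht0m, by
      intro z hz h
      rw [h0b] at hz
      rw [h1a, FA4_mulC_eq] at h
      rw [h0a]
      exact ht0c b0 E1 z hz h, by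
      intro z hz h
      rw [h1b] at hz
      rw [h2a, FA4_mulC_eq] at h
      rw [h1a]
      refine ht0c (b0 + m) (E1 + A) z hz ?_
      have e : (E1 + A + A + F : Dv N) = E1 + 2 • A + F := by
        rw [two_nsmul]; abel
      rw [e]
      exact h⟩
  have e1 : (E1 + F + 2 • A : Dv N) = E1 + 2 • A + F := by abel
  have e2 : (E1 + F + A : Dv N) = E1 + A + F := by abel
  unfold FDa.Dcube FA4_H
  rw [Nat.add_sub_cancel, e1, e2, h0e, h0f, h1e, h1f, h2e, h2f]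
  exact key

end

end Fermat.Agent.S17Lib
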