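import Fermat.Agent.S17.FC.Inv
import Fermat.Agent.S17.FC.Mul
import Fermat.Agent.S17.FC.Thr

/-!
# S17 FRAME-CURVE (F3): hypothesis-free versions of (nzd) and (inv)
-/

set_option autoImplicit false
set_option synthInstance.maxHeartbeats 400000
set_option linter.unusedSectionVars false

open AlgebraicCurve ModularCurve

namespace Fermat.Agent.S17Lib

open Fermat.Agent.S18Lib Fermat.Agent.S24Lib Fermat.Agent.ESLib Fermat.Agent.FFLib
  Fermat.Agent.S28Lib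

noncomputable section

variable (N : ℕ) [NeZero N]

/-- (nzd) for `tau N m b`, no hypotheses -/
theorem FI_nzd_final (m b : ℕ) (f : Fin (dV N m) → Qb) (w : Fin (dV N b) → Qb)
    (h : ∀ l, ∑ a, ∑ i, f a * w i * algebraMap ℚ Qb (tau N m b a i l) = 0) : f = 0 ∨ w = 0 :=
  FI_nzd N m b (FCM_tau_spec N m b) f w h

/-- (inv), any Riemann-Roch bound `c` -/
theorem FI_inv_rr (c : ℕ) (hc : IsRRBound Qb (FB N) (c : ℤ)) (n B : ℕ) :
    ∃ C : ℝ, ∀ E E' : Dv N, dvDeg N E = n → dvDeg N E' = n → dvCl N E = dvCl N E' →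
      ∃ δ : ℝ, ∀ b : ℕ, n + c ≤ b → b ≤ B →
        |FC_HH N b E - FC_HH N b E' - ((b : ℝ) - n + 1 - genusR Qb (FB N)) * δ| ≤ C :=
  FI_inv N (FCM_tau_spec N) (FCM_vecQ_mulQ N) c hc n B

/-- (inv) for `c = cFC N` -/
theorem FI_inv_final (n B : ℕ) :
    ∃ C : ℝ, ∀ E E' : Dv N, dvDeg N E = n → dvDeg N E' = n → dvCl N E = dvCl N E' →
      ∃ δ : ℝ, ∀ b : ℕ, n + cFC N ≤ b → b ≤ B →
        |FC_HH N b E - FC_HH N b E' - ((b : ℝ) - n + 1 - genusR Qb (FB N)) * δ| ≤ C :=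
  FI_inv_rr N (cFC N) (cFC_rr N) n B

end

end Fermat.Agent.S17Lib
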