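import Fermat.Agent.S17.FC.CubeIng
import Fermat.Agent.S17.Cube.CurveT
import Fermat.Agent.S17.Cube.Main
import Fermat.Agent.S17.Top.FinalA

/-!
# S17: the cube on the curve (`TF_Cube N`)
-/

set_option autoImplicit false
set_option synthInstance.maxHeartbeats 400000

open AlgebraicCurve ModularCurve

namespace Fermat.Agent.S17Lib

open Fermat.Agent.S18Lib Fermat.Agent.S24Lib Fermat.Agent.ESLib Fermat.Agent.FFLib
  Fermat.Agent.S28Lib

noncomputable section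

variable (N : ℕ) [NeZero N]

theorem FA4_r_cast (lvl d : ℕ) (hd : d ≤ lvl) :
    (HT_r N lvl d : ℤ) = ((lvl : ℤ) + (lvl + cFC N)) + 1 - genusR Qb (FB N) - d := by
  have := cFC_genus N
  unfold HT_r
  omega

/-- `hT` of `cube_abs`, sharp threshold -/
theorem FA4_hTc (b0 m n1 f a : ℕ) (hb : n1 + f + cFC N ≤ b0) (hm : a + cFC N + 1 ≤ m)
    (a' : Matrix (Fin (FA4_ka N m a)) (Fin (dV N m)) Qb)
    (b' : Matrix (Fin (FA4_k1 N b0 m n1 f a)) (Fin (dV N (b0 + m))) Qb)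
    (hZa : ∀ f' ∈ HT_Z N m a (Fin (FA4_ka N m a)),
      MvPolynomial.aeval (fun x : Fin (FA4_ka N m a) × Fin (dV N m) => a' x.1 x.2) f' = 0)
    (hZb : ∀ f' ∈ HT_Z N (b0 + m) (n1 + a + f) (Fin (FA4_k1 N b0 m n1 f a)),
      MvPolynomial.aeval
        (fun x : Fin (FA4_k1 N b0 m n1 f a) × Fin (dV N (b0 + m)) => b' x.1 x.2) f' = 0)
    (ha : plu a' ≠ 0) (hb' : plu b' ≠ 0) :
    ∃ s ∈ rsp a', ∃ t ∈ rsp a', Fintype.card (Fin (FA4_k2 N b0 m n1 f a)) ≤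
      Module.finrank Qb (Submodule.span Qb (Set.range (UMrow (tau N m (b0 + m)) b' s t))) := by
  have hg := cFC_genus N
  refine CC_hT N (n0 := Fin (FA4_k0 N b0 n1 f)) m (b0 + m) a (n1 + a + f) (HT_r N m a)
    (HT_r N (b0 + m) (n1 + a + f)) (by omega) (by omega) (by omega) ?_ ?_ ?_ ?_
    (FA4_r_cast N _ _ (by omega)) (FA4_r_cast N _ _ (by omega))
    (FA4_eps N b0 m n1 f a hb hm) a' b' hZa hZb ha hb'
  · rw [Fintype.card_fin]; unfold FA4_ka; omega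
  · rw [Fintype.card_fin]; unfold FA4_k1; omega
  · rw [Fintype.card_fin]; unfold FA4_k0; omega
  · rw [Fintype.card_fin]; unfold FA4_k2; omega

/-- `hT'` of `cube_abs`, sharp threshold -/
theorem FA4_hTc' (b0 m n1 f a : ℕ) (hb : n1 + f + cFC N ≤ b0) (hm : a + cFC N + 1 ≤ m)
    (a' : Matrix (Fin (FA4_ka N m a)) (Fin (dV N m)) Qb)
    (b' : Matrix (Fin (FA4_k1 N b0 m n1 f a) ⊕ Fin f) (Fin (dV N (b0 + m))) Qb)
    (hZa : ∀ f' ∈ HT_Z N m a (Fin (FA4_ka N m a)),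
      MvPolynomial.aeval (fun x : Fin (FA4_ka N m a) × Fin (dV N m) => a' x.1 x.2) f' = 0)
    (hZb : ∀ f' ∈ HT_Z N (b0 + m) (n1 + a) (Fin (FA4_k1 N b0 m n1 f a) ⊕ Fin f),
      MvPolynomial.aeval
        (fun x : (Fin (FA4_k1 N b0 m n1 f a) ⊕ Fin f) × Fin (dV N (b0 + m)) => b' x.1 x.2) f' = 0)
    (ha : plu a' ≠ 0) (hb' : plu b' ≠ 0) :
    ∃ s ∈ rsp a', ∃ t ∈ rsp a', Fintype.card (Fin (FA4_k2 N b0 m n1 f a) ⊕ Fin f) ≤
      Module.finrank Qb (Submodule.span Qb (Set.range (UMrow (tau N m (b0 + m)) b' s t))) := by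
  have hg := cFC_genus N
  refine CC_hT N (n0 := Fin (FA4_k0 N b0 n1 f) ⊕ Fin f) m (b0 + m) a (n1 + a) (HT_r N m a)
    (HT_r N (b0 + m) (n1 + a)) (by omega) (by omega) (by omega) ?_ ?_ ?_ ?_
    (FA4_r_cast N _ _ (by omega)) (FA4_r_cast N _ _ (by omega))
    (cubeEps (Fin f) (FA4_eps N b0 m n1 f a hb hm)) a' b' hZa hZb ha hb'
  · rw [Fintype.card_fin]; unfold FA4_ka; omega
  · rw [Fintype.card_sum, Fintype.card_fin, Fintype.card_fin]; unfold FA4_k1; omega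
  · rw [Fintype.card_sum, Fintype.card_fin, Fintype.card_fin]; unfold FA4_k0; omega
  · rw [Fintype.card_sum, Fintype.card_fin, Fintype.card_fin]; unfold FA4_k2; omega

/-- the cube at the levels `b0`, `b0 + m`, `b0 + m + m` -/
theorem FA4_cube_b0 (b0 m n1 f a : ℕ) (hb : n1 + f + cFC N ≤ b0) (hm : a + cFC N + 1 ≤ m) :
    ∃ C : ℝ, ∀ E1 F A : Dv N, dvDeg N E1 = n1 → dvDeg N F = f → dvDeg N A = a →
      |FDa.Dcube (FA4_H N) (b0 + m) m E1 A - FDa.Dcube (FA4_H N) (b0 + m) m (E1 + F) A| ≤ C := by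
  have : Nonempty (Fin (FA4_k2 N b0 m n1 f a)) :=
    ⟨⟨0, FA4_k2_pos N b0 m n1 f a hb hm⟩⟩
  refine FA4_cube_thr N b0 m n1 f a hb hm
    (fun M => ∀ f' ∈ HT_Z N m a (Fin (FA4_ka N m a)),
      MvPolynomial.aeval (fun x : Fin (FA4_ka N m a) × Fin (dV N m) => M x.1 x.2) f' = 0)
    (fun M => ∀ f' ∈ HT_Z N (b0 + m) (n1 + a + f) (Fin (FA4_k1 N b0 m n1 f a)),
      MvPolynomial.aeval
        (fun x : Fin (FA4_k1 N b0 m n1 f a) × Fin (dV N (b0 + m)) => M x.1 x.2) f' = 0)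
    (fun M => ∀ f' ∈ HT_Z N (b0 + m) (n1 + a) (Fin (FA4_k1 N b0 m n1 f a) ⊕ Fin f),
      MvPolynomial.aeval
        (fun x : (Fin (FA4_k1 N b0 m n1 f a) ⊕ Fin f) × Fin (dV N (b0 + m)) => M x.1 x.2) f' = 0)
    (fun A M hA hM _ => FA4_mem_Z N m a (by omega) A hA M hM)
    (fun E M hE hM _ => FA4_mem_Z N (b0 + m) (n1 + a + f) (by omega) E hE M hM)
    (fun E M hE hM _ => FA4_mem_Z N (b0 + m) (n1 + a) (by omega) E hE M hM)
    (cube_abs (tau N m b0) (tau N m (b0 + m)) (FA4_eps N b0 m n1 f a hb hm)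
      (FA4_hcomm N m b0) (FA4_hdom N m b0)
      (HT_Z N m a (Fin (FA4_ka N m a)))
      (HT_Z N (b0 + m) (n1 + a + f) (Fin (FA4_k1 N b0 m n1 f a)))
      (HT_Z N (b0 + m) (n1 + a) (Fin (FA4_k1 N b0 m n1 f a) ⊕ Fin f))
      (HT_gl N m a) (HT_gl N (b0 + m) (n1 + a + f)) (HT_gl N (b0 + m) (n1 + a))
      (FA4_hTc N b0 m n1 f a hb hm) (FA4_hTc' N b0 m n1 f a hb hm))

/-- **the cube on the curve** -/
theorem FA4_cube : TF_Cube N := by
  intro b m n1 f a hb hm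
  obtain ⟨b0, rfl⟩ : ∃ b0, b = b0 + m := ⟨b - m, by omega⟩
  exact FA4_cube_b0 N b0 m n1 f a (by omega) (by omega)

/-- **Mordell-Weil for `J₀(N)`** -/
theorem FA4_fg (hN : N.Prime) : AddGroup.FG (MW N) := TF_fg N hN (FA4_cube N)

end

end Fermat.Agent.S17Lib
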