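import Fermat.Agent.S17.FC.Mul
import Fermat.Agent.S17.FC.Thr
import Fermat.Agent.S17.Cube.Defs

/-!
# S17 FRAME-CURVE, leaf T0: a rational element of `L(m∞ - A)` which is a unit along a finite set
of places, and the cancellation property used by `cube_abs`.
-/

set_option autoImplicit false
set_option synthInstance.maxHeartbeats 400000
set_option linter.unusedSectionVars false

open AlgebraicCurve ModularCurve

namespace Fermat.Agent.S17Lib

open Fermat.Agent.S18Lib Fermat.Agent.S24Lib Fermat.Agent.ESLib Fermat.Agent.FFLib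
  Fermat.Agent.S28Lib

noncomputable section

variable (N : ℕ) [NeZero N]

theorem FT0_dvo_add_single (m : ℕ) (A : Divisor Qb (FB N)) (v : Place Qb (FB N)) :
    dvo N m (A + Finsupp.single v 1) = dvo N m A - Finsupp.single v 1 := by
  simp only [dvo]
  abel

/-- above the threshold the rational functions of `L(m∞ - A)` do not all vanish at `v` -/
theorem FT0_not_le (m : ℕ) (A : Dv N) (h : dvDeg N A + cFC N + 1 ≤ m) (v : Place Qb (FB N)) :
    ¬ (WQ N m (A : Divisor Qb (FB N)) ≤ WQ N m ((A : Divisor Qb (FB N)) + Finsupp.single v 1)) := by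
  intro hle
  have hdeg : (cFC N : ℤ) + 1 ≤ Divisor.degree (dvo N m (A : Divisor Qb (FB N))) := by
    rw [FG_degree_dvo]
    have : ((dvDeg N A + cFC N + 1 : ℕ) : ℤ) ≤ (m : ℤ) := by exact_mod_cast h
    push_cast at this
    linarith
  obtain ⟨f, hf, hf'⟩ := exists_not_mem_sub_single (isFF_FB N) (cFC_rr N)
    (dvo N m (A : Divisor Qb (FB N))) hdeg v
  apply hf'
  have hB : WB N m (A : Divisor Qb (FB N)) ≤
      WB N m ((A : Divisor Qb (FB N)) + Finsupp.single v 1) := by
    rw [← span_toQb_WQ N m A.2, Submodule.span_le]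
    rintro _ ⟨c, hc, rfl⟩
    exact hle hc
  have hf0 : f ∈ riemannRochSpace (dvo N m 0) := FCM_L_mono N A.2.1 hf
  rw [← range_vecB] at hf0
  obtain ⟨c, rfl⟩ := hf0
  have hc : c ∈ WB N m (A : Divisor Qb (FB N)) := hf
  have := hB hc
  rw [FCM_mem_WB, FT0_dvo_add_single] at this
  exact this

/-- **T0**: a rational element of `L(m∞ - A)` with exact order `-(m∞ - A)(v)` at all places of a
given finite set. -/
theorem FT0_exists (m : ℕ) (A : Dv N) (h : dvDeg N A + cFC N + 1 ≤ m)
    (T : Finset (Place Qb (FB N))) :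
    ∃ t0 ∈ WQ N m (A : Divisor Qb (FB N)), t0 ≠ 0 ∧
      ∀ v ∈ T, v.ord (vecQ N m t0) = - (dvo N m (A : Divisor Qb (FB N))) v := by
  classical
  set W := WQ N m (A : Divisor Qb (FB N)) with hW
  let p : Place Qb (FB N) → Submodule ℚ W := fun v =>
    (WQ N m ((A : Divisor Qb (FB N)) + Finsupp.single v 1)).comap W.subtype
  let s : Finset (Subspace ℚ W) := (insert (oo N) T).image p
  have hs : (⊤ : Subspace ℚ W) ∉ s := by
    intro htop
    obtain ⟨v, -, hv⟩ := Finset.mem_image.mp htop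
    apply FT0_not_le N m A h v
    intro c hc
    have : (⟨c, hc⟩ : W) ∈ p v := by rw [hv]; trivial
    exact this
  have hne := Subspace.biUnion_ne_univ_of_top_notMem hs
  rw [Ne, Set.eq_univ_iff_forall] at hne
  push Not at hne
  obtain ⟨t, ht⟩ := hne
  have hnot : ∀ v ∈ insert (oo N) T,
      (t : Fin (dV N m) → ℚ) ∉ WQ N m ((A : Divisor Qb (FB N)) + Finsupp.single v 1) := by
    intro v hv hmem
    apply ht
    simp only [Set.mem_iUnion]
    exact ⟨p v, Finset.mem_image_of_mem p hv, hmem⟩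
  have key : ∀ v ∈ insert (oo N) T, vecQ N m (t : Fin (dV N m) → ℚ) ≠ 0 ∧
      v.ord (vecQ N m (t : Fin (dV N m) → ℚ)) = - (dvo N m (A : Divisor Qb (FB N))) v := by
    intro v hv
    apply ord_eq_of_not_mem_sub_single (D := dvo N m (A : Divisor Qb (FB N)))
    · exact t.2
    · have := hnot v hv
      rw [FCM_mem_WQ, FT0_dvo_add_single] at this
      exact this
  refine ⟨t, t.2, ?_, fun v hv => (key v (Finset.mem_insert_of_mem hv)).2⟩
  intro h0
  apply (key (oo N) (Finset.mem_insert_self _ _)).1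
  rw [h0, FCM_vecQ_zero]

/-- cancellation of a unit along `F` -/
theorem FT0_cancel (m b : ℕ) (A F E : Divisor Qb (FB N)) (t0 : Fin (dV N m) → ℚ) (ht00 : t0 ≠ 0)
    (ht0 : ∀ v ∈ F.support, v.ord (vecQ N m t0) = - (dvo N m A) v)
    (z : Fin (dV N b) → ℚ) (hz : z ∈ WQ N b E)
    (h : mulQ N m b t0 z ∈ WQ N (b + m) (E + F + A)) : z ∈ WQ N b (E + F) := by
  rw [FCM_mem_WQ] at hz h ⊢
  rw [FCM_vecQ_mulQ] at h
  have hf := FCM_vecQ_ne_zero N ht00
  rw [mem_riemannRochSpace_iff] at hz h ⊢
  intro v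
  by_cases hg : vecQ N b z = 0
  · exact Or.inl hg
  right
  have hfg : vecQ N m t0 * vecQ N b z ≠ 0 := mul_ne_zero hf hg
  by_cases hv : v ∈ F.support
  · have h1 := (h v).resolve_left hfg
    rw [v.ord_mul hf hg, ht0 v hv] at h1
    simp only [dvo, Finsupp.sub_apply, Finsupp.add_apply, Nat.cast_add, Finsupp.single_add] at h1 ⊢
    linarith
  · have h1 := (hz v).resolve_left hg
    have h2 : F v = 0 := Finsupp.notMem_support_iff.mp hv
    simp only [dvo, Finsupp.sub_apply, Finsupp.add_apply, h2, add_zero] at h1 ⊢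
    exact h1

/-- `mulC` with the table `tau` is `mulQ` -/
theorem FT0_mulC_eq (m b : ℕ) (t : Fin (dV N m) → ℚ) (z : Fin (dV N b) → ℚ) :
    mulC (tau N m b) t z = mulQ N m b t z := by
  funext k
  rw [FCM_mulQ_apply]
  simp only [mulC, eq_ratCast, Rat.cast_eq_id, id_eq]
  refine Finset.sum_congr rfl fun i _ => Finset.sum_congr rfl fun j _ => ?_
  ring

end

end Fermat.Agent.S17Lib
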