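import Fermat.Agent.S17.FC.CubeAsm
import Fermat.Agent.S17.FC.T0

/-!
# S17: assembly of (cube), part 2: the reference section `t0`, dimensions, thresholds
-/

set_option autoImplicit false
set_option synthInstance.maxHeartbeats 400000

open AlgebraicCurve ModularCurve

namespace Fermat.Agent.S17Lib

open Fermat.Agent.S18Lib Fermat.Agent.S24Lib Fermat.Agent.ESLib Fermat.Agent.FFLib
  Fermat.Agent.S28Lib

noncomputable section

variable (N : ℕ) [NeZero N]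

/-- the hypothesis `ht0` of `FA4_cube_levels` -/
theorem FA4_ht0 (m a : ℕ) (hm : a + cFC N + 1 ≤ m) (A F : Dv N) (hA : dvDeg N A = a) :
    ∃ t0 ∈ WQ N m (A : Divisor Qb (FB N)),
      ∀ (b : ℕ) (E : Dv N) (z : Fin (dV N b) → ℚ), z ∈ WQ N b (E : Divisor Qb (FB N)) →
        mulQ N m b t0 z ∈ WQ N (b + m) ((E + A + F : Dv N) : Divisor Qb (FB N)) →
        z ∈ WQ N b ((E + F : Dv N) : Divisor Qb (FB N)) := by
  obtain ⟨t0, ht0m, ht00, ht0⟩ := FT0_exists N m A (by omega) (F : Divisor Qb (FB N)).support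
  refine ⟨t0, ht0m, fun b E z hz h => ?_⟩
  refine FT0_cancel N m b (A : Divisor Qb (FB N)) (F : Divisor Qb (FB N))
    (E : Divisor Qb (FB N)) t0 ht00 ht0 z hz ?_
  have e : (E : Divisor Qb (FB N)) + (F : Divisor Qb (FB N)) + (A : Divisor Qb (FB N))
      = ((E + A + F : Dv N) : Divisor Qb (FB N)) := by
    show _ = (E : Divisor Qb (FB N)) + (A : Divisor Qb (FB N)) + (F : Divisor Qb (FB N))
    abel
  rw [e]
  exact h

/-- the four dimensions -/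
def FA4_ka (m a : ℕ) : ℕ := m - a + 1 - genusR Qb (FB N)
def FA4_k0 (b0 n1 f : ℕ) : ℕ := b0 - (n1 + f) + 1 - genusR Qb (FB N)
def FA4_k1 (b0 m n1 f a : ℕ) : ℕ := b0 + m - (n1 + a + f) + 1 - genusR Qb (FB N)
def FA4_k2 (b0 m n1 f a : ℕ) : ℕ := b0 + m + m - (n1 + 2 * a + f) + 1 - genusR Qb (FB N)

theorem FA4_two_k1 (b0 m n1 f a : ℕ) (hb : n1 + f + cFC N ≤ b0) (hm : a + cFC N + 1 ≤ m) :
    FA4_k1 N b0 m n1 f a + FA4_k1 N b0 m n1 f a = FA4_k0 N b0 n1 f + FA4_k2 N b0 m n1 f a := by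
  have := cFC_genus N
  unfold FA4_k1 FA4_k0 FA4_k2
  omega

theorem FA4_k2_pos (b0 m n1 f a : ℕ) (hb : n1 + f + cFC N ≤ b0) (hm : a + cFC N + 1 ≤ m) :
    0 < FA4_k2 N b0 m n1 f a := by
  have := cFC_genus N
  unfold FA4_k2
  omega

/-- **assembly, with thresholds**: only the equations `PA PB PB'` and the abstract cube are left -/
theorem FA4_cube_thr (b0 m n1 f a : ℕ) (hb : n1 + f + cFC N ≤ b0) (hm : a + cFC N + 1 ≤ m)
    (PA : Matrix (Fin (FA4_ka N m a)) (Fin (dV N m)) ℚ → Prop)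
    (PB : Matrix (Fin (FA4_k1 N b0 m n1 f a)) (Fin (dV N (b0 + m))) ℚ → Prop)
    (PB' : Matrix (Fin (FA4_k1 N b0 m n1 f a) ⊕ Fin f) (Fin (dV N (b0 + m))) ℚ → Prop)
    (hPA : ∀ (A : Dv N) (M : Matrix (Fin (FA4_ka N m a)) (Fin (dV N m)) ℚ), dvDeg N A = a →
      rsp M = WQ N m (A : Divisor Qb (FB N)) → plu M ≠ 0 → PA M)
    (hPB : ∀ (E : Dv N) (M : Matrix (Fin (FA4_k1 N b0 m n1 f a)) (Fin (dV N (b0 + m))) ℚ),
      dvDeg N E = n1 + a + f →
      rsp M = WQ N (b0 + m) (E : Divisor Qb (FB N)) → plu M ≠ 0 → PB M)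
    (hPB' : ∀ (E : Dv N)
      (M : Matrix (Fin (FA4_k1 N b0 m n1 f a) ⊕ Fin f) (Fin (dV N (b0 + m))) ℚ),
      dvDeg N E = n1 + a →
      rsp M = WQ N (b0 + m) (E : Divisor Qb (FB N)) → plu M ≠ 0 → PB' M)
    (habs : ∃ C : ℝ, ∀ (a' : Matrix (Fin (FA4_ka N m a)) (Fin (dV N m)) ℚ)
      (b0' : Matrix (Fin (FA4_k0 N b0 n1 f)) (Fin (dV N b0)) ℚ)
      (y0 : Matrix (Fin f) (Fin (dV N b0)) ℚ)
      (b' : Matrix (Fin (FA4_k1 N b0 m n1 f a)) (Fin (dV N (b0 + m))) ℚ)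
      (y' : Matrix (Fin f) (Fin (dV N (b0 + m))) ℚ)
      (b'' : Matrix (Fin (FA4_k2 N b0 m n1 f a)) (Fin (dV N (b0 + m + m))) ℚ)
      (y'' : Matrix (Fin f) (Fin (dV N (b0 + m + m))) ℚ),
      PA a' → PB b' → PB' (Matrix.fromRows b' y') →
      plu a' ≠ 0 → plu (Matrix.fromRows b0' y0) ≠ 0 → plu (Matrix.fromRows b' y') ≠ 0 →
      plu (Matrix.fromRows b'' y'') ≠ 0 →
      (∀ s ∈ rsp a', ∀ z ∈ rsp b0', mulC (tau N m b0) s z ∈ rsp b') →
      (∀ s ∈ rsp a', ∀ z ∈ rsp (Matrix.fromRows b0' y0),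
        mulC (tau N m b0) s z ∈ rsp (Matrix.fromRows b' y')) →
      (∀ s ∈ rsp a', ∀ z ∈ rsp b', mulC (tau N m (b0 + m)) s z ∈ rsp b'') →
      (∀ s ∈ rsp a', ∀ z ∈ rsp (Matrix.fromRows b' y'),
        mulC (tau N m (b0 + m)) s z ∈ rsp (Matrix.fromRows b'' y'')) →
      (∃ t0 ∈ rsp a',
        (∀ z ∈ rsp (Matrix.fromRows b0' y0), mulC (tau N m b0) t0 z ∈ rsp b' → z ∈ rsp b0') ∧
        (∀ z ∈ rsp (Matrix.fromRows b' y'), mulC (tau N m (b0 + m)) t0 z ∈ rsp b'' →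
          z ∈ rsp b')) →
      |(Height.logHeight (plu (Matrix.fromRows b'' y''))
          + Height.logHeight (plu (Matrix.fromRows b0' y0))
          - 2 * Height.logHeight (plu (Matrix.fromRows b' y'))) -
        (Height.logHeight (plu b'') + Height.logHeight (plu b0')
          - 2 * Height.logHeight (plu b'))| ≤ C) :
    ∃ C : ℝ, ∀ E1 F A : Dv N, dvDeg N E1 = n1 → dvDeg N F = f → dvDeg N A = a →
      |FDa.Dcube (FA4_H N) (b0 + m) m E1 A - FDa.Dcube (FA4_H N) (b0 + m) m (E1 + F) A| ≤ C := by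
  have hg := cFC_genus N
  refine FA4_cube_levels N b0 m n1 f a _ _ _ _ ?_ ?_ ?_ ?_ ?_ ?_ ?_ PA PB PB' hPA hPB hPB'
    (fun A F hA _ => FA4_ht0 N m a hm A F hA) habs
  · intro A hA
    rw [FCT_hfin N m A (by omega), hA]; rfl
  · intro E hE
    rw [FCT_hfin N b0 E (by omega), hE]; rfl
  · intro E hE
    rw [FCT_hfin N b0 E (by omega), hE]
    unfold FA4_k0
    omega
  · intro E hE
    rw [FCT_hfin N (b0 + m) E (by omega), hE]; rfl
  · intro E hE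
    rw [FCT_hfin N (b0 + m) E (by omega), hE]
    unfold FA4_k1
    omega
  · intro E hE
    rw [FCT_hfin N (b0 + m + m) E (by omega), hE]; rfl
  · intro E hE
    rw [FCT_hfin N (b0 + m + m) E (by omega), hE]
    unfold FA4_k2
    omega

end

end Fermat.Agent.S17Lib
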