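import Fermat.Agent.S17.Geo.RatBasis
import Fermat.Agent.S17.Geo.Reduced
import Fermat.Agent.S17.Geo.Pencil
import Fermat.Agent.S17.WMW.Smooth
import Fermat.Agent.S24.PlaceOfOrder
import Fermat.Agent.S28.Transfer
import Fermat.Agent.S18.FiniteFT
import Fermat.Agent.Lib.FF.ThetaD

/-!
# S17, block FRAME-CURVE (FC): definitions

`oo N` the cusp `∞` of `X₀(N)`, `Dv N` the monoid of effective Galois stable divisors,
rational bases `bas N b` of `L(b∞)`, the coordinate subspaces `WB N b E` (over `ℚ̄`) and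
`WQ N b E` (over `ℚ`) of `L(b∞ - E)`, the Plücker height `FC_HH N b E`.
-/

set_option autoImplicit false
set_option synthInstance.maxHeartbeats 400000
set_option linter.unusedSectionVars false

open AlgebraicCurve ModularCurve

namespace Fermat.Agent.S17Lib

open Fermat.Agent.S18Lib Fermat.Agent.S24Lib Fermat.Agent.ESLib Fermat.Agent.FFLib
  Fermat.Agent.S28Lib

noncomputable section

/-- log Plücker height of a rational subspace (all maps `Fin k → ι` as index set) -/
def subH {ι : Type} [Fintype ι] [DecidableEq ι] (W : Submodule ℚ (ι → ℚ)) : ℝ :=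
  Height.logHeight (fun I : Fin (Module.finrank ℚ W) → ι =>
    Matrix.det (fun i j => ((Module.finBasis ℚ W i : W) : ι → ℚ) (I j)))

variable (N : ℕ) [NeZero N]

/-- the arithmetic Galois action on the function field -/
abbrev gq (σ : GQ) : SemilinearAut Qb (FB N) := arithmeticGalois (modularFunctionFieldFull N) σ

theorem exists_oo : ∃ v : Place Qb (FB N),
    ∀ f : FB N, f ≠ 0 → (f : LaurentSeries Qb).order = v.ord f := by
  have hne : ∀ f : FB N, f ≠ 0 → (f : LaurentSeries Qb) ≠ 0 := fun f hf h => hf (Subtype.ext h)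
  obtain ⟨v, m, hm, h⟩ := exists_place_of_order (K := Qb)
    (fun f : FB N => (f : LaurentSeries Qb).order)
    (fun f g hf hg => HahnSeries.order_mul (hne f hf) (hne g hg))
    (fun f g _ _ hfg => HahnSeries.min_order_le_order_add (hne _ hfg))
    (fun a _ => by
      change (algebraMap Qb (LaurentSeries Qb) a).order = 0
      rw [algebraMap_eq_C]
      exact HahnSeries.order_C)
    ⟨jBar N, by
      intro h
      have h1 := congrArg (fun f : FB N => (f : LaurentSeries Qb).order) h
      simp only [ff_coe_jBar, order_jqModC] at h1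
      simp at h1, by
      change ((jBar N : FB N) : LaurentSeries Qb).order ≠ 0
      rw [ff_coe_jBar, order_jqModC]
      norm_num⟩
  have hj : jBar N ≠ 0 := by
    intro h
    have h1 := congrArg (fun f : FB N => (f : LaurentSeries Qb).order) h
    simp only [ff_coe_jBar, order_jqModC] at h1
    simp at h1
  have h1 := h (jBar N) hj
  simp only [ff_coe_jBar, order_jqModC] at h1
  have hm1 : m = 1 := by
    have h2 : (m : ℤ) ∣ 1 := ⟨-(v.ord (jBar N)), by linarith⟩
    have h3 := Int.eq_one_of_dvd_one (by positivity) h2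
    exact_mod_cast h3
  subst hm1
  exact ⟨v, fun f hf => by rw [h f hf]; simp⟩

/-- the cusp `∞` -/
def oo : Place Qb (FB N) := (exists_oo N).choose

theorem oo_ord (f : FB N) (hf : f ≠ 0) : (f : LaurentSeries Qb).order = (oo N).ord f :=
  (exists_oo N).choose_spec f hf

/-- rational functions: fixed by the arithmetic Galois action -/
def IsRat (f : FB N) : Prop := ∀ σ : GQ, gq N σ • f = f

/-- the divisor `b∞ - E` -/
abbrev dvo (b : ℕ) (E : Divisor Qb (FB N)) : Divisor Qb (FB N) :=
  Finsupp.single (oo N) (b : ℤ) - E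

/-- effective Galois stable divisors -/
def DvS : AddSubmonoid (Divisor Qb (FB N)) where
  carrier := {E | 0 ≤ E ∧ ∀ σ : GQ, gq N σ • E = E}
  zero_mem' := ⟨le_refl _, fun σ => smul_zero _⟩
  add_mem' := by
    rintro E E' ⟨h1, h2⟩ ⟨h1', h2'⟩
    exact ⟨add_nonneg h1 h1', fun σ => by rw [smul_add, h2, h2']⟩

abbrev Dv : Type := ↥(DvS N)

/-- the Mordell-Weil group -/
abbrev MW : Type := ↥(FixedPoints.addSubgroup GQ (JZero N))

/-- dimension of `L(b∞)` -/
def dV (b : ℕ) : ℕ := ell (dvo N b 0)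

/-- the property of a rational basis of `L(b∞)` -/
def basP (b : ℕ) (β : Fin (dV N b) → FB N) : Prop :=
  (∀ i, IsRat N (β i)) ∧ LinearIndependent Qb β ∧
    Submodule.span Qb (Set.range β) = riemannRochSpace (dvo N b 0)

/-- a rational basis of `L(b∞)` (see `bas_spec`) -/
def bas (b : ℕ) : Fin (dV N b) → FB N := Classical.epsilon (basP N b)

/-- coordinates `→` functions -/
def vecB (b : ℕ) : (Fin (dV N b) → Qb) →ₗ[Qb] FB N := Fintype.linearCombination Qb (bas N b)

/-- `ℚ^d → ℚ̄^d` -/
def toQb (d : ℕ) : (Fin d → ℚ) →ₗ[ℚ] (Fin d → Qb) := (Algebra.linearMap ℚ Qb).compLeft (Fin d)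

/-- rational coordinates `→` functions -/
def vecQ (b : ℕ) (c : Fin (dV N b) → ℚ) : FB N := vecB N b (toQb _ c)

/-- `L(b∞ - E)` in coordinates over `ℚ̄` -/
def WB (b : ℕ) (E : Divisor Qb (FB N)) : Submodule Qb (Fin (dV N b) → Qb) :=
  (riemannRochSpace (dvo N b E)).comap (vecB N b)

/-- `L(b∞ - E)` in rational coordinates -/
def WQ (b : ℕ) (E : Divisor Qb (FB N)) : Submodule ℚ (Fin (dV N b) → ℚ) :=
  ((WB N b E).restrictScalars ℚ).comap (toQb (dV N b))

/-- the Plücker height `H_b(E)` -/
def FC_HH (b : ℕ) (E : Divisor Qb (FB N)) : ℝ := subH (WQ N b E)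

/-- the property of the structure constants -/
def tauP (m b : ℕ) (τ : Fin (dV N m) → Fin (dV N b) → Fin (dV N (b + m)) → ℚ) : Prop :=
  ∀ l i, bas N m l * bas N b i = vecQ N (b + m) (τ l i)

/-- structure constants of `L(m∞) × L(b∞) → L((b+m)∞)` (see `tau_spec`) -/
def tau (m b : ℕ) : Fin (dV N m) → Fin (dV N b) → Fin (dV N (b + m)) → ℚ :=
  Classical.epsilon (tauP N m b)

/-- multiplication by `vecQ m c` in coordinates -/
def mulQ (m b : ℕ) (c : Fin (dV N m) → ℚ) :
    (Fin (dV N b) → ℚ) →ₗ[ℚ] (Fin (dV N (b + m)) → ℚ) :=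
  Matrix.toLin' (Matrix.of fun j i => ∑ l, c l * tau N m b l i j)

/-- the zero divisor (including `∞`) `Z(f) = div f + m∞` of `f = vecQ m c` -/
def Zd (m : ℕ) (c : Fin (dV N m) → ℚ) : Divisor Qb (FB N) :=
  divOf Qb (vecQ N m c) + Finsupp.single (oo N) (m : ℤ)

end

end Fermat.Agent.S17Lib
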