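import Fermat.Agent.S17.FC.Fam
import Fermat.Agent.S17.FC.Thr
import Fermat.Agent.S17.FC.Mul
import Fermat.Agent.S17.Cube.NVgeo
import Fermat.Agent.S17.Cube.Defs2
import Fermat.Agent.S17.Cube.Fact2

/-!
# S17 FRAME-CURVE: the closed sets `FHT_Z` of the cube on the frame `FC`, their points, and the
non-vanishing hypotheses `hT`, `hT'` of `cube_abs` / `HQ_bound`.
-/

set_option autoImplicit false
set_option synthInstance.maxHeartbeats 400000
set_option linter.unusedSectionVars false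

open AlgebraicCurve ModularCurve

namespace Fermat.Agent.S17Lib

open Fermat.Agent.S18Lib Fermat.Agent.S24Lib Fermat.Agent.ESLib Fermat.Agent.FFLib
  Fermat.Agent.S28Lib

noncomputable section

variable (N : ℕ) [NeZero N]

/-- the rank bound for codegree `d` at level `b` -/
def FHT_r (b d : ℕ) : ℕ := b + (b + cFC N) + 1 - genusR Qb (FB N) - d

/-- the rank equations cutting out `{L(b∞ - E) : deg E = d}` in Stiefel coordinates -/
def FHT_Z (n : Type) (b d : ℕ) : Set (MvPolynomial (n × Fin (dV N b)) ℚ) :=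
  CL_rkPolys n (tau N (b + cFC N) b) (FHT_r N b d)

theorem FHT_degree_dvo (b : ℕ) (E : Divisor Qb (FB N)) :
    Divisor.degree (dvo N b E) = (b : ℤ) - Divisor.degree E := by
  rw [dvo, map_sub, degree_single' (isFF_FB N)]

/-- stability under `a ↦ g * a` (`hZA`, `hZB`, `hZB'` of `cube_abs`) -/
theorem FHT_gl {n : Type} [Fintype n] {L : Type*} [Field L] [Algebra ℚ L] (b d : ℕ)
    (g : Matrix n n L) (a : Matrix n (Fin (dV N b)) L)
    (h : ∀ f ∈ FHT_Z N n b d, MvPolynomial.aeval (fun x : n × Fin (dV N b) => a x.1 x.2) f = 0) :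
    ∀ f ∈ FHT_Z N n b d,
      MvPolynomial.aeval (fun x : n × Fin (dV N b) => (g * a) x.1 x.2) f = 0 :=
  CL_rk_gl _ _ g a h

theorem FHT_ell_BC (b : ℕ) :
    (FFLib.ell (dvo N b 0 + dvo N (b + cFC N) 0) : ℤ) =
      (b : ℤ) + (b + cFC N) + 1 - genusR Qb (FB N) := by
  rw [cFC_rr N _ (by rw [map_add, FHT_degree_dvo, FHT_degree_dvo, map_zero]; push_cast; omega),
    map_add, FHT_degree_dvo, FHT_degree_dvo, map_zero]
  push_cast
  ring

theorem FHT_r_cast (b d : ℕ) (hbd : d + cFC N ≤ b) :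
    (FHT_r N b d : ℤ) = (FFLib.ell (dvo N b 0 + dvo N (b + cFC N) 0) : ℤ) - d := by
  rw [FHT_ell_BC]
  have h2 := cFC_genus N
  unfold FHT_r
  omega

/-- a full rank `ℚ̄`-point of `FHT_Z` is `L(b∞ - E)` -/
theorem FHT_point {n : Type} [Fintype n] [DecidableEq n] (b d : ℕ) (hbd : d + cFC N + 1 ≤ b)
    (hn : Fintype.card n = b - d + 1 - genusR Qb (FB N))
    (a : Matrix n (Fin (dV N b)) Qb) (ha : plu a ≠ 0)
    (hZ : ∀ f ∈ FHT_Z N n b d,
      MvPolynomial.aeval (fun x : n × Fin (dV N b) => a x.1 x.2) f = 0) :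
    ∃ E : Divisor Qb (FB N), 0 ≤ E ∧ Divisor.degree E = d ∧
      CL_rowSp (bas N b) a = riemannRochSpace (dvo N b E) := by
  have h2 := cFC_genus N
  obtain ⟨E, hE0, hEd, hE⟩ := CL_point_geo (isFF_FB N) (c := (cFC N : ℤ)) (by positivity)
    (cFC_rr N) (dvo N b 0) (dvo N (b + cFC N) 0) (bas N (b + cFC N)) (bas N b)
    (bas N (b + (b + cFC N))) (tau N (b + cFC N) b) (CC_span_bas N _) (CC_span_bas N _)
    (CC_li_bas N _) (CC_li_bas N _) (CC_hcst N _ _ (FCM_tau_spec N _ _)) d (FHT_r N b d)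
    (by
      have h1 := cFC_rr N (dvo N b 0) (by rw [FHT_degree_dvo, map_zero]; omega)
      rw [FHT_degree_dvo, map_zero] at h1
      rw [h1, hn]
      omega)
    (FHT_r_cast N b d (by omega))
    (by rw [FHT_degree_dvo, map_zero]; omega)
    (by rw [map_sub, FHT_degree_dvo, FHT_degree_dvo, map_zero]; push_cast; omega)
    a ha hZ
  refine ⟨E, hE0, hEd, ?_⟩
  rw [hE]
  congr 1
  simp [dvo]

/-- `L(b∞ - E)` satisfies the equations (over `ℚ̄`) -/
theorem FHT_mem_Qb {n : Type} [Fintype n] [DecidableEq n] (b d : ℕ) (hbd : d + cFC N ≤ b)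
    (a : Matrix n (Fin (dV N b)) Qb) (E : Divisor Qb (FB N)) (hE : Divisor.degree E = d)
    (ha : CL_rowSp (bas N b) a = riemannRochSpace (dvo N b E)) :
    ∀ f ∈ FHT_Z N n b d,
      MvPolynomial.aeval (fun x : n × Fin (dV N b) => a x.1 x.2) f = 0 := by
  refine CL_geo_point (isFF_FB N) (cFC_rr N) (dvo N b 0) (dvo N (b + cFC N) 0)
    (bas N (b + cFC N)) (bas N b) (bas N (b + (b + cFC N))) (tau N (b + cFC N) b)
    (CC_span_bas N _) (CC_li_bas N _) (CC_hcst N _ _ (FCM_tau_spec N _ _)) d (FHT_r N b d)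
    (FHT_r_cast N b d hbd)
    (by rw [map_add, FHT_degree_dvo, FHT_degree_dvo, map_zero]; push_cast; omega)
    a E hE ?_
  rw [ha]
  congr 1
  simp [dvo]

/-- rational points: `L(b∞ - E)` satisfies the equations (over `ℚ`) -/
theorem FHT_mem {n : Type} [Fintype n] [DecidableEq n] (b d : ℕ) (hbd : d + cFC N ≤ b)
    (B : Matrix n (Fin (dV N b)) ℚ) (E : Divisor Qb (FB N)) (hE : Divisor.degree E = d)
    (ha : CL_rowSp (bas N b) (B.map (algebraMap ℚ Qb)) = riemannRochSpace (dvo N b E)) :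
    ∀ f ∈ FHT_Z N n b d,
      MvPolynomial.aeval (fun x : n × Fin (dV N b) => B x.1 x.2) f = 0 := by
  intro f hf
  have h1 := FHT_mem_Qb N b d hbd _ E hE ha f hf
  have h3 : MvPolynomial.aeval (fun x : n × Fin (dV N b) => B x.1 x.2) f =
      MvPolynomial.eval (fun x : n × Fin (dV N b) => B x.1 x.2) f :=
    RingHom.congr_fun (MvPolynomial.coe_aeval_eq_eval _) f
  rw [h3]
  exact (CL_eval_eq_zero_iff (L := Qb) _ f).mpr h1

/-- **hT** (determinant shape, `HQ_bound`) -/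
theorem FHT_hT {na n0 n1 n2 : Type} [Fintype na] [DecidableEq na] [Fintype n0] [DecidableEq n0]
    [Fintype n1] [DecidableEq n1] [Fintype n2] [DecidableEq n2]
    (m b1 da d1 : ℕ) (hm : da + cFC N + 1 ≤ m) (hb : d1 + m + cFC N + 1 ≤ b1)
    (hna : Fintype.card na = m - da + 1 - genusR Qb (FB N))
    (hn1 : Fintype.card n1 = b1 - d1 + 1 - genusR Qb (FB N))
    (hn0 : Fintype.card n0 = b1 - d1 - (m - da) + 1 - genusR Qb (FB N))
    (hn2 : Fintype.card n2 = b1 - d1 + (m - da) + 1 - genusR Qb (FB N))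
    (ε : n1 ⊕ n1 ≃ n0 ⊕ n2)
    (a : Matrix na (Fin (dV N m)) Qb) (b' : Matrix n1 (Fin (dV N b1)) Qb)
    (hZa : ∀ f ∈ FHT_Z N na m da,
      MvPolynomial.aeval (fun x : na × Fin (dV N m) => a x.1 x.2) f = 0)
    (hZb : ∀ f ∈ FHT_Z N n1 b1 d1,
      MvPolynomial.aeval (fun x : n1 × Fin (dV N b1) => b' x.1 x.2) f = 0)
    (ha : plu a ≠ 0) (hb' : plu b' ≠ 0) :
    ∃ s ∈ rsp a, ∃ t ∈ rsp a, ∃ J I, Tdet (tau N m b1) ε b' s t J I ≠ 0 := by
  have h2 := cFC_genus N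
  obtain ⟨A, hA0, hAd, hA⟩ := FHT_point N m da hm hna a ha hZa
  obtain ⟨E, hE0, hEd, hE⟩ := FHT_point N b1 d1 (by omega) hn1 b' hb' hZb
  have hdD : Divisor.degree (dvo N m A) = (m : ℤ) - da := by rw [FHT_degree_dvo, hAd]
  have hdD1 : Divisor.degree (dvo N b1 E) = (b1 : ℤ) - d1 := by rw [FHT_degree_dvo, hEd]
  obtain ⟨sF, tF, hp⟩ := exists_pencil (isFF_FB N) (cFC_rr N) (dvo N m A) (by rw [hdD]; omega)
  obtain ⟨s, hs, hsF⟩ := NV_exists_row_vec (bas N m) a sF (by rw [hA]; exact hp.1)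
  obtain ⟨t, ht, htF⟩ := NV_exists_row_vec (bas N m) a tF (by rw [hA]; exact hp.2.1)
  subst hsF htF
  refine ⟨s, hs, t, ht, ?_⟩
  refine NV_T_ne_zero (isFF_FB N) (cFC_rr N) (bas N m) (bas N b1) (bas N (b1 + m))
    (tau N m b1) (CC_li_bas N _) (CC_hcst N _ _ (FCM_tau_spec N _ _)) ε b'
    (dvo N m A) (dvo N b1 E) hE ?_ ?_ (by rw [hdD]; omega)
    (by rw [map_sub, hdD, hdD1]; omega) s t hp
  · have h1 := cFC_rr N (dvo N b1 E - dvo N m A) (by rw [map_sub, hdD, hdD1]; omega)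
    rw [map_sub, hdD, hdD1] at h1
    omega
  · have h1 := cFC_rr N (dvo N b1 E + dvo N m A) (by rw [map_add, hdD, hdD1]; omega)
    rw [map_add, hdD, hdD1] at h1
    omega

/-- **hT** (rank shape, `cube_abs`) -/
theorem FHT_hT_rank {na n0 n1 n2 : Type} [Fintype na] [DecidableEq na] [Fintype n0]
    [DecidableEq n0] [Fintype n1] [DecidableEq n1] [Fintype n2] [DecidableEq n2]
    (m b1 da d1 : ℕ) (hm : da + cFC N + 1 ≤ m) (hb : d1 + m + cFC N + 1 ≤ b1)
    (hna : Fintype.card na = m - da + 1 - genusR Qb (FB N))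
    (hn1 : Fintype.card n1 = b1 - d1 + 1 - genusR Qb (FB N))
    (hn0 : Fintype.card n0 = b1 - d1 - (m - da) + 1 - genusR Qb (FB N))
    (hn2 : Fintype.card n2 = b1 - d1 + (m - da) + 1 - genusR Qb (FB N))
    (ε : n1 ⊕ n1 ≃ n0 ⊕ n2)
    (a : Matrix na (Fin (dV N m)) Qb) (b' : Matrix n1 (Fin (dV N b1)) Qb)
    (hZa : ∀ f ∈ FHT_Z N na m da,
      MvPolynomial.aeval (fun x : na × Fin (dV N m) => a x.1 x.2) f = 0)
    (hZb : ∀ f ∈ FHT_Z N n1 b1 d1,
      MvPolynomial.aeval (fun x : n1 × Fin (dV N b1) => b' x.1 x.2) f = 0)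
    (ha : plu a ≠ 0) (hb' : plu b' ≠ 0) :
    ∃ s ∈ rsp a, ∃ t ∈ rsp a, Fintype.card n2 ≤
      Module.finrank Qb (Submodule.span Qb (Set.range (UMrow (tau N m b1) b' s t))) := by
  obtain ⟨s, hs, t, ht, J, I, hT⟩ :=
    FHT_hT N m b1 da d1 hm hb hna hn1 hn0 hn2 ε a b' hZa hZb ha hb'
  refine ⟨s, hs, t, ht, ?_⟩
  by_contra hlt
  exact hT (FACT_zero_of_finrank_lt (tau N m b1) ε b' s t
    (Submodule.span Qb (Set.range (UMrow (tau N m b1) b' s t)))
    (fun r => Submodule.subset_span (Set.mem_range_self r)) (not_le.mp hlt) J I)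

end

end Fermat.Agent.S17Lib
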