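import Fermat.Agent.S17.FC.Gal
import Fermat.Agent.S17.FC.WQ

/-!
# S17, FRAME-CURVE: the residual divisor of a rational section (fact (hZ) of (sieg))
-/

set_option autoImplicit false
set_option synthInstance.maxHeartbeats 400000

open AlgebraicCurve ModularCurve

namespace Fermat.Agent.S17Lib

open Fermat.Agent.S18Lib Fermat.Agent.S24Lib Fermat.Agent.ESLib Fermat.Agent.FFLib
  Fermat.Agent.S28Lib

noncomputable section

/-- an effective rational divisor linearly equivalent to a multiple of `∞` has class `0` -/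
theorem FG_dvCl_eq_zero {N : ℕ} [NeZero N] (E : Dv N) {f : FB N} (hf : f ≠ 0) (b : ℕ)
    (h : (E : Divisor Qb (FB N)) = divOf Qb f + Finsupp.single (oo N) (b : ℤ)) :
    dvCl N E = 0 := by
  have hb : dvDeg N E = b := by
    have h1 := coe_dvDeg E
    rw [h, map_add, degree_divOf (isFF_bar N), degree_single' (isFF_bar N), zero_add] at h1
    exact_mod_cast h1
  apply Subtype.ext
  rw [coe_dvCl]
  show (Pic0.mk (dvZero E) : JZero N) = 0
  apply (QuotientAddGroup.eq_zero_iff _).mpr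
  rw [AddSubgroup.mem_addSubgroupOf]
  refine (gb_principal_iff (isFF_bar N)).mpr ⟨f, hf, ?_⟩
  show (E : Divisor Qb (FB N)) - Finsupp.single (oo N) ((dvDeg N E : ℕ) : ℤ) = _
  rw [hb, h]
  abel

theorem FG_vecQ_ne_zero {N : ℕ} [NeZero N] {m : ℕ} {x : Fin (dV N m) → ℚ} (hx : x ≠ 0) :
    vecQ N m x ≠ 0 := by
  intro h
  apply hx
  apply vecQ_injective N m
  rw [h, vecQ_zero]

/-- fact (hZ) -/
theorem FG_hZ (N : ℕ) [NeZero N] (m : ℕ) (R : Dv N) (x : Fin (dV N m) → ℚ)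
    (hx : x ∈ WQ N m (R : Divisor Qb (FB N))) (hx0 : x ≠ 0) :
    ∃ E : Dv N, ((R + E : Dv N) : Divisor Qb (FB N)) = Zd N m x ∧
      dvDeg N E = m - dvDeg N R ∧ dvCl N E = - dvCl N R := by
  have hf0 := FG_vecQ_ne_zero hx0
  obtain ⟨G, hG, hdeg⟩ := exists_dvZ m R hf0 (isRat_vecQ N m x) ((mem_WQ N).mp hx)
  have hZ : ((R + G : Dv N) : Divisor Qb (FB N)) = Zd N m x := by
    show (R : Divisor Qb (FB N)) + (G : Divisor Qb (FB N)) = _
    rw [Zd, hG]
    abel
  refine ⟨G, hZ, by omega, ?_⟩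
  have h0 : dvCl N (R + G) = 0 := FG_dvCl_eq_zero (R + G) hf0 m hZ
  rw [map_add] at h0
  exact eq_neg_of_add_eq_zero_right h0

/-- `Z(f)` is an effective rational divisor of degree `m` and class `0` -/
theorem FG_Zd (N : ℕ) [NeZero N] (m : ℕ) (x : Fin (dV N m) → ℚ) (hx0 : x ≠ 0) :
    ∃ E : Dv N, (E : Divisor Qb (FB N)) = Zd N m x ∧ dvDeg N E = m ∧ dvCl N E = 0 := by
  have hx : x ∈ WQ N m ((0 : Dv N) : Divisor Qb (FB N)) := (mem_WQ N).mpr (vecQ_mem N m x)
  obtain ⟨E, h1, h2, h3⟩ := FG_hZ N m 0 x hx hx0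
  refine ⟨E, by rw [← h1, zero_add], by rw [h2, map_zero]; omega, by rw [h3, map_zero, neg_zero]⟩

end

end Fermat.Agent.S17Lib
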