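import Fermat.Agent.S17.FC.GalZ
import Fermat.Agent.S17.PL.Sub

/-!
# S17, FRAME-CURVE: the input (inv) of `FDa.Inputs`
-/

set_option autoImplicit false
set_option synthInstance.maxHeartbeats 400000

open AlgebraicCurve ModularCurve

namespace Fermat.Agent.S17Lib

open Fermat.Agent.S18Lib Fermat.Agent.S24Lib Fermat.Agent.ESLib Fermat.Agent.FFLib
  Fermat.Agent.S28Lib

noncomputable section

theorem FI4_isRat_div {N : ℕ} {f u : FB N} (hf : IsRat N f) (hu : IsRat N u) :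
    IsRat N (f / u) := by
  intro σ
  rw [div_eq_mul_inv, smul_mul', smul_inv'', hf σ, hu σ]

/-- geometric core of (inv): two sections with the same residual divisor -/
theorem FI4_exists_pair (N : ℕ) [NeZero N] (m : ℕ) (E E' : Dv N)
    (hdeg : dvDeg N E = dvDeg N E') (hcl : dvCl N E = dvCl N E')
    (hpos : 0 < Module.finrank ℚ (WQ N m (E' : Divisor Qb (FB N)))) :
    ∃ x x' : Fin (dV N m) → ℚ, x ≠ 0 ∧ x' ≠ 0 ∧
      (E : Divisor Qb (FB N)) + Zd N m x' = (E' : Divisor Qb (FB N)) + Zd N m x := by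
  obtain ⟨u, hu0, hu, hdiv⟩ := (dvCl_eq_iff hdeg).mp hcl
  obtain ⟨⟨x', hx'⟩, hx'0⟩ : ∃ y : WQ N m (E' : Divisor Qb (FB N)), y ≠ 0 := by
    have : Nontrivial (WQ N m (E' : Divisor Qb (FB N))) := Module.nontrivial_of_finrank_pos hpos
    exact exists_ne 0
  have hx'0' : x' ≠ 0 := fun h => hx'0 (Subtype.ext h)
  have hf'0 := FG_vecQ_ne_zero (N := N) hx'0'
  have hf'mem : vecQ N m x' ∈ riemannRochSpace (dvo N m (E' : Divisor Qb (FB N))) :=
    (mem_WQ N).mp hx'
  have hf0 : vecQ N m x' / u ≠ 0 := div_ne_zero hf'0 hu0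
  have hdivf : divOf Qb (vecQ N m x' / u) = divOf Qb (vecQ N m x') - divOf Qb u := by
    ext v
    rw [Finsupp.sub_apply, divOf_apply (isFF_bar N), divOf_apply (isFF_bar N),
      divOf_apply (isFF_bar N), div_eq_mul_inv, v.ord_mul hf'0 (inv_ne_zero hu0), v.ord_inv]
    ring
  have hmem : vecQ N m x' / u ∈ riemannRochSpace (dvo N m 0) := by
    rw [mem_L_iff]
    intro v
    right
    have h1 := dg_add_divOf_nonneg (isFF_bar N) hf'mem hf'0 v
    have h2 := congrArg (fun D : Divisor Qb (FB N) => D v) hdivf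
    have h3 := congrArg (fun D : Divisor Qb (FB N) => D v) hdiv
    have h4 := FG_nonneg E v
    simp only [Finsupp.sub_apply, Finsupp.add_apply, Finsupp.zero_apply, dvo,
      divOf_apply (isFF_bar N)] at h1 h2 h3 h4 ⊢
    omega
  obtain ⟨x, hx⟩ := exists_vecQ_of_isRat N hmem (FI4_isRat_div (isRat_vecQ N m x') hu)
  have hx0 : x ≠ 0 := by
    rintro rfl
    rw [vecQ_zero] at hx
    exact hf0 hx.symm
  refine ⟨x, x', hx0, hx'0', ?_⟩
  rw [Zd, Zd, hx, hdivf, ← hdiv]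
  abel

/-- **(inv)** from the frame facts -/
theorem FI4_inv (N : ℕ) [NeZero N] (g c : ℕ) (hgc : g ≤ c)
    (hfin : ∀ (b : ℕ) (E : Dv N), dvDeg N E + c ≤ b →
      Module.finrank ℚ (WQ N b (E : Divisor Qb (FB N))) = b - dvDeg N E + 1 - g)
    (hnzd : ∀ (m b : ℕ) (f : Fin (dV N m) → AlgebraicClosure ℚ)
      (w : Fin (dV N b) → AlgebraicClosure ℚ),
      (∀ l, ∑ a, ∑ i, f a * w i * algebraMap ℚ (AlgebraicClosure ℚ) (tau N m b a i l) = 0) →
        f = 0 ∨ w = 0)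
    (hmul : ∀ (m b : ℕ) (E : Dv N) (x : Fin (dV N m) → ℚ), x ≠ 0 →
      (WQ N b (E : Divisor Qb (FB N))).map (mulQ N m b x)
        = WQ N (b + m) ((E : Divisor Qb (FB N)) + Zd N m x)) :
    ∀ n B : ℕ, ∃ C : ℝ, ∀ E E' : Dv N, dvDeg N E = n → dvDeg N E' = n → dvCl N E = dvCl N E' →
      ∃ δ : ℝ, ∀ b : ℕ, n + c ≤ b → b ≤ B →
        |FC_HH N b (E : Divisor Qb (FB N)) - FC_HH N b (E' : Divisor Qb (FB N))
          - ((b : ℝ) - n + 1 - g) * δ| ≤ C := by
  intro n B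
  have h := fun b : ℕ => PL_subH_mul_abs (tau N (n + c) b) (hnzd (n + c) b)
  choose C hC using h
  refine ⟨2 * ∑ b ∈ Finset.range (B + 1), |C b|, fun E E' hE hE' hcl => ?_⟩
  have hpos : 0 < Module.finrank ℚ (WQ N (n + c) (E' : Divisor Qb (FB N))) := by
    rw [hfin (n + c) E' (by omega)]
    omega
  obtain ⟨x, x', hx0, hx'0, hZ⟩ := FI4_exists_pair N (n + c) E E' (by rw [hE, hE']) hcl hpos
  refine ⟨Height.logHeight x - Height.logHeight x', fun b hb hbB => ?_⟩
  have h1 := hC b x' (WQ N b (E : Divisor Qb (FB N))) hx'0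
  have h2 := hC b x (WQ N b (E' : Divisor Qb (FB N))) hx0
  have e1 : (WQ N b (E : Divisor Qb (FB N))).map
      (Matrix.toLin' (Matrix.of fun j i => ∑ l, x' l * tau N (n + c) b l i j))
      = WQ N (b + (n + c)) ((E : Divisor Qb (FB N)) + Zd N (n + c) x') := hmul (n + c) b E x' hx'0
  have e2 : (WQ N b (E' : Divisor Qb (FB N))).map
      (Matrix.toLin' (Matrix.of fun j i => ∑ l, x l * tau N (n + c) b l i j))
      = WQ N (b + (n + c)) ((E' : Divisor Qb (FB N)) + Zd N (n + c) x) := hmul (n + c) b E' x hx0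
  rw [e1, hfin b E (by omega), hE] at h1
  rw [e2, hfin b E' (by omega), hE', ← hZ] at h2
  have hk : ((b - n + 1 - g : ℕ) : ℝ) = (b : ℝ) - n + 1 - g := by
    have h3 : n ≤ b := by omega
    have h4 : g ≤ b - n + 1 := by omega
    rw [Nat.cast_sub h4, Nat.cast_add, Nat.cast_sub h3]
    simp
  rw [hk] at h1 h2
  have hCb : C b ≤ ∑ b ∈ Finset.range (B + 1), |C b| :=
    le_trans (le_abs_self _) (Finset.single_le_sum (f := fun b => |C b|)
      (fun i _ => abs_nonneg _) (Finset.mem_range.mpr (by omega)))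
  rw [abs_le] at h1 h2 ⊢
  unfold FC_HH
  constructor <;> nlinarith [h1.1, h1.2, h2.1, h2.2]

end

end Fermat.Agent.S17Lib
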