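import Fermat.Agent.S17.FC.Shift
import Fermat.Agent.S17.NorthcottPlu

/-!
# S17, block FRAME-CURVE: (north) in the shape of `PNa.Extra.north`
-/

set_option autoImplicit false
set_option synthInstance.maxHeartbeats 400000
set_option linter.unusedSectionVars false

open AlgebraicCurve ModularCurve Matrix

namespace Fermat.Agent.S17Lib

open Fermat.Agent.S18Lib Fermat.Agent.S24Lib Fermat.Agent.ESLib Fermat.Agent.FFLib
  Fermat.Agent.S28Lib

noncomputable section

/-- Northcott for `subH`: finitely many subspaces of bounded height -/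
theorem FCs_northcott_subH {ι : Type} [Fintype ι] [DecidableEq ι] (T : ℝ) :
    {W : Submodule ℚ (ι → ℚ) | subH W ≤ T}.Finite := by
  have h : {W : Submodule ℚ (ι → ℚ) | subH W ≤ T} ⊆
      ⋃ k : Fin (Fintype.card ι + 1), {W : Submodule ℚ (ι → ℚ) |
        ∃ B : Matrix (Fin (k : ℕ)) ι ℚ, LinearIndependent ℚ B.row ∧
          Submodule.span ℚ (Set.range B.row) = W ∧ Height.logHeight (plu B) ≤ T} := by
    intro W hW
    have hk : Module.finrank ℚ W < Fintype.card ι + 1 := by
      have := Submodule.finrank_le W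
      rw [Module.finrank_fintype_fun_eq_card] at this
      omega
    rw [Set.mem_iUnion]
    exact ⟨⟨Module.finrank ℚ W, hk⟩, FCs_mat W, FCs_mat_li W, FCs_mat_span W, hW⟩
  exact (Set.finite_iUnion fun k => northcott_plucker T).subset h

variable (N : ℕ) [NeZero N]

/-- **(north)**: `c` any natural number which is a Riemann-Roch bound -/
theorem FCs_north {c : ℕ} (hc : IsRRBound Qb (FB N) (c : ℤ)) (b n : ℕ) (T : ℝ)
    (hb : n + c + 1 ≤ b) :
    {E : Dv N | dvDeg N E = n ∧ FC_HH N b (E : Divisor Qb (FB N)) ≤ T}.Finite := by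
  have h1 : Set.InjOn (fun E : Dv N => WQ N b (E : Divisor Qb (FB N)))
      {E : Dv N | dvDeg N E = n ∧ FC_HH N b (E : Divisor Qb (FB N)) ≤ T} := by
    apply (FCs_WQ_injOn N hc b).mono
    rintro E ⟨hE, -⟩
    show (c : ℤ) + 1 + (dvDeg N E : ℤ) ≤ b
    rw [hE]
    omega
  apply Set.Finite.of_finite_image _ h1
  apply (FCs_northcott_subH (ι := Fin (dV N b)) T).subset
  rintro _ ⟨E, ⟨-, hE⟩, rfl⟩
  exact hE

end

end Fermat.Agent.S17Lib
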