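import Fermat.Agent.S17.FC.Mul

/-!
# S17 FRAME-CURVE (F3b): multiplication over `ℚ̄` in coordinates, no zero divisors
-/

set_option autoImplicit false
set_option synthInstance.maxHeartbeats 400000
set_option linter.unusedSectionVars false

open AlgebraicCurve ModularCurve

namespace Fermat.Agent.S17Lib

open Fermat.Agent.S18Lib Fermat.Agent.S24Lib Fermat.Agent.ESLib Fermat.Agent.FFLib
  Fermat.Agent.S28Lib

noncomputable section

variable (N : ℕ) [NeZero N]

/-- multiplication over `ℚ̄` in the coordinates `bas` -/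
theorem FCM_vecB_mul (m b : ℕ) (f : Fin (dV N m) → Qb) (w : Fin (dV N b) → Qb) :
    vecB N m f * vecB N b w =
      vecB N (b + m) (fun l => ∑ a, ∑ i, f a * w i * algebraMap ℚ Qb (tau N m b a i l)) := by
  rw [FCM_vecB_apply N m, FCM_vecB_apply N b, Finset.sum_mul_sum]
  have h : ∀ a i, (f a • bas N m a) * (w i • bas N b i)
      = ∑ l, (f a * w i * algebraMap ℚ Qb (tau N m b a i l)) • bas N (b + m) l := by
    intro a i
    rw [smul_mul_smul_comm, FCM_tau_spec N m b a i, FCM_vecQ_apply, Finset.smul_sum]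
    refine Finset.sum_congr rfl fun l _ => ?_
    rw [smul_smul]
  simp only [h]
  rw [FCM_vecB_apply]
  simp only [Finset.sum_smul]
  symm
  rw [Finset.sum_comm]
  exact Finset.sum_congr rfl fun l _ => Finset.sum_comm

/-- no zero divisors over `ℚ̄` (hypothesis `hnzd` of `M_abs`, `PL_subH_mul_abs`, `FC_sieg`) -/
theorem FCM_nzd (m b : ℕ) (f : Fin (dV N m) → AlgebraicClosure ℚ)
    (w : Fin (dV N b) → AlgebraicClosure ℚ)
    (h : ∀ l, ∑ a, ∑ i, f a * w i * algebraMap ℚ (AlgebraicClosure ℚ) (tau N m b a i l) = 0) :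
    f = 0 ∨ w = 0 := by
  have h1 := FCM_vecB_mul N m b f w
  have h2 : (fun l => ∑ a, ∑ i, f a * w i * algebraMap ℚ Qb (tau N m b a i l)) = 0 := funext h
  rw [h2, map_zero] at h1
  rcases mul_eq_zero.mp h1 with h3 | h3
  · left
    exact FCM_vecB_injective N m (h3.trans (map_zero _).symm)
  · right
    exact FCM_vecB_injective N b (h3.trans (map_zero _).symm)

/-- `hmul` of `FC_sieg` -/
theorem FCM_hmul (m b : ℕ) (x : Fin (dV N m) → ℚ) (hx : x ≠ 0) :
    (WQ N b 0).map (mulQ N m b x) = WQ N (b + m) (Zd N m x) := by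
  rw [FCM_map_mulQ_WQ N m b hx (le_refl 0), zero_add]

end

end Fermat.Agent.S17Lib
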