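import Fermat.Agent.S17.FC.Defs
import Fermat.Agent.S17.PL.Sub
import Fermat.Agent.S17.Siegel

/-!
# S17, FRAME-CURVE: the height core of (sieg)

* `FCS_siegel_sub` : Siegel's lemma for a subspace `W ⊆ ℚ^d` in terms of `subH W`
* `FCS_core`       : a small `f ∈ L(m∞ - R)(ℚ)`; the heights `H_B (Z(f))` grow like `h(f)`
-/

set_option autoImplicit false
set_option linter.unusedSectionVars false

open AlgebraicCurve ModularCurve

namespace Fermat.Agent.S17Lib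

open Fermat.Agent.S18Lib Fermat.Agent.S24Lib Fermat.Agent.ESLib Fermat.Agent.FFLib
  Fermat.Agent.S28Lib

open Matrix Height

/-- Siegel's lemma for the span of an independent family -/
theorem FCS_siegel_aux {d k : ℕ} (W : Submodule ℚ (Fin d → ℚ)) (hk : 0 < k)
    (w : Fin k → Fin d → ℚ) (hw : LinearIndependent ℚ w)
    (hs : Submodule.span ℚ (Set.range w) = W) :
    ∃ c ∈ W, c ≠ 0 ∧ (k : ℝ) * logHeight c ≤ subH W + (k : ℝ) * Real.log k := by
  obtain ⟨a, ha, hle⟩ := siegel_plucker hk (Matrix.of w) hw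
  have hH : subH W = logHeight (fun I : Fin k → Fin d => ((Matrix.of w).submatrix id I).det) :=
    PL_subH_eq W w hw hs
  have hc : a ᵥ* (Matrix.of w) = ∑ i, a i • w i := by
    funext j
    simp [Matrix.vecMul, dotProduct]
  refine ⟨a ᵥ* (Matrix.of w), ?_, ?_, ?_⟩
  · rw [hc, ← hs]
    exact Submodule.sum_mem _ fun i _ =>
      Submodule.smul_mem _ _ (Submodule.subset_span ⟨i, rfl⟩)
  · intro h0
    rw [hc] at h0
    apply ha
    funext i
    exact (Fintype.linearIndependent_iff.1 hw) a h0 i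
  · rw [hH]
    have hk' : (0 : ℝ) < (k : ℝ) := by exact_mod_cast hk
    have := mul_le_mul_of_nonneg_left hle hk'.le
    rw [mul_add, mul_div_cancel₀ _ hk'.ne'] at this
    exact this

/-- Siegel's lemma for a subspace, in terms of `subH` -/
theorem FCS_siegel_sub {d : ℕ} (W : Submodule ℚ (Fin d → ℚ)) (hk : 0 < Module.finrank ℚ W) :
    ∃ c ∈ W, c ≠ 0 ∧ (Module.finrank ℚ W : ℝ) * logHeight c
      ≤ subH W + (Module.finrank ℚ W : ℝ) * Real.log (Module.finrank ℚ W) := by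
  obtain ⟨w, hw, hs⟩ := PL_exists_basis W
  exact FCS_siegel_aux W hk w hw hs

variable (N : ℕ) [NeZero N]

/-- the height core of (sieg) -/
theorem FCS_core (m b k : ℕ) (hk : 0 < k)
    (hnzd0 : ∀ (f : Fin (dV N m) → AlgebraicClosure ℚ) (w : Fin (dV N b) → AlgebraicClosure ℚ),
      (∀ l, ∑ a, ∑ i, f a * w i * algebraMap ℚ (AlgebraicClosure ℚ) (tau N m b a i l) = 0) →
      f = 0 ∨ w = 0)
    (hnzd1 : ∀ (f : Fin (dV N m) → AlgebraicClosure ℚ)
      (w : Fin (dV N (b + 1)) → AlgebraicClosure ℚ),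
      (∀ l, ∑ a, ∑ i, f a * w i * algebraMap ℚ (AlgebraicClosure ℚ) (tau N m (b + 1) a i l) = 0) →
      f = 0 ∨ w = 0)
    (hd : dV N (b + 1) = dV N b + 1)
    (hmul0 : ∀ c : Fin (dV N m) → ℚ, c ≠ 0 →
      (⊤ : Submodule ℚ (Fin (dV N b) → ℚ)).map (mulQ N m b c) = WQ N (b + m) (Zd N m c))
    (hmul1 : ∀ c : Fin (dV N m) → ℚ, c ≠ 0 →
      (⊤ : Submodule ℚ (Fin (dV N (b + 1)) → ℚ)).map (mulQ N m (b + 1) c)
        = WQ N (b + 1 + m) (Zd N m c)) :
    ∃ C : ℝ, ∀ R : Divisor Qb (FB N), Module.finrank ℚ (WQ N m R) = k →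
      ∃ c ∈ WQ N m R, c ≠ 0 ∧
        (k : ℝ) * (FC_HH N (b + 1 + m) (Zd N m c) - FC_HH N (b + m) (Zd N m c))
          ≤ FC_HH N m R + C := by
  obtain ⟨C0, hC0⟩ := PL_subH_mul_abs (tau N m b) hnzd0
  obtain ⟨C1, hC1⟩ := PL_subH_mul_abs (tau N m (b + 1)) hnzd1
  set t0 := subH (⊤ : Submodule ℚ (Fin (dV N b) → ℚ)) with ht0
  set t1 := subH (⊤ : Submodule ℚ (Fin (dV N (b + 1)) → ℚ)) with ht1
  refine ⟨(k : ℝ) * Real.log k + (k : ℝ) * (t1 - t0 + C0 + C1), fun R hR => ?_⟩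
  obtain ⟨c, hcW, hc0, hle⟩ := FCS_siegel_sub (WQ N m R) (by rw [hR]; exact hk)
  rw [hR] at hle
  refine ⟨c, hcW, hc0, ?_⟩
  have h0 := hC0 c ⊤ hc0
  have h1 := hC1 c ⊤ hc0
  have e0 : subH ((⊤ : Submodule ℚ (Fin (dV N b) → ℚ)).map
      (Matrix.toLin' (Matrix.of fun j i => ∑ l, c l * tau N m b l i j)))
      = FC_HH N (b + m) (Zd N m c) := by
    have := hmul0 c hc0
    unfold mulQ at this
    rw [this]
    rfl
  have e1 : subH ((⊤ : Submodule ℚ (Fin (dV N (b + 1)) → ℚ)).map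
      (Matrix.toLin' (Matrix.of fun j i => ∑ l, c l * tau N m (b + 1) l i j)))
      = FC_HH N (b + 1 + m) (Zd N m c) := by
    have := hmul1 c hc0
    unfold mulQ at this
    rw [this]
    rfl
  rw [e0] at h0
  rw [e1] at h1
  have f0 : (Module.finrank ℚ (⊤ : Submodule ℚ (Fin (dV N b) → ℚ)) : ℝ) = (dV N b : ℝ) := by
    simp
  have f1 : (Module.finrank ℚ (⊤ : Submodule ℚ (Fin (dV N (b + 1)) → ℚ)) : ℝ)
      = (dV N b : ℝ) + 1 := by
    simp [hd]
  rw [f0] at h0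
  rw [f1] at h1
  have h0' := (abs_le.1 h0).1
  have h1' := (abs_le.1 h1).2
  have hk' : (0 : ℝ) ≤ (k : ℝ) := by positivity
  have hdiff : FC_HH N (b + 1 + m) (Zd N m c) - FC_HH N (b + m) (Zd N m c)
      ≤ logHeight c + (t1 - t0 + C0 + C1) := by
    linarith
  have := mul_le_mul_of_nonneg_left hdiff hk'
  have hH : FC_HH N m R = subH (WQ N m R) := rfl
  rw [hH]
  nlinarith

end Fermat.Agent.S17Lib
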